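import Fermat.Agent.RT.Lift59.Galois.PlaceP
import Fermat.Agent.CFT.Tangent.OrdinaryBound

/-!
# Ordinary classes vanishing at an element seeing only the `p`-part

The Kummer cocycle of `p ^ (1 / p)` is a class on the decomposition group not vanishing at `τ`, so
the classes on the line that do vanish at `τ` are at most one modulo coboundaries.
-/

set_option autoImplicit false
set_option linter.style.haveILetI false

noncomputable section

namespace Fermat.Agent.RT.Lift59.Galois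

open Fermat.Agent.Deform Fermat.Agent.CFT.Tangent Fermat.Agent.Arith Module
open Fermat.Agent.RT.Strict
open scoped Pointwise

variable {p : ℕ} [Fact p.Prime] {k : Type} [Field k] [Finite k] [CharP k p]

omit [Finite k] in
/-- The Kummer cocycle of a root of `p`. -/
theorem exists_kummer_cocycle (a : Gal → k)
    (ha : ∀ (σ : Gal) (n : ℕ), (∀ μ : QBar, μ ^ p = 1 → σ μ = μ ^ n) → a σ = (n : k))
    {π : QBar} (hπ : π ^ p = (p : QBar)) :
    ∃ κ : Gal → k, (∀ s t : Gal, κ (s * t) = a s * κ t + κ s) ∧ ∀ s : Gal, κ s = 0 ↔ s π = π := by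
  have hp : p.Prime := Fact.out
  haveI : NeZero p := ⟨hp.ne_zero⟩
  obtain ⟨ζ, hζ⟩ := HasEnoughRootsOfUnity.exists_primitiveRoot QBar p
  have hπ0 : π ≠ 0 := fun h => Nat.cast_ne_zero.mpr hp.ne_zero (by
    rw [← hπ, h, zero_pow hp.ne_zero] : (p : QBar) = 0)
  have hex : ∀ s : Gal, ∃ e : ℕ, s π = ζ ^ e * π := fun s => by
    obtain ⟨e, -, he⟩ := hζ.eq_pow_of_pow_eq_one (ξ := s π / π)
      (by rw [div_pow, ← map_pow, hπ, map_natCast, div_self (Nat.cast_ne_zero.mpr hp.ne_zero)])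
    exact ⟨e, by rw [he, div_mul_cancel₀ _ hπ0]⟩
  choose e he using hex
  have key : ∀ m n : ℕ, ζ ^ m = ζ ^ n ↔ (m : k) = (n : k) := fun m n => by
    rw [CharP.natCast_eq_natCast k p]
    refine ⟨fun h => ?_, fun h => ?_⟩
    · rw [pow_eq_pow_mod _ hζ.pow_eq_one, pow_eq_pow_mod n hζ.pow_eq_one] at h
      exact hζ.pow_inj (Nat.mod_lt _ hp.pos) (Nat.mod_lt _ hp.pos) h
    · rw [pow_eq_pow_mod _ hζ.pow_eq_one, pow_eq_pow_mod n hζ.pow_eq_one, h]
  refine ⟨fun s => (e s : k), fun s t => ?_, fun s => ?_⟩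
  · obtain ⟨n, hn⟩ := exists_pow_eq_on_roots p s
    have h : ζ ^ e (s * t) = ζ ^ (n * e t + e s) := mul_right_cancel₀ hπ0 (by
      rw [← he, AlgEquiv.mul_apply, he t, map_mul, he s, map_pow, hn ζ hζ.pow_eq_one, ← pow_mul,
        pow_add, mul_assoc])
    show (e (s * t) : k) = a s * (e t : k) + (e s : k)
    rw [ha s n hn, (key _ _).mp h, Nat.cast_add, Nat.cast_mul]
  · rw [← Nat.cast_zero, ← key, pow_zero, he s]
    exact ⟨fun h => by rw [h, one_mul], fun h => mul_right_cancel₀ hπ0 (by rw [h, one_mul])⟩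

/-- Cyclotomic cocycles vanishing at `τ` give at most one class. -/
theorem finrank_kummer_le_tau (hp2 : p ≠ 2) (a : Gal → k)
    (ha : ∀ (σ : Gal) (n : ℕ), (∀ μ : QBar, μ ^ p = 1 → σ μ = μ ^ n) → a σ = (n : k))
    (Z : Submodule k (Gal → k)) [Module.Finite k Z]
    (hZ : ∀ β ∈ Z, ∀ s ∈ (padicPlace p).decompositionSubgroup ℚ,
      ∀ t ∈ (padicPlace p).decompositionSubgroup ℚ, β (s * t) = a s * β t + β s)
    (L : IntermediateField ℚ QBar) [Normal ℚ L] [FiniteDimensional ℚ L]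
    (hlev : ∀ β ∈ Z, ∀ σ : Gal, (∀ x ∈ L, σ x = x) → β σ = 0)
    {τ : Gal} (hτD : τ ∈ (padicPlace p).decompositionSubgroup ℚ) (hτa : a τ = 1)
    (hτ0 : ∀ β ∈ Z, β τ = 0) {π : QBar} (hπ : π ^ p = (p : QBar)) (hτπ : τ π ≠ π) :
    finrank k Z ≤ finrank k (Z ⊓ scalarCobdOn a ((padicPlace p).decompositionSubgroup ℚ) :
      Submodule k (Gal → k)) + 1 := by
  obtain ⟨κ, hκ, hκ0⟩ := exists_kummer_cocycle a ha hπ
  set D := (padicPlace p).decompositionSubgroup ℚ
  set B := scalarCobdOn a D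
  have hκτ : κ τ ≠ 0 := fun h => hτπ ((hκ0 τ).mp h)
  haveI : FiniteDimensional ℚ (IntermediateField.adjoin ℚ {π}) :=
    IntermediateField.adjoin.finiteDimensional (Algebra.IsIntegral.isIntegral π)
  haveI : Normal ℚ QBar := IsAlgClosure.normal ℚ QBar
  let M : IntermediateField ℚ QBar := L ⊔ IntermediateField.adjoin ℚ {π}
  haveI : Normal ℚ (IntermediateField.normalClosure ℚ M QBar) := normalClosure.normal ℚ M QBar
  set Z' : Submodule k (Gal → k) := Z ⊔ Submodule.span k {κ} with hZ'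
  have hmem : ∀ β ∈ Z', ∃ z ∈ Z, ∃ c : k, z + c • κ = β := fun β hβ => by
    obtain ⟨z, hz, y, hy, rfl⟩ := Submodule.mem_sup.mp hβ
    obtain ⟨c, rfl⟩ := Submodule.mem_span_singleton.mp hy
    exact ⟨z, hz, c, rfl⟩
  have hcoc : ∀ β ∈ Z', ∀ s ∈ D, ∀ t ∈ D, β (s * t) = a s * β t + β s := by
    intro β hβ s hs t ht
    obtain ⟨z, hz, c, rfl⟩ := hmem β hβ
    simp only [Pi.add_apply, Pi.smul_apply, smul_eq_mul, hZ z hz s hs t ht, hκ s t]
    ring
  have hlev' : ∀ β ∈ Z', ∀ σ : Gal,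
      (∀ x ∈ IntermediateField.normalClosure ℚ M QBar, σ x = x) → β σ = 0 := by
    intro β hβ σ hσ
    obtain ⟨z, hz, c, rfl⟩ := hmem β hβ
    rw [Pi.add_apply, Pi.smul_apply, hlev z hz σ fun x hx =>
        hσ x (M.le_normalClosure (le_sup_left (α := IntermediateField ℚ QBar) hx)),
      (hκ0 σ).mpr (hσ π (M.le_normalClosure ((le_sup_right (α := IntermediateField ℚ QBar) (a := L))
        (IntermediateField.subset_adjoin ℚ _ (Set.mem_singleton π))))), smul_zero, add_zero]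
  have h1 := finrank_kummer_le hp2 a ha Z' hcoc _ hlev'
  have hBτ : ∀ β ∈ B, β τ = 0 := fun β ⟨c, hc⟩ => by rw [hc τ hτD, hτa, sub_self, zero_mul]
  have hinf : (Z' ⊓ B : Submodule k (Gal → k)) = Z ⊓ B := by
    refine le_antisymm (fun β hβ => ⟨?_, hβ.2⟩) (inf_le_inf_right _ le_sup_left)
    obtain ⟨z, hz, c, rfl⟩ := hmem β hβ.1
    have h := hBτ _ hβ.2
    rw [Pi.add_apply, Pi.smul_apply, hτ0 z hz, zero_add, smul_eq_mul] at h
    rw [(mul_eq_zero.mp h).resolve_right hκτ, zero_smul, add_zero]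
    exact hz
  have hlt : Z < Z' := SetLike.lt_iff_le_and_exists.mpr ⟨le_sup_left, κ,
    Submodule.mem_sup_right (Submodule.mem_span_singleton_self κ), fun h => hκτ (hτ0 κ h)⟩
  have h2 := Submodule.finrank_lt_finrank_of_lt hlt
  rw [hinf] at h1
  omega

/-- Strictly ordinary classes vanishing at `τ` are one fewer than strictly ordinary classes. -/
theorem nodeBoundInput : NodeBoundInput := by
  intro k _ _ p _ _ hp2 r hr hcyc τ hτ hrτ W _ hcoc hlev hord hτW
  have h2 : (2 : k) ≠ 0 := fun h => hp2 ((Nat.prime_dvd_prime_iff_eq (Fact.out : p.Prime)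
    Nat.prime_two).mp ((CharP.cast_eq_zero_iff k p 2).mp (by exact_mod_cast h)))
  rcases eq_or_ne W ⊥ with rfl | hW
  · simp [finrank_bot]
  obtain ⟨π, hπ, hτπ⟩ := hτ.moves
  obtain ⟨N, H, hH, hN, hli, h1, h2', h3⟩ := exists_line_of_ordinary h2 hcyc W hW hord
  exact finrank_le_of_line_classes h2 hr (fun σ => (r σ).det) W hcoc hlev hH hN hli h1 h2' h3
    {τ} (fun _ h => h ▸ hrτ) (fun b hb _ h => h ▸ hτW b hb) 0 fun Z _ L _ _ hZ hlevZ hτZ =>
      finrank_kummer_le_tau hp2 _ hcyc Z hZ L hlevZ (Subgroup.map_subtype_le _ hτ.mem)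
        (by rw [hrτ, Matrix.det_one]) (fun β hβ => hτZ β hβ τ rfl) hπ hτπ

end Fermat.Agent.RT.Lift59.Galois

end
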