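import Fermat.Agent.RT.Lift59.Galois.Twist
import Fermat.Agent.RT.MazurP.LocalE

/-!
# The extension on `E[p]` at a multiplicative `p`

With a frame `R`, `S` of `E[p]` and `u` a Kummer element of the extension class of `S` by `R`:
when the order of `u ^ p` is divisible by `p`, so is the exponent of the discriminant.
-/

set_option autoImplicit false
set_option linter.unusedSectionVars false
set_option linter.style.haveILetI false

open scoped WeierstrassCurve.Affine Pointwise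
open WeierstrassCurve WeierstrassCurve.Affine

noncomputable section

namespace Fermat.Agent.RT.Lift59.Galois

open Fermat.Agent.Arith Fermat.Agent.RT.MazurP Fermat.Agent.EC.Reduction
open Fermat.Agent.EC.Multiplicative Fermat.Agent.EC.Rep
open Fermat.Agent.EC.AtP (PointQBar)

variable {A : ValuationSubring QBar} {p : ℕ} [Fact p.Prime] {W : WeierstrassCurve ℤ}

theorem frame_zsmul_R_eq_zero (F : Frame A W p) {b : ℤ} (h : b • F.R = 0) : (p : ℤ) ∣ b := by
  have : addOrderOf F.R = p := addOrderOf_eq_prime (by rw [← natCast_zsmul]; exact F.hR) F.R_ne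
  rw [← this]
  exact addOrderOf_dvd_iff_zsmul_eq_zero.mpr h

/-- A Kummer element of the extension in a frame. -/
theorem exists_frame_kummer (F : Frame A W p) (hΔ0 : W.Δ ≠ 0) {ζ : QBar}
    (hζ : IsPrimitiveRoot ζ p) :
    ∃ u : QBar, u ≠ 0 ∧ ∀ σ ∈ A.inertiaSubgroupIn ℚ, ∀ b : ℤ, σ • F.S = F.S + b • F.R →
      σ u = ζ ^ b * u := by
  classical
  have hp : p.Prime := Fact.out
  have hζ0 : ζ ≠ 0 := hζ.ne_zero hp.ne_zero
  have hwd : ∀ {σ : GQ} {b b' : ℤ}, σ • F.S = F.S + b • F.R → σ • F.S = F.S + b' • F.R →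
      ζ ^ b = ζ ^ b' := fun {σ b b'} h h' => by
    have h1 := frame_zsmul_R_eq_zero F (b := b - b')
      (by rw [sub_zsmul, add_left_cancel (h.symm.trans h'), add_neg_cancel])
    rw [show b = b' + (b - b') by ring, zpow_add₀ hζ0, (hζ.zpow_eq_one_iff_dvd _).mpr h1, mul_one]
  have hB : ∀ σ : GQ, ∃ b : ℤ, σ ∈ A.inertiaSubgroupIn ℚ → σ • F.S = F.S + b • F.R := fun σ => by
    by_cases hσ : σ ∈ A.inertiaSubgroupIn ℚ
    · obtain ⟨b, hb⟩ := F.smul_S σ hσ
      exact ⟨b, fun _ => hb⟩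
    · exact ⟨0, fun h => absurd h hσ⟩
  choose B hB using hB
  obtain ⟨L, hLf, hL⟩ := (residualRep W p hΔ0).factorsThroughFiniteLevel
  obtain ⟨u, hu, hu'⟩ := exists_twisted (A.inertiaSubgroupIn ℚ) (fun σ => ζ ^ (-B σ))
    (fun σ _ => zpow_ne_zero _ hζ0) L (fun σ hσ hfix => by
      show ζ ^ (-B σ) = 1
      rw [zpow_neg, hwd (hB σ hσ) (b' := 0)
        (by rw [zero_zsmul, add_zero]; exact congrArg Subtype.val (LinearMap.congr_fun (hL σ hfix)
          ⟨F.S, (Submodule.mem_torsionBy_iff _ _).mpr F.hS⟩)),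
        zpow_zero, inv_one])
    (fun σ hσ σ' hσ' => by
      show ζ ^ (-B (σ * σ')) = ζ ^ (-B σ) * σ (ζ ^ (-B σ'))
      rw [map_zpow₀, cyclotomicHom_spec σ hζ.pow_eq_one, ← zpow_natCast, ← zpow_mul,
        ← zpow_add₀ hζ0, zpow_neg, hwd (hB _ (mul_mem hσ hσ'))
          (b' := B σ + ((cyclotomicHom p σ : ZMod p).val : ℤ) * B σ') (by
            rw [mul_smul, hB σ' hσ', smul_add_point, hB σ hσ, smul_zsmul_point, F.smul_R σ hσ,
              ← natCast_zsmul, ← mul_zsmul', add_assoc, ← add_zsmul])]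
      rw [← zpow_neg]
      congr 1
      ring)
  refine ⟨u, hu, fun σ hσ b hb => ?_⟩
  have e := hu' σ hσ
  simp only [zpow_neg] at e
  rw [mul_inv_eq_iff_eq_mul₀ (zpow_ne_zero _ hζ0)] at e
  rw [e, hwd (hB σ hσ) hb, mul_comm]

/-- A Kummer element is fixed by exactly the elements of inertia fixing `S`. -/
theorem _root_.Fermat.Agent.RT.MazurP.Frame.kummer_fixed_iff (F : Frame A W p) {ζ : QBar}
    (hζ : IsPrimitiveRoot ζ p) {u : QBar} (hu0 : u ≠ 0)
    (hu : ∀ σ ∈ A.inertiaSubgroupIn ℚ, ∀ b : ℤ, σ • F.S = F.S + b • F.R → σ u = ζ ^ b * u)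
    {σ : GQ} (hσ : σ ∈ A.inertiaSubgroupIn ℚ) : σ u = u ↔ σ • F.S = F.S := by
  obtain ⟨b, hb⟩ := F.smul_S σ hσ
  refine ⟨fun h => ?_, fun h => by
    rw [hu σ hσ 0 (by rw [zero_zsmul, add_zero, h]), zpow_zero, one_mul]⟩
  rw [hu σ hσ b hb, mul_eq_right₀ hu0, hζ.zpow_eq_one_iff_dvd] at h
  obtain ⟨d, rfl⟩ := h
  rw [hb, mul_comm, mul_zsmul, F.hR, zsmul_zero, add_zero]

/-- **An integral order makes the extension peu ramifiée.** -/
theorem dvd_padicValInt_of_kummer (hA : A.LiesOverPrime p) (hp2 : p ≠ 2) (hΔ0 : W.Δ ≠ 0)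
    (hΔ : (p : ℤ) ∣ W.Δ) (hc₄ : ¬ (p : ℤ) ∣ W.c₄) (F : Frame A W p) {ζ : QBar}
    (hζ : IsPrimitiveRoot ζ p) {u : QBar} (hu0 : u ≠ 0)
    (hu : ∀ σ ∈ A.inertiaSubgroupIn ℚ, ∀ b : ℤ, σ • F.S = F.S + b • F.R → σ u = ζ ^ b * u)
    {k : ℤ} (hk : A.valuation (u ^ p) = A.valuation (p : QBar) ^ k) (hpk : (p : ℤ) ∣ k) :
    p ∣ padicValInt p W.Δ := by
  classical
  have hp : p.Prime := Fact.out
  by_contra hsmall
  obtain ⟨j, rfl⟩ := hpk
  set z := u * (p : QBar) ^ (-j) with hz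
  have hvp : A.valuation (p : QBar) ≠ 0 :=
    (Valuation.ne_zero_iff _).mpr (Nat.cast_ne_zero.mpr hp.ne_zero)
  have hzv : A.valuation z = 1 := (pow_eq_one_iff_left hp.ne_zero).mp (by
    rw [hz, map_mul, mul_pow, ← map_pow, hk, map_zpow₀, ← zpow_natCast (_ ^ (-j)), ← zpow_mul,
      ← zpow_add₀ hvp, show (p : ℤ) * j + -j * p = 0 by ring, zpow_zero])
  obtain ⟨N, hN⟩ := exists_node_int hA hp hΔ0 hΔ hc₄
  have hat := (N.not_inE0_iff F.S).mp F.S_not
  generalize hSdef : F.S = P at hat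
  match P with
  | .some x y hxy =>
    obtain ⟨hc2, i, hi0, hip, hXp⟩ := N.valuation_pow_of_nsmul (hp.odd_of_ne_two hp2) hat
      (by rw [← natCast_zsmul, ← hSdef]; exact F.hS)
    set X := x - N.r with hX
    have hX0 : X ≠ 0 := NearNode.X_ne_zero hc2
    set m : ℤ := ((padicValInt p W.Δ * i : ℕ) : ℤ) with hm
    have hXm : A.valuation (X ^ p) = A.valuation (p : QBar) ^ m := by
      rw [map_pow, hX, hXp, hN, ← pow_mul, hm, zpow_natCast]
    have hpm : ¬ (p : ℤ) ∣ m := by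
      rw [hm, Int.natCast_dvd_natCast, hp.dvd_mul]
      rintro (h | h)
      · exact hsmall h
      · have := Nat.le_of_dvd hi0 h; omega
    have hnode : ∀ h ∈ A.inertiaSubgroupIn ℚ, h N.r = N.r ∧ h N.t = N.t ∧ h N.a = N.a :=
      fun h hh => N.map_node_eq (res_inertia hh).1 (res_inertia hh).2
    have hXfix : ∀ h ∈ A.inertiaSubgroupIn ℚ, h • F.S = F.S → h X = X := by
      intro h hh e
      obtain ⟨h'', eh⟩ := EC.Reduction.smul_some (σ := h) hxy
      rw [hSdef, eh] at e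
      rw [hX, map_sub, (hnode h hh).1, ((Point.some.injEq ..).mp e).1]
    by_cases hall : ∀ h ∈ tameKer A p, h • F.S = F.S
    · -- the tame case: the order of `X` is a multiple of `1 / (p - 1)`
      obtain ⟨T, -, hT₁, -, -, -⟩ := exists_towerData hA hζ (tameKer A p) 1 le_rfl (one_mem _)
        (fun g hg h hh => conj_mem_tameKer hg hh)
        (fun h hh => ⟨0, by simpa using hh⟩) (by simp [one_mem]) (fun g _ => by simp [one_mem])
      obtain ⟨n, hn⟩ := TowerData.exists_zpow₁ hA hp T hX0 fun h hh =>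
        hXfix h (MazurP.mem_tameKer.mp (hT₁ ▸ hh)).1 (hall h (hT₁ ▸ hh))
      have e : n * p = m * ((p - 1 : ℕ) : ℤ) := by
        refine zpow_right_injective₀ (zero_lt_iff.mpr hvp) (ne_of_lt hA) ?_
        show A.valuation (p : QBar) ^ (n * (p : ℤ)) = A.valuation (p : QBar) ^ _
        rw [zpow_mul, zpow_mul, zpow_natCast, zpow_natCast, ← hn, ← hXm, map_pow, ← pow_mul,
          ← pow_mul, mul_comm]
      rcases (Nat.prime_iff_prime_int.mp hp).dvd_or_dvd (show (p : ℤ) ∣ m * ((p - 1 : ℕ) : ℤ) from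
        ⟨n, by rw [← e, mul_comm]⟩) with h | h
      · exact hpm h
      · have := Nat.le_of_dvd (by have := hp.two_le; omega) (Int.natCast_dvd_natCast.mp h)
        have := hp.two_le
        omega
    · -- the wild case
      obtain ⟨T, hTk, hT₁, hTζ, hTg, hσS⟩ := exists_wildTower hA F hζ hall
      have hσ : T.σ ∈ tameKer A p := hT₁ ▸ T.σ_mem
      set σ := T.σ with hσdef
      have hσI := (MazurP.mem_tameKer.mp hσ).1
      have hzσ : A.valuation (σ z - z) = A.valuation (T.ζ - 1) := by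
        rw [hTζ, hz, map_mul σ, map_zpow₀, map_natCast,
          hu σ hσI 1 (by rw [one_zsmul]; exact hσS), zpow_one, mul_assoc,
          ← sub_one_mul, map_mul, ← hz, hzv, mul_one]
      obtain ⟨Wd, hC, -, hσW⟩ := TowerData.exists_wild hA hp T
        ((A.valuation_le_one_iff _).mp hzv.le)
        (fun h hh => by
          rw [hTk] at hh
          rw [hz, map_mul, map_zpow₀, map_natCast,
            (F.kummer_fixed_iff hζ hu0 hu (mem_wildKer.mp hh).1.1).mpr
              ((mem_wildKer.mp hh).2 F.S F.hS)]) hzσ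
      have hexact := valuation_wild_ratio hA Wd hX0 (fun h hh => by
        rw [hC, hTk] at hh
        exact hXfix h (mem_wildKer.mp hh).1.1 ((mem_wildKer.mp hh).2 F.S F.hS)) hXm hpm
      rw [hσW, ← hσdef] at hexact
      rw [hX, map_sub σ, (hnode σ hσI).1, ← hX, show σ x - N.r = (σ x - x) + X by rw [hX]; ring,
        add_div, div_self hX0, add_sub_cancel_right, map_div₀] at hexact
      have hQ0 : A.valuation Wd.C.π ≠ 0 := (Valuation.ne_zero_iff _).mpr Wd.C.π_ne_zero
      have hdiff : A.valuation (σ x - x) < A.valuation (x - N.r) := by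
        rw [(div_eq_iff ((Valuation.ne_zero_iff _).mpr hX0)).mp hexact]
        exact mul_lt_of_lt_one_left (zero_lt_iff.mpr ((Valuation.ne_zero_iff _).mpr hX0))
          (A.mem_nonunits_iff.mp Wd.C.π_nonunit)
      have hne : σ x ≠ x := fun h => hQ0 (by rw [← hexact, h, sub_self, map_zero, zero_div])
      have hs := F.valuation_sCoord_move N hSdef hat hc2 hσI hσS hne hdiff
      rw [valuation_sCoord_R hA hp2 T hT₁ F hTg, hTζ, ← hX, hexact] at hs
      exact (valuation_zeta_sub_one hA Wd hζ).2.ne hs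

end Fermat.Agent.RT.Lift59.Galois

end
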