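import Fermat.Agent.RT.Lift59.Galois.PlaceP
import Fermat.Agent.RT.Lift59.Galois.TresRamified

/-!
# The element seeing only the `p`-part on the torsion of a multiplicative curve

With a frame `R`, `S` of `E[p]` and `u` a Kummer element of the extension class of `S` by `R`,
`τ` fixes `E[p]` exactly when `p` divides the order of `u ^ p`, and this happens exactly when the
exponent of the discriminant is divisible by `p`.
-/

set_option autoImplicit false
set_option linter.unusedSectionVars false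
set_option linter.style.haveILetI false

open scoped WeierstrassCurve.Affine Pointwise
open WeierstrassCurve WeierstrassCurve.Affine

noncomputable section

namespace Fermat.Agent.RT.Lift59.Galois

open Fermat.Agent.Arith Fermat.Agent.RT.MazurP Fermat.Agent.EC.Reduction
open Fermat.Agent.EC.Multiplicative Fermat.Agent.EC.Rep
open Fermat.Agent.EC.AtP (PointQBar)
open Fermat.Agent.RT.Mazur

variable {A : ValuationSubring QBar} {p : ℕ}

/-- `τ` fixes units with a `p`-power fixed by inertia. -/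
theorem IsTauStar.fix_unit {τ : GQ} (hτ : IsTauStar A p τ) {x : QBar} (hx : A.valuation x = 1)
    (k : ℕ) (h : ∀ σ ∈ A.inertiaSubgroupIn ℚ, σ (x ^ p ^ k) = x ^ p ^ k) : τ x = x :=
  hτ.fix x k ((A.valuation_le_one_iff x).mp hx.le)
    ((A.valuation_le_one_iff x⁻¹).mp (by rw [map_inv₀, hx, inv_one])) h

/-- `τ` fixes roots of unity of `p`-power order. -/
theorem IsTauStar.fix_root {τ : GQ} (hτ : IsTauStar A p τ) (hp : p.Prime) {ζ : QBar} (k : ℕ)
    (h : ζ ^ p ^ k = 1) : τ ζ = ζ :=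
  hτ.fix_unit ((pow_eq_one_iff_left (pow_ne_zero k hp.ne_zero)).mp (by rw [← map_pow, h, map_one])) k
    fun σ _ => by rw [h, map_one]

variable [Fact p.Prime]

theorem zpow_root_eq_one_iff {w : QBar} (h1 : w ^ p = 1) (h2 : w ≠ 1) (k : ℤ) :
    w ^ k = 1 ↔ (p : ℤ) ∣ k := by
  have h : IsPrimitiveRoot w p := by
    have := IsPrimitiveRoot.orderOf w
    rwa [orderOf_eq_prime h1 h2] at this
  exact h.zpow_eq_one_iff_dvd k

/-- An element with `p`-th power fixed by inertia is fixed by `τ` exactly when its order is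
integral. -/
theorem IsTauStar.fix_iff {τ : GQ} (hτ : IsTauStar A p τ) {u : QBar} (hu : u ≠ 0)
    (hfix : ∀ σ ∈ A.inertiaSubgroupIn ℚ, σ (u ^ p) = u ^ p) {k : ℤ}
    (hk : A.valuation (u ^ p) = A.valuation (p : QBar) ^ k) : τ u = u ↔ (p : ℤ) ∣ k := by
  have hp : p.Prime := Fact.out
  obtain ⟨π, hπ, hτπ⟩ := hτ.moves
  have hp0 : (p : QBar) ≠ 0 := Nat.cast_ne_zero.mpr hp.ne_zero
  have hπ0 : π ≠ 0 := fun h => hp0 (by rw [← hπ, h, zero_pow hp.ne_zero])
  set x := u * π ^ (-k) with hx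
  have hxp : x ^ p = u ^ p * (p : QBar) ^ (-k) := by
    rw [hx, mul_pow, ← hπ, ← zpow_natCast (π ^ (-k)), ← zpow_mul, ← zpow_natCast π p, ← zpow_mul,
      mul_comm (-k)]
  have hvp : A.valuation (p : QBar) ≠ 0 := (Valuation.ne_zero_iff _).mpr hp0
  have hτx : τ x = x := hτ.fix_unit ((pow_eq_one_iff_left hp.ne_zero).mp (by
      rw [← map_pow, hxp, map_mul, hk, map_zpow₀, ← zpow_add₀ hvp, add_neg_cancel, zpow_zero])) 1
    fun σ hσ => by rw [pow_one, hxp, map_mul, hfix σ hσ, map_zpow₀, map_natCast]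
  have hu' : u = x * π ^ k := by
    rw [hx, mul_assoc, ← zpow_add₀ hπ0, neg_add_cancel, zpow_zero, mul_one]
  have hw : (τ π / π) ^ p = 1 := by
    rw [div_pow, ← map_pow, hπ, map_natCast, div_self hp0]
  have hw1 : τ π / π ≠ 1 := fun h => hτπ (by rwa [div_eq_one_iff_eq hπ0] at h)
  rw [← zpow_root_eq_one_iff hw hw1 k, div_zpow, div_eq_one_iff_eq (zpow_ne_zero _ hπ0)]
  conv_lhs => rw [hu', map_mul, hτx, map_zpow₀]
  exact mul_right_inj' (mul_ne_zero hu (zpow_ne_zero _ hπ0))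

section Frame

variable {W : WeierstrassCurve ℤ}

theorem mem_tameKer_of_root {σ : GQ} (hσ : σ ∈ A.inertiaSubgroupIn ℚ) {ζ : QBar}
    (hζ : IsPrimitiveRoot ζ p) (h : σ ζ = ζ) : σ ∈ tameKer A p := by
  refine mem_tameKer.mpr ⟨hσ, Units.ext ?_⟩
  rw [cyclotomicHom_spec σ hζ.pow_eq_one] at h
  have h1 : (cyclotomicHom p σ : ZMod p).val = 1 :=
    hζ.pow_inj (ZMod.val_lt _) (Fact.out : p.Prime).one_lt (by rw [h, pow_one])
  rw [Units.val_one, ← ZMod.natCast_zmod_val (cyclotomicHom p σ : ZMod p), h1, Nat.cast_one]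

theorem IsTauStar.mem_tameKer {τ : GQ} (hτ : IsTauStar A p τ) : τ ∈ tameKer A p := by
  haveI : NeZero p := ⟨(Fact.out : p.Prime).ne_zero⟩
  obtain ⟨ζ, hζ⟩ := HasEnoughRootsOfUnity.exists_primitiveRoot QBar p
  exact mem_tameKer_of_root hτ.mem hζ (hτ.fix_root Fact.out 1 (by rw [pow_one, hζ.pow_eq_one]))

end Frame

/-- **The residual action of `τ` at a multiplicative place over `p`.** -/
theorem residualTauInput : ResidualTauInput := by
  intro W p hp hp2 hΔ0 hW hΔ A hA τ hτ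
  classical
  haveI := Fact.mk hp
  haveI : NeZero p := ⟨hp.ne_zero⟩
  have hc₄ : ¬ (p : ℤ) ∣ W.c₄ := hW p hp hΔ
  obtain ⟨⟨F⟩, -⟩ := exists_frame hA hp2 hΔ0 hΔ hc₄
  obtain ⟨ζ, hζ⟩ := HasEnoughRootsOfUnity.exists_primitiveRoot QBar p
  have hζ0 : ζ ≠ 0 := hζ.ne_zero hp.ne_zero
  obtain ⟨u, hu0, hu⟩ := exists_frame_kummer F hΔ0 hζ
  have hfixS : ∀ σ ∈ A.inertiaSubgroupIn ℚ, σ u = u ↔ σ • F.S = F.S := fun σ hσ =>
    F.kummer_fixed_iff hζ hu0 hu hσ
  have hup : ∀ σ ∈ A.inertiaSubgroupIn ℚ, σ (u ^ p) = u ^ p := fun σ hσ => by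
    obtain ⟨b, hb⟩ := F.smul_S σ hσ
    rw [map_pow, hu σ hσ b hb, mul_pow, ← zpow_natCast, ← zpow_mul,
      (hζ.zpow_eq_one_iff_dvd _).mpr (dvd_mul_left _ _), one_mul]
  obtain ⟨k, hk⟩ := exists_zpow_of_inertiaFixed hA hp (pow_ne_zero p hu0) hup
  have hiff : (∀ x : ((W.map (Int.castRingHom ℚ))⁄(AlgebraicClosure ℚ)).Point,
      (p : ℤ) • x = 0 → τ • x = x) ↔ (p : ℤ) ∣ k := by
    rw [← hτ.fix_iff hu0 hup hk, hfixS τ hτ.mem]
    exact ⟨fun h => h F.S F.hS, fun h => (F.mem_wildKer_of hτ.mem_tameKer h).2⟩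
  rw [hiff]
  constructor
  · exact dvd_padicValInt_of_kummer hA hp2 hΔ0 hΔ hc₄ F hζ hu0 hu hk
  · intro hsmall
    rw [← hτ.fix_iff hu0 hup hk, hfixS τ hτ.mem]
    rcases wildKer_eq_tameKer_or_exists_wild hA hp2 hΔ0 hΔ hc₄ hsmall with h | h
    · exact (mem_wildKer.mp (h.symm ▸ hτ.mem_tameKer)).2 F.S F.hS
    obtain ⟨Wd, hC, hC₁, ⟨x, hx, hσx⟩, -⟩ := h
    have hσ : Wd.σ ∈ tameKer A p := hC₁ ▸ Wd.σ_mem
    have hσu : Wd.σ u ≠ u := fun h => hσx
      ((F.mem_wildKer_of hσ ((hfixS _ Wd.σ_mem_inertia).mp h)).2 x hx)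
    rw [← hfixS τ hτ.mem, hτ.fix_iff hu0 hup hk]
    by_contra hpk
    have h1 := valuation_wild_ratio hA Wd hu0 (fun h hh => by
      rw [hC] at hh
      exact (hfixS h (mem_wildKer.mp hh).1.1).mpr ((mem_wildKer.mp hh).2 F.S F.hS)) hk hpk
    obtain ⟨b, hb⟩ := F.smul_S _ Wd.σ_mem_inertia
    have hb1 : ζ ^ b ≠ 1 := fun h => hσu (by rw [hu _ Wd.σ_mem_inertia b hb, h, one_mul])
    rw [hu _ Wd.σ_mem_inertia b hb, mul_div_assoc, div_self hu0, mul_one] at h1
    have hprim : IsPrimitiveRoot (ζ ^ b) p := by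
      have := IsPrimitiveRoot.orderOf (ζ ^ b)
      rwa [orderOf_eq_prime (by rw [← zpow_natCast, ← zpow_mul,
        (hζ.zpow_eq_one_iff_dvd _).mpr (dvd_mul_left _ _)]) hb1] at this
    exact (valuation_zeta_sub_one hA Wd hprim).2.ne h1

end Fermat.Agent.RT.Lift59.Galois

end
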