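import Fermat.Agent.RT.Lift59.Levels.Ring
import Fermat.Agent.RT.Glue.Flat
import Fermat.Agent.RT.Glue.FlatPair
import Fermat.Agent.RT.Patch.Descend
import Fermat.Agent.FiniteFlat.DatumFlat

/-!
# Flatness at `p` of the representation over the ring of the levels

When `p` is prime to the level and the representation over `O` is flat at `p`, so is the
representation over the ring of the levels.
-/

set_option autoImplicit false

noncomputable section

namespace Fermat.Agent.RT.Lift59.Levels

open IsLocalRing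
open GaloisReps (AbsGal)
open Fermat.Agent.Deform (M2 IsCont mapM toRep)

variable {O : Type} [CommRing O] [IsDomain O] [IsDiscreteValuationRing O]
  [IsAdicComplete (maximalIdeal O) O] [Finite (ResidueField O)] [CharZero O]
  {p : ℕ} [Fact p.Prime] [Fact (p ≠ 2)] [CharP (ResidueField O) p]
  {F : Fixed O p} {R n : ℕ} (X : Aux F R n)

namespace Aux

omit [IsAdicComplete (maximalIdeal O) O] [Finite (ResidueField O)] [CharZero O]
  [Fact (p ≠ 2)] [CharP (ResidueField O) p] in
/-- The top level is prime to `p` when the level is. -/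
theorem not_p_dvd_top (hp : ¬ p ∣ F.base F.t) : ¬ p ∣ X.top := by
  rw [top, X.lvl_eq]
  intro h
  exact ((Fact.out : p.Prime).dvd_mul.1 h).elim hp
    (X.not_dvd_prodQ Fact.out (dvd_mul_left p _))

/-- The representation over the algebra of the top level is flat at `p`. -/
theorem isFlatAt_rhoT (hp : ¬ p ∣ F.base F.t) :
    (toRep X.rhoT X.isCont_rhoT).IsFlatAt p :=
  Patch.isFlatAt_of_isEquiv (Deform.isEquiv_toRep_matOf X.glued.rep X.exists_rhoT.choose)
    (X.glued.isFlatAt natCast_mem_max isPGroup_diaGroup fun M _ j hM =>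
      FiniteFlat.nonempty_galOrder_modelOfCongruence
        (fun h => X.not_p_dvd_top hp ((Fact.out : p.Prime).dvd_of_dvd_pow (h.trans hM)))
        (GaloisReps.congruenceProperty M p) j)

/-- To the algebra of the top level. -/
def fibFst : X.fib →ₐ[O] X.Alg := (AlgHom.fst O X.Alg O).comp X.fib.val

/-- To `O`. -/
def fibSnd : X.fib →ₐ[O] O := (AlgHom.snd O X.Alg O).comp X.fib.val

theorem isLocalHom_fibFst : IsLocalHom (X.fibFst : X.fib →+* X.Alg) :=
  ⟨fun x hx => X.isUnit_fib x <| by
    by_contra hc
    have h0 := X.mem_fib.1 x.2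
    rw [(residue_eq_zero_iff _).2 hc, Deform.augment_eq_zero_iff] at h0
    exact h0 hx⟩

theorem isLocalHom_fibSnd : IsLocalHom (X.fibSnd : X.fib →+* O) :=
  ⟨fun x hx => X.isUnit_fib x hx⟩

/-- **Flatness at `p` of the pairs.** -/
theorem isFlatAt_repP (hp : ¬ p ∣ F.base F.t) (hE : (toRep F.rhoE F.cont).IsFlatAt p) :
    (toRep X.repP X.isCont_repP).IsFlatAt p := by
  have : IsNoetherianRing X.fib := IsNoetherianRing.of_finite O X.fib
  have hO : Module.Finite O O := inferInstance
  have fin₁ : (X.fibFst : X.fib →+* X.Alg).Finite :=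
    RingHom.Finite.of_comp_finite (f := algebraMap O X.fib) (by
      rw [AlgHom.comp_algebraMap]
      exact RingHom.finite_algebraMap.2 inferInstance)
  have fin₂ : (X.fibSnd : X.fib →+* O).Finite :=
    RingHom.Finite.of_comp_finite (f := algebraMap O X.fib) (by
      rw [AlgHom.comp_algebraMap]
      exact RingHom.finite_algebraMap.2 hO)
  refine Glue.isFlatAt_of_pair _ X.isLocalHom_fibFst fin₁ _ X.isLocalHom_fibSnd fin₂
    (fun a h1 h2 => Subtype.ext (Prod.ext h1 h2)) _ ?_ ?_
  · refine Patch.isFlatAt_of_isEquiv (Deform.isEquiv_symm ?_) (X.isFlatAt_rhoT hp)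
    exact Deform.isEquiv_trans (Deform.isEquiv_baseChangeAlong_toRep _ X.isLocalHom_fibFst _ _)
      (Deform.isEquiv_toRep_congr rfl _ _)
  · refine Patch.isFlatAt_of_isEquiv (Deform.isEquiv_symm ?_) hE
    exact Deform.isEquiv_trans (Deform.isEquiv_baseChangeAlong_toRep _ X.isLocalHom_fibSnd _ _)
      (Deform.isEquiv_toRep_congr rfl _ _)

/-- **Flatness at `p` of the representation over the ring of the levels.** -/
theorem isFlatAt_rep (hp : ¬ p ∣ F.base F.t) (hE : (toRep F.rhoE F.cont).IsFlatAt p) :
    (toRep X.rep X.isCont_rep).IsFlatAt p :=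
  Patch.isFlatAt_corestrict X.ringSub (X.isFlatAt_repP hp hE) _ X.isCont_rep

end Aux

end Fermat.Agent.RT.Lift59.Levels

end
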