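import Fermat.Agent.Deform.Matrix
import Fermat.Agent.Arith.Places
import Mathlib.LinearAlgebra.LinearIndependent.Basic

/-!
# Hilbert 90 for a subgroup

A multiplicative cocycle of finite level on a subgroup of the Galois group is a coboundary.
-/

set_option autoImplicit false
set_option linter.style.haveILetI false

noncomputable section

namespace Fermat.Agent.RT.Lift59.Galois

open Fermat.Agent.Deform Fermat.Agent.Arith

/-- Hilbert 90 for a subgroup and a cocycle of finite level. -/
theorem exists_twisted (H : Subgroup Gal) (f : Gal → QBar) (hf0 : ∀ σ ∈ H, f σ ≠ 0)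
    (L : IntermediateField ℚ QBar) [FiniteDimensional ℚ L]
    (hL : ∀ σ ∈ H, (∀ x ∈ L, σ x = x) → f σ = 1)
    (hc : ∀ σ ∈ H, ∀ τ ∈ H, f (σ * τ) = f σ * σ (f τ)) :
    ∃ u : QBar, u ≠ 0 ∧ ∀ σ ∈ H, σ u * f σ = u := by
  classical
  haveI : Normal ℚ QBar := IsAlgClosure.normal ℚ QBar
  set N := IntermediateField.normalClosure ℚ L QBar with hNdef
  haveI : Normal ℚ N := normalClosure.normal ℚ L QBar
  set res := (AlgEquiv.restrictNormalHom N : Gal →* (N ≃ₐ[ℚ] N)) with hres
  have hagree : ∀ σ ∈ H, ∀ τ ∈ H, res σ = res τ → f σ = f τ := by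
    intro σ hσ τ hτ h
    have h1 : f (τ⁻¹ * σ) = 1 := hL _ (mul_mem (inv_mem hτ) hσ) fun x hx => by
      have e := AlgEquiv.restrictNormal_commutes σ N ⟨x, L.le_normalClosure hx⟩
      have e' := AlgEquiv.restrictNormal_commutes τ N ⟨x, L.le_normalClosure hx⟩
      rw [show σ.restrictNormal N = τ.restrictNormal N from h] at e
      rw [AlgEquiv.mul_apply, show σ x = τ x from e.symm.trans e']
      exact τ.symm_apply_apply x
    have h2 := hc τ hτ (τ⁻¹ * σ) (mul_mem (inv_mem hτ) hσ)
    rw [mul_inv_cancel_left, h1, map_one, mul_one] at h2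
    exact h2
  have hsec : ∀ g : H.map res, ∃ σ ∈ H, res σ = g := fun g => Subgroup.mem_map.mp g.2
  choose sec hsec hsr using hsec
  haveI : Fintype (H.map res) := Fintype.ofFinite _
  let φ : H.map res → (N →* QBar) := fun g =>
    ((sec g : QBar →+* QBar) : QBar →* QBar).comp ((N.val : N →+* QBar) : N →* QBar)
  have hφ : Function.Injective φ := fun g g' h => by
    refine Subtype.ext (AlgEquiv.ext fun x => Subtype.ext ?_)
    rw [← hsr, ← hsr]
    exact (AlgEquiv.restrictNormal_commutes (sec g) N x).trans ((DFunLike.congr_fun h x).trans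
      (AlgEquiv.restrictNormal_commutes (sec g') N x).symm)
  obtain ⟨y, hy⟩ : ∃ y : N, ∑ g : H.map res, f (sec g) * φ g y ≠ 0 := by
    by_contra hcon
    simp only [not_exists, not_not] at hcon
    have hli := (linearIndependent_monoidHom N QBar).comp φ hφ
    have h1 : (1 : Gal) ∈ H := one_mem H
    have := Fintype.linearIndependent_iff.mp hli (fun g => f (sec g))
      (funext fun y => by simpa [Finset.sum_apply] using hcon y) ⟨res 1, Subgroup.mem_map_of_mem res h1⟩
    exact hf0 _ (hsec _) this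
  refine ⟨_, hy, fun σ hσ => ?_⟩
  rw [map_sum, Finset.sum_mul]
  refine Fintype.sum_equiv (Equiv.mulLeft (⟨res σ, Subgroup.mem_map_of_mem res hσ⟩ : H.map res))
    _ _ fun g => ?_
  simp only [Equiv.coe_mulLeft]
  set g' := (⟨res σ, Subgroup.mem_map_of_mem res hσ⟩ : H.map res) * g with hg'
  have e1 : f (sec g') = f (σ * sec g) := hagree _ (hsec _) _ (mul_mem hσ (hsec _)) (by
    rw [hsr, map_mul, hsr, hg', Subgroup.coe_mul])
  have e2 : φ g' y = σ (φ g y) := by
    show sec g' (y : QBar) = (σ * sec g) (y : QBar)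
    exact (AlgEquiv.restrictNormal_commutes (sec g') N y).symm.trans
      ((congrArg (fun t : N ≃ₐ[ℚ] N => ((t y : N) : QBar)) (show res (sec g') = res (σ * sec g) by
        rw [hsr, map_mul, hsr, hg', Subgroup.coe_mul])).trans
        (AlgEquiv.restrictNormal_commutes (σ * sec g) N y))
  rw [e1, e2, hc σ hσ _ (hsec _), map_mul]
  ring

end Fermat.Agent.RT.Lift59.Galois

end
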