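import Fermat.Agent.RT.Lift59.Galois.PlaceP
import Fermat.Agent.RT.Lift59.Galois.Twist
import Fermat.Agent.EC.Rep.TWHypothesis
import Mathlib.GroupTheory.FiniteAbelian.Duality

/-!
# Kummer cocycles of inertia at the element seeing only the `p`-part

A character of the coefficients turns the cocycle into one with values in roots of unity, which is
the coboundary of some `u`; `F⁻¹ u / u` has a `p`-power which is a unit fixed by inertia, so `τ`
fixes it.
-/

set_option autoImplicit false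
set_option linter.style.haveILetI false

noncomputable section

namespace Fermat.Agent.RT.Lift59.Galois

open Fermat.Agent.Deform Fermat.Agent.Arith Fermat.Agent.CFT.Tangent
open scoped Pointwise

variable {A : ValuationSubring QBar}

theorem conj_mem_inertia_of_mem_decomposition {F σ : Gal} (hF : F ∈ A.decompositionSubgroup ℚ)
    (hσ : σ ∈ A.inertiaSubgroupIn ℚ) : F * σ * F⁻¹ ∈ A.inertiaSubgroupIn ℚ := by
  have h : σ ∈ ((F⁻¹ : Gal) • A).inertiaSubgroupIn ℚ := by
    rwa [mem_decomposition_iff.mp (inv_mem hF)]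
  simpa using EC.Rep.conj_mem_inertia h

theorem eval_conj (F σ : Gal) (x : QBar) : (F * σ * F⁻¹) x = F (σ (F⁻¹ x)) := rfl

/-- **Kummer cocycles of inertia commute at `τ` with the decomposition group.** -/
theorem kummerInput : KummerInput := by
  intro p hp hp2 A hA τ hτ M _ _ s hM c hlev hc F hF b hb
  classical
  obtain ⟨L, hLf, hL⟩ := hlev
  haveI : NeZero (p ^ s) := ⟨pow_ne_zero s hp.ne_zero⟩
  have hexp : ∀ σ : Gal, ∃ a : ℕ, ∀ μ : QBar, μ ^ p ^ s = 1 → σ μ = μ ^ a :=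
    fun σ => exists_pow_eq_on_roots (p ^ s) σ
  have hc' := conj_mem_inertia_of_mem_decomposition hF hτ.mem
  by_contra hne
  haveI : NeZero (Monoid.exponent (Multiplicative M)) := ⟨Monoid.exponent_ne_zero_of_finite⟩
  obtain ⟨ψ, hψ⟩ := CommGroup.exists_apply_ne_one_of_hasEnoughRootsOfUnity (Multiplicative M) QBar
    (a := Multiplicative.ofAdd (c (F * τ * F⁻¹) - b • c τ))
    (by rwa [ne_eq, ofAdd_eq_one, sub_eq_zero])
  let g : M → QBar := fun m => ((ψ (Multiplicative.ofAdd m) : QBarˣ) : QBar)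
  have hg0 : ∀ m, g m ≠ 0 := fun m => Units.ne_zero _
  have hg_add : ∀ m n, g (m + n) = g m * g n := fun m n => by simp [g]
  have hg_zero : g 0 = 1 := by simp [g]
  have hg_nsmul : ∀ (k : ℕ) m, g (k • m) = g m ^ k := fun k m => by simp [g]
  have hg_pow : ∀ m, g m ^ p ^ s = 1 := fun m => by rw [← hg_nsmul, hM, hg_zero]
  apply hψ
  -- the resolvent
  have hcoc : ∀ σ ∈ A.inertiaSubgroupIn ℚ, ∀ σ' ∈ A.inertiaSubgroupIn ℚ,
      g (c (σ * σ')) = g (c σ) * σ (g (c σ')) := fun σ hσ σ' hσ' => by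
    obtain ⟨a, ha⟩ := hexp σ
    rw [hc σ hσ σ' hσ' a ha, hg_add, hg_nsmul, ha _ (hg_pow _)]
  obtain ⟨u, hu0, hu⟩ := exists_twisted (A.inertiaSubgroupIn ℚ) (fun σ => (g (c σ))⁻¹)
    (fun σ _ => inv_ne_zero (hg0 _)) L (fun σ hσ h => by simp [hL σ hσ h, hg_zero])
    (fun σ hσ σ' hσ' => by
      show (g (c (σ * σ')))⁻¹ = (g (c σ))⁻¹ * σ (g (c σ'))⁻¹
      rw [hcoc σ hσ σ' hσ', mul_inv, map_inv₀])
  have hu' : ∀ σ ∈ A.inertiaSubgroupIn ℚ, σ u = g (c σ) * u := fun σ hσ => by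
    have e : σ u * (g (c σ))⁻¹ = u := hu σ hσ
    rw [mul_inv_eq_iff_eq_mul₀ (hg0 _)] at e
    rw [e, mul_comm]
  set e := F⁻¹ u / u with he
  have hU : ∀ σ ∈ A.inertiaSubgroupIn ℚ, σ (u ^ p ^ s) = u ^ p ^ s := fun σ hσ => by
    rw [map_pow, hu' σ hσ, mul_pow, hg_pow, one_mul]
  have hefix : ∀ σ ∈ A.inertiaSubgroupIn ℚ, σ (e ^ p ^ s) = e ^ p ^ s := fun σ hσ => by
    have h1 := hU _ (conj_mem_inertia_of_mem_decomposition hF hσ)
    rw [eval_conj] at h1
    have h2 : σ (F⁻¹ (u ^ p ^ s)) = F⁻¹ (u ^ p ^ s) :=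
      F.injective (h1.trans (F.apply_symm_apply (u ^ p ^ s)).symm)
    rw [he, div_pow, ← map_pow, map_div₀, hU σ hσ, h2]
  have hev : A.valuation e = 1 := by
    rw [he, map_div₀, EC.Multiplicative.valuation_map_eq (mem_decomposition_iff.mp (inv_mem hF)),
      div_self ((Valuation.ne_zero_iff _).mpr hu0)]
  have hτe : τ e = e := hτ.fix e s ((A.valuation_le_one_iff _).mp hev.le)
    ((A.valuation_le_one_iff _).mp (by rw [map_inv₀, hev, inv_one])) hefix
  -- both sides of the equation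
  have h3 : τ (F⁻¹ u) = F⁻¹ (g (c (F * τ * F⁻¹))) * F⁻¹ u := by
    have h := hu' _ hc'
    rw [eval_conj] at h
    rw [← map_mul, ← h]
    exact (F.symm_apply_apply _).symm
  rw [he, map_div₀, h3, hu' τ hτ.mem, mul_div_mul_comm, mul_eq_right₀
    (div_ne_zero ((map_ne_zero _).mpr hu0) hu0), div_eq_one_iff_eq (hg0 _)] at hτe
  have h4 : g (c (F * τ * F⁻¹)) = g (b • c τ) := by
    rw [← F.apply_symm_apply (g (c (F * τ * F⁻¹))), hg_nsmul, ← hb _ (hg_pow _)]
    exact congrArg F hτe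
  refine Units.ext ?_
  show g (c (F * τ * F⁻¹) - b • c τ) = 1
  apply mul_right_cancel₀ (hg0 (b • c τ))
  rw [← hg_add, sub_add_cancel, h4, one_mul]

end Fermat.Agent.RT.Lift59.Galois

end
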