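import Fermat.Agent.RT.Lift59.Galois.Tangent
import Fermat.Agent.RT.Lift59.Levels.Main
import Fermat.Agent.RT.Lift59.Chain.Data

/-!
# The levels of the chain of flips from a fixed data
-/

set_option autoImplicit false
set_option linter.style.haveILetI false

noncomputable section

namespace Fermat.Agent.RT.Lift59.Levels

open IsLocalRing
open Fermat.Agent.Deform (M2 Gal)
open Fermat.Agent.CFT.Tangent (killedDer exists_coord_surjective)
open Fermat.Agent.RT.Assembly (levelIdeal)

variable {O : Type} [CommRing O] [IsDomain O] [IsDiscreteValuationRing O]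
  [IsAdicComplete (maximalIdeal O) O] [Finite (ResidueField O)] [CharZero O]
  {p : ℕ} [Fact p.Prime] [Fact (p ≠ 2)] [CharP (ResidueField O) p]
  {F : Fixed O p} {R n : ℕ} (X : Aux F R n) (h : F.Hyp)
  (hR : Nat.card F.NdT + 3 * Nat.card F.VsT ≤ R)

namespace Aux

open MvPowerSeries

/-- The coordinates of the shape from those of the places and the free ones. -/
def crdEquiv (F : Fixed O p) (g : ℕ) :
    (F.VsT × Fin 2 × Fin 3) ⊕ (Fin g ⊕ F.NdT × Option (Fin 2 × Fin 2)) ≃
      ((F.VsT × Fin 2 × Fin 3) ⊕ F.NdT × Option (Fin 2 × Fin 2)) ⊕ Fin g :=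
  ((Equiv.refl _).sumCongr (Equiv.sumComm _ _)).trans (Equiv.sumAssoc _ _ _).symm

/-- An evaluation of the coordinates with the values of the places. -/
def GoodEval (γ : (h.shape R hR).Coords →ₐ[O] X.Ring) : Prop :=
  (∀ v : F.VsT, ∀ i k, γ (MvPowerSeries.X (Sum.inl (v, i, k))) = X.plc h (Sum.inl (v, i, k))) ∧
  ∀ (w : F.NdT) o, γ (MvPowerSeries.X (Sum.inr (Sum.inr (w, o)))) = X.plc h (Sum.inr (w, o))

theorem exists_goodEval
    (hk : Module.finrank (ResidueField O) (killedDer X.isResAlg_ring (X.plc h)) + Nat.card F.NdT +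
      3 * Nat.card F.VsT ≤ R) :
    ∃ γ : (h.shape R hR).Coords →ₐ[O] X.Ring, Function.Surjective γ ∧ X.GoodEval h hR γ := by
  haveI : Finite F.VsT := inferInstance
  obtain ⟨γ₀, hs, hv⟩ := exists_coord_surjective X.isResAlg_ring (X.plc h) (X.plc_mem h)
    (g := R - Nat.card F.NdT - 3 * Nat.card F.VsT) (by omega)
  refine ⟨γ₀.comp (MvPowerSeries.renameEquiv O (crdEquiv F _)).toAlgHom,
    hs.comp (MvPowerSeries.renameEquiv O (crdEquiv F _)).surjective, fun v i k => ?_, fun w o => ?_⟩
  · rw [← hv]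
    exact congrArg γ₀ (MvPowerSeries.rename_X _ _)
  · rw [← hv]
    exact congrArg γ₀ (MvPowerSeries.rename_X _ _)

variable {X h hR} {γ : (h.shape R hR).Coords →ₐ[O] X.Ring} (hγ : X.GoodEval h hR γ)

local notation "ι" => algebraMap O X.Ring

omit hγ in
theorem map_C (c : O) : γ (MvPowerSeries.C c) = ι c := γ.commutes c

include hγ

theorem GoodEval.phi (w : F.NdT) : γ ((h.shape R hR).phi w) = X.phiAt h w.1 := hγ.2 w none

theorem GoodEval.ent (w : F.NdT) (j : Fin 2 × Fin 2) :
    γ ((h.shape R hR).ent w j) = X.nilAt w.1 j.1 j.2 := hγ.2 w (some j)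

theorem GoodEval.flip_node (w : F.NdT) :
    γ ((h.shape R hR).phi w * ((h.shape R hR).phi w + MvPowerSeries.C ((h.shape R hR).κ w))) =
      X.phiAt h w.1 * (X.phiAt h w.1 + ι (h.kap w)) := by
  rw [map_mul, map_add, hγ.phi, map_C]
  rfl

theorem GoodEval.frobMat (v : F.VsT) :
    (γ : (h.shape R hR).Coords →+* X.Ring).mapMatrix ((h.shape R hR).frobMat v) = X.frobAt v.1 := by
  have e : ∀ k, γ (MvPowerSeries.X (Sum.inl (v, (0 : Fin 2), k))) = X.crd3 (X.frobAt v.1) k :=
    fun k => by rw [hγ.1]; simp [plc]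
  refine Matrix.ext fun a b => ?_
  rw [RingHom.mapMatrix_apply, Matrix.map_apply, RingHom.coe_coe]
  fin_cases a <;> fin_cases b
  · exact e 0
  · exact e 1
  · exact e 2
  · exact (map_neg γ _).trans ((congrArg Neg.neg (e 0)).trans (X.frobAt_trace h v.1).symm)

theorem GoodEval.nilMat (v : F.VsT) :
    (γ : (h.shape R hR).Coords →+* X.Ring).mapMatrix ((h.shape R hR).nilMat v) = X.nilAt v.1 := by
  have e : ∀ k, γ (MvPowerSeries.X (Sum.inl (v, (1 : Fin 2), k))) = X.crd3 (X.nilAt v.1) k :=
    fun k => by rw [hγ.1]; simp [plc]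
  refine Matrix.ext fun a b => ?_
  rw [RingHom.mapMatrix_apply, Matrix.map_apply, RingHom.coe_coe]
  fin_cases a <;> fin_cases b
  · exact e 0
  · exact e 1
  · exact e 2
  · exact (map_neg γ _).trans ((congrArg Neg.neg (e 0)).trans (X.nilAt_trace h v).symm)

theorem GoodEval.conic (v : F.VsT) :
    γ ((h.shape R hR).conic v) = X.frobAt v.1 0 0 ^ 2 + X.frobAt v.1 0 1 * X.frobAt v.1 1 0 -
      ι (h.del v) ^ 2 := by
  have e : ∀ k, γ (MvPowerSeries.X (Sum.inl (v, (0 : Fin 2), k))) = X.crd3 (X.frobAt v.1) k :=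
    fun k => by rw [hγ.1]; simp [plc]
  rw [Chain.Shape.conic, map_sub, map_add, map_pow, map_mul, map_pow, map_C]
  erw [e 0, e 1, e 2]
  rfl

theorem GoodEval.flip_scalar (v : F.VsT) :
    γ (4 * (h.shape R hR).conic v) =
      (X.rep (F.fr v.1)).trace ^ 2 - (1 + (F.v v.1 : X.Ring)) ^ 2 := by
  rw [map_mul, map_ofNat, hγ.conic, X.conic_eq h v]

theorem GoodEval.scalar_mat (v : F.VsT) (i j : Fin 2) :
    γ ((h.shape R hR).relR v i j) = (X.nilAt v.1 * (X.frobAt v.1 + ι (h.del v) • 1)) i j ∧
    γ ((h.shape R hR).relL v i j) = ((X.frobAt v.1 - ι (h.del v) • 1) * X.nilAt v.1) i j := by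
  have hs : (γ : (h.shape R hR).Coords →+* X.Ring).mapMatrix
      ((MvPowerSeries.C ((h.shape R hR).δ v) : (h.shape R hR).Coords) • (1 : M2 (h.shape R hR).Coords)) = ι (h.del v) • 1 := by
    refine Matrix.ext fun a b => ?_
    rw [RingHom.mapMatrix_apply, Matrix.map_apply, Matrix.smul_apply, Matrix.smul_apply,
      RingHom.coe_coe, smul_eq_mul, smul_eq_mul, map_mul, map_C, Matrix.one_apply, Matrix.one_apply,
      apply_ite γ, map_one, map_zero]
    rfl
  refine ⟨?_, ?_⟩
  · rw [← hγ.nilMat v, ← hγ.frobMat v, ← hs, ← map_add, ← map_mul]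
    rfl
  · rw [← hγ.nilMat v, ← hγ.frobMat v, ← hs, ← map_sub, ← map_mul]
    rfl

end Aux

/-- **The level of a set of auxiliary primes.** -/
def Aux.level (h : F.Ready) (hR : Nat.card F.NdT + 3 * Nat.card F.VsT ≤ R)
    (hk : Module.finrank (ResidueField O) (killedDer X.isResAlg_ring (X.plc h.hyp)) +
      Nat.card F.NdT + 3 * Nat.card F.VsT ≤ R) :
    Chain.Level (h.hyp.shape R hR) p n :=
  let γ := (X.exists_goodEval h.hyp hR hk).choose
  have hγ : X.GoodEval h.hyp hR γ := (X.exists_goodEval h.hyp hR hk).choose_spec.2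
  have hres : p ∣ F.base F.t → ∀ P : ValuationSubring Arith.QBar, P.LiesOverPrime p →
      ∃ w : Fin 2 → ResidueField O, w ≠ 0 ∧
        Galois.OrdVec P (Deform.mapM (residue O) F.rhoE) w := fun hp => res_ordinary h hp
  { A := X.Ring
    γ := γ
    γ_surj := (X.exists_goodEval h.hyp hR hk).choose_spec.1
    e := X.eval
    e_phi := fun w => by rw [hγ.phi]; exact X.phiAt_eval h.hyp w.1
    e_conic := fun v => by
      have e := congrArg X.eval (X.conic_eq h.hyp v)
      rw [← hγ.conic v, map_mul, map_ofNat, map_sub, map_pow, map_pow, map_add, map_one,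
        map_natCast, Aux.eval_trace, h.hyp.trace_fr v.1 v.2.1] at e
      have ha := h.hyp.sgn_sq v.1
      refine (mul_eq_zero.1 (?_ : (4 : O) * X.eval (γ ((h.hyp.shape R hR).conic v)) = 0)).resolve_left
        (by norm_num)
      linear_combination e + (1 + (F.v v.1 : O)) ^ 2 * ha
    node_mul := fun w j => by
      rw [map_mul, hγ.flip_node, hγ.ent]
      exact X.node_mul h.hyp hres w j
    node_line := fun w j => by
      obtain ⟨c, hc⟩ := X.node_line h.hyp hres w j
      refine ⟨c, ?_⟩
      rw [map_add, hγ.ent, hγ.ent, hγ.phi, Aux.map_C]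
      exact hc
    scalar_mul := fun v k => by
      rw [map_mul, hγ.conic, hγ.1]
      show X.plc h.hyp (Sum.inl (v, 1, k)) * _ = 0
      fin_cases k <;> simp only [Aux.plc] <;> exact X.scalar_mul h.hyp v _ _
    scalar_right := fun v i j => by
      rw [(hγ.scalar_mat v i j).1, (X.scalar_rel h.hyp v).1]
      rfl
    scalar_left := fun v i j => by
      rw [(hγ.scalar_mat v i j).2, (X.scalar_rel h.hyp v).2]
      rfl
    M := X.Lev
    modS := fun j => X.instModuleSeries (Nat.le_of_lt_succ j.2)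
    commM := fun j => (inferInstance : SMulCommClass X.Ring (DiaSeries R O) (X.LMod (Nat.le_of_lt_succ j.2)))
    compat := fun j c x => X.ring_C_smul _ c x
    rank := fun j => X.rk (Nat.le_of_lt_succ j.2)
    b := fun j => X.lbas _
    span := fun j x => X.exists_span_series _ x
    kill := fun j f hf x => X.kill_series _ hf x
    indep := fun j c hc => X.indep_series _ c hc
    tw := X.tw
    tw_act := fun i j x => X.tw_smul _ i x
    e_tw := X.eval_tw
    unr := fun i j hji hnode f hf x => by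
      have hne : ∀ k : Fin F.t, k = i → ∀ a b, F.v k ≠ p →
          X.nilAt k a b • x = 0 := fun k hk a b hp => by
        subst hk
        rw [Aux.nilAt, if_neg hp]
        exact X.unr_rep k.2 _ hji hp (F.place_lies k) (F.tame_mem k) a b x
      rcases hord : (h.hyp.shape R hR).ord i with w | v
      · rw [hord] at hf
        obtain ⟨jj, rfl⟩ := hf
        have hw : w.1 = i := F.ordT_inl hord
        have hp : F.v w.1 ≠ p := fun hp => hnode w hord (by
          show IsUnit (h.hyp.kap w)
          rw [Fixed.Hyp.kap, if_pos hp]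
          exact isUnit_two_mul p (h.hyp.pSgn_sq (Fixed.dvd_base_of_eq hp)))
          (by rw [← hw]; exact h.hyp.p_first _ w.1.2 hp)
        rw [hγ.ent]
        exact hne w.1 hw _ _ hp
      · rw [hord] at hf
        obtain ⟨k, rfl⟩ := hf
        have hv : v.1 = i := F.ordT_inr hord
        rw [hγ.1]
        fin_cases k <;> simp only [Aux.plc] <;> exact hne v.1 hv _ _ v.2.1
    deg := X.degLev
    deg_smul := fun i c u => X.deg_smul i.2 c u
    deg_inj := fun i u hu => X.deg_inj i.2 u hu
    flip := fun i => by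
      by_cases hp : F.v (i : ℕ) = p
      · refine Or.inr ⟨h.hyp.p_first _ i.2 hp, ?_, X.flip_p i.2 hp (h.unitRoot _ i.2 hp)⟩
        rcases hord : (h.hyp.shape R hR).ord i with w | v
        · have hw : w.1 = i := F.ordT_inl hord
          refine ⟨w, rfl, ?_⟩
          show IsUnit (h.hyp.kap w)
          rw [Fixed.Hyp.kap, if_pos (by rw [hw]; exact hp)]
          exact isUnit_two_mul p (h.hyp.pSgn_sq (Fixed.dvd_base_of_eq hp))
        · exact absurd hp (by rw [← F.ordT_inr hord]; exact v.2.1)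
      · obtain ⟨degS, h1, h2, h3⟩ := X.flip_ne i.2 hp (F.place_lies (i : ℕ)) (F.fr_spec (i : ℕ))
        refine Or.inl ⟨(X.rep (F.fr i)).trace, (F.v i : X.Ring) + 1, degS, h1, ?_, h2, h3⟩
        rcases hord : (h.hyp.shape R hR).ord i with w | v
        · have hw : w.1 = i := F.ordT_inl hord
          rw [Chain.Shape.flipEl, hγ.flip_node, X.phi_mul_kap, if_neg (by rw [hw]; exact hp), hw]
          ring
        · have hv : v.1 = i := F.ordT_inr hord
          rw [Chain.Shape.flipEl, hγ.flip_scalar, hv]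
          ring }

end Fermat.Agent.RT.Lift59.Levels

end
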