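import Mathlib.LinearAlgebra.Matrix.Charpoly.Coeff
import Mathlib.RingTheory.LocalRing.Basic

/-!
# The relations at a prime of unipotent inertia

For `F N = v N F` with `det F = v` and a torsion free ring, `(tr F) ^ 2 - (1 + v) ^ 2` kills `N`;
the multiple `N' = (tr F + a (1 + v)) N`, `a ^ 2 = 1`, satisfies `N' F = a N'` and `F N' = v a N'`.
-/

set_option autoImplicit false

noncomputable section

namespace Fermat.Agent.RT.Lift59.Galois

variable {A : Type} [CommRing A]

/-- Natural numbers other than zero are regular. -/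
def NatTorsionFree (A : Type) [CommRing A] : Prop :=
  ∀ m : ℕ, m ≠ 0 → ∀ x : A, (m : A) * x = 0 → x = 0

theorem NatTorsionFree.smul_matrix (htf : NatTorsionFree A) {m : ℕ} (hm : m ≠ 0)
    {M : Matrix (Fin 2) (Fin 2) A} (h : (m : A) • M = 0) : M = 0 :=
  Matrix.ext fun i j => htf m hm _ (congrFun (congrFun h i) j)

theorem trace_sub_one_of_charpoly [Nontrivial A] {T : Matrix (Fin 2) (Fin 2) A}
    (h : T.charpoly = (Polynomial.X - Polynomial.C 1) ^ 2) : (T - 1).trace = 0 := by
  have h1 := congrArg (fun f : Polynomial A => f.coeff 1) h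
  rw [Matrix.charpoly_fin_two] at h1
  simp only [Matrix.trace_sub, Matrix.trace_one, Fintype.card_fin, Nat.cast_ofNat]
  simp [sq, sub_mul, mul_sub, Polynomial.coeff_one, Polynomial.coeff_X] at h1
  linear_combination -h1

/-- The tame relation for a unipotent generator. -/
theorem mul_nil_of_conj_pow {F T : Matrix (Fin 2) (Fin 2) A} {v : ℕ}
    (hT : (T - 1) * (T - 1) = 0) (h : F * T = T ^ v * F) :
    F * (T - 1) = (v : A) • ((T - 1) * F) := by
  have hpow : ∀ k : ℕ, T ^ k = 1 + (k : A) • (T - 1) := fun k => by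
    induction k with
    | zero => simp
    | succ k ih =>
      have e : T = 1 + (T - 1) := (add_sub_cancel _ _).symm
      conv_lhs => rw [pow_succ, ih, e]
      rw [mul_add, mul_one, add_mul, one_mul, smul_mul_assoc, ← e, hT, smul_zero, add_zero,
        Nat.cast_succ, add_smul, one_smul, add_assoc]
  rw [mul_sub, mul_one, h, hpow, add_mul, one_mul, add_sub_cancel_left, smul_mul_assoc]

variable {F N : Matrix (Fin 2) (Fin 2) A} {v : ℕ}

/-- `tr F • N = (1 + v) • N F`. -/
theorem trace_smul_nil (htf : NatTorsionFree A) (hv : 2 ≤ v) (hdet : F.det = (v : A))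
    (hFN : F * N = (v : A) • (N * F)) : F.trace • N = (1 + (v : A)) • (N * F) := by
  have hsq : F * F = F.trace • F - (v : A) • 1 := by
    rw [← hdet]
    ext i j
    fin_cases i <;> fin_cases j <;>
      simp [Matrix.mul_apply, Fin.sum_univ_two, Matrix.trace_fin_two, Matrix.det_fin_two] <;> ring
  set t := F.trace
  have h2 : F * (F * N) = (v : A) • ((v : A) • (N * (F * F))) := by
    rw [hFN, Matrix.mul_smul, ← mul_assoc, hFN, smul_mul_assoc, mul_assoc]
  rw [← mul_assoc, hsq, sub_mul, smul_mul_assoc, smul_mul_assoc, one_mul, hFN, mul_sub,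
    Matrix.mul_smul, Matrix.mul_smul, mul_one] at h2
  -- `t N F = (1 + v) N`
  have h3 : t • (N * F) = (1 + (v : A)) • N := by
    rw [← sub_eq_zero]
    refine htf.smul_matrix (show v * (v - 1) ≠ 0 from Nat.mul_ne_zero (by omega) (by omega)) ?_
    rw [Nat.cast_mul, Nat.cast_sub (by omega), Nat.cast_one]
    ext i j
    have e := congrFun (congrFun h2 i) j
    simp only [Matrix.smul_apply, Matrix.sub_apply, Matrix.zero_apply, smul_eq_mul] at e ⊢
    linear_combination -e
  have h4 := congrArg (fun M => M * F) h3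
  simp only [smul_mul_assoc] at h4
  rw [mul_assoc, hsq, mul_sub, Matrix.mul_smul, Matrix.mul_smul, mul_one, smul_sub, h3,
    smul_smul, smul_smul] at h4
  ext i j
  have e := congrFun (congrFun h4 i) j
  have e3 := congrFun (congrFun h3 i) j
  simp only [Matrix.smul_apply, Matrix.sub_apply, smul_eq_mul] at e e3 ⊢
  linear_combination e

/-- **The node relation.** -/
theorem trace_sq_smul_nil (htf : NatTorsionFree A) (hv : 2 ≤ v) (hdet : F.det = (v : A))
    (hFN : F * N = (v : A) • (N * F)) : (F.trace ^ 2 - (1 + (v : A)) ^ 2) • N = 0 := by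
  have h := trace_smul_nil htf hv hdet hFN
  have hsq : F * F = F.trace • F - (v : A) • 1 := by
    rw [← hdet]
    ext i j
    fin_cases i <;> fin_cases j <;>
      simp [Matrix.mul_apply, Fin.sum_univ_two, Matrix.trace_fin_two, Matrix.det_fin_two] <;> ring
  have h' := congrArg (fun M => M * F) h
  simp only [smul_mul_assoc] at h'
  rw [mul_assoc, hsq, mul_sub, Matrix.mul_smul, Matrix.mul_smul, mul_one] at h'
  refine htf.smul_matrix (show v ≠ 0 by omega) ?_
  ext i j
  have e := congrFun (congrFun h i) j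
  have e' := congrFun (congrFun h' i) j
  simp only [Matrix.smul_apply, Matrix.sub_apply, Matrix.zero_apply, smul_eq_mul] at e e' ⊢
  linear_combination (-(1 + (v : A))) * e' + ((v : A) * F.trace) * e

/-- The multiple of `N` on the multiplicative component is killed from the right by `F - a`. -/
theorem nil_line_right (htf : NatTorsionFree A) (hv : 2 ≤ v) (hdet : F.det = (v : A))
    (hFN : F * N = (v : A) • (N * F)) {a : A} (ha : a ^ 2 = 1) :
    ((F.trace + a * (1 + (v : A))) • N) * (F - a • 1) = 0 := by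
  have h := trace_smul_nil htf hv hdet hFN
  have h2 := trace_sq_smul_nil htf hv hdet hFN
  refine htf.smul_matrix (show 1 + v ≠ 0 by omega) ?_
  rw [Nat.cast_add, Nat.cast_one, smul_mul_assoc, mul_sub, Matrix.mul_smul, mul_one]
  ext i j
  have e := congrFun (congrFun h i) j
  have e2 := congrFun (congrFun h2 i) j
  simp only [Matrix.smul_apply, Matrix.sub_apply, Matrix.zero_apply, smul_eq_mul] at e e2 ⊢
  linear_combination (-(F.trace + a * (1 + (v : A)))) * e + e2 - ((1 + (v : A)) ^ 2 * N i j) * ha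

/-- The multiple of `N` on the multiplicative component is killed from the left by `F - v a`. -/
theorem nil_line_left (htf : NatTorsionFree A) (hv : 2 ≤ v) (hdet : F.det = (v : A))
    (hFN : F * N = (v : A) • (N * F)) {a : A} (ha : a ^ 2 = 1) :
    (F - ((v : A) * a) • 1) * ((F.trace + a * (1 + (v : A))) • N) = 0 := by
  have h := nil_line_right htf hv hdet hFN ha
  rw [smul_mul_assoc, mul_sub, Matrix.mul_smul, mul_one] at h
  rw [Matrix.mul_smul, sub_mul, smul_mul_assoc, one_mul, hFN]
  ext i j
  have e := congrFun (congrFun h i) j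
  simp only [Matrix.smul_apply, Matrix.sub_apply, Matrix.zero_apply, smul_eq_mul] at e ⊢
  linear_combination (v : A) * e

/-- An entry of a matrix killed on both sides by matrices with unit entries gives the others. -/
theorem exists_mul_entry {M D E : Matrix (Fin 2) (Fin 2) A} (h1 : M * D = 0) (h2 : E * M = 0)
    {k l m n : Fin 2} (hD : IsUnit (D k l)) (hE : IsUnit (E m n)) (j : Fin 2 × Fin 2) :
    ∃ c : A, M j.1 j.2 = c * M (n + 1) (k + 1) := by
  have hcol : ∀ r : Fin 2, ∃ c, M r k = c * M r (k + 1) := fun r => by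
    have e := congrFun (congrFun h1 r) l
    obtain ⟨u, hu⟩ := hD
    refine ⟨-(D (k + 1) l) * (u⁻¹ : Aˣ), ?_⟩
    have hinv : D k l * (u⁻¹ : Aˣ) = 1 := by rw [← hu]; exact u.mul_inv
    fin_cases k <;> simp only [Fin.zero_eta, Fin.mk_one] at hinv <;>
      simp [Matrix.mul_apply, Fin.sum_univ_two] at e ⊢
    · linear_combination ((u⁻¹ : Aˣ) : A) * e - M r 0 * hinv
    · linear_combination ((u⁻¹ : Aˣ) : A) * e - M r 1 * hinv
  have hrow : ∀ c' : Fin 2, ∃ c, M n c' = c * M (n + 1) c' := fun c' => by
    have e := congrFun (congrFun h2 m) c'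
    obtain ⟨u, hu⟩ := hE
    refine ⟨-(E m (n + 1)) * (u⁻¹ : Aˣ), ?_⟩
    have hinv : E m n * (u⁻¹ : Aˣ) = 1 := by rw [← hu]; exact u.mul_inv
    fin_cases n <;> simp only [Fin.zero_eta, Fin.mk_one] at hinv <;>
      simp [Matrix.mul_apply, Fin.sum_univ_two] at e ⊢
    · linear_combination ((u⁻¹ : Aˣ) : A) * e - M 0 c' * hinv
    · linear_combination ((u⁻¹ : Aˣ) : A) * e - M 1 c' * hinv
  have hcol' : ∀ r c', ∃ c, M r c' = c * M r (k + 1) := fun r c' => by
    by_cases h : c' = k
    · exact h ▸ hcol r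
    · exact ⟨1, by rw [one_mul, show c' = k + 1 by revert h; fin_cases c' <;> fin_cases k <;> simp]⟩
  obtain ⟨c, hc⟩ := hcol' j.1 j.2
  by_cases h : j.1 = n
  · obtain ⟨d, hd⟩ := hrow (k + 1)
    exact ⟨c * d, by rw [hc, h, hd, mul_assoc]⟩
  · refine ⟨c, ?_⟩
    rw [hc, show j.1 = n + 1 by revert h; generalize j.1 = r; fin_cases r <;> fin_cases n <;> simp]

/-- At a scalar place the trace minus `a (1 + v)` kills `N`. -/
theorem sub_smul_nil_of_isUnit (htf : NatTorsionFree A) (hv : 2 ≤ v) (hdet : F.det = (v : A))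
    (hFN : F * N = (v : A) • (N * F)) {a : A} (ha : a ^ 2 = 1)
    (hu : IsUnit (F.trace + a * (1 + (v : A)))) :
    (F.trace - a * (1 + (v : A))) • N = 0 := by
  have h := trace_sq_smul_nil htf hv hdet hFN
  obtain ⟨u, hu⟩ := hu
  rw [show F.trace ^ 2 - (1 + (v : A)) ^ 2 =
    (u : A) * (F.trace - a * (1 + (v : A))) by rw [hu]; linear_combination (1 + (v:A)) ^ 2 * ha,
    mul_smul] at h
  exact (smul_eq_zero_iff_eq u).1 h

/-- The relations of a scalar place: `c` is an inverse of `2`. -/
theorem scalar_rel (htf : NatTorsionFree A) (hv : 2 ≤ v) (hdet : F.det = (v : A))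
    (hFN : F * N = (v : A) • (N * F)) {a : A} (ha : a ^ 2 = 1)
    (hu : IsUnit (F.trace + a * (1 + (v : A)))) {c : A} (hc : 2 * c = 1) :
    N * ((F - (c * F.trace) • 1) + (c * (a * ((v : A) - 1))) • 1) = 0 ∧
      ((F - (c * F.trace) • 1) - (c * (a * ((v : A) - 1))) • 1) * N = 0 := by
  have h0 := sub_smul_nil_of_isUnit htf hv hdet hFN ha hu
  have hr := nil_line_right htf hv hdet hFN ha
  have hl := nil_line_left htf hv hdet hFN ha
  obtain ⟨u, hu⟩ := hu
  rw [← hu, smul_mul_assoc] at hr
  rw [← hu, Matrix.mul_smul] at hl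
  have hr' := (smul_eq_zero_iff_eq u).1 hr
  have hl' := (smul_eq_zero_iff_eq u).1 hl
  rw [mul_sub, Matrix.mul_smul, mul_one] at hr'
  rw [sub_mul, smul_mul_assoc, one_mul] at hl'
  constructor
  · rw [mul_add, mul_sub, Matrix.mul_smul, Matrix.mul_smul, mul_one]
    ext i j
    have e := congrFun (congrFun hr' i) j
    have e0 := congrFun (congrFun h0 i) j
    simp only [Matrix.smul_apply, Matrix.sub_apply, Matrix.add_apply, Matrix.zero_apply,
      smul_eq_mul] at e e0 ⊢
    linear_combination e - c * e0 - (a * N i j) * hc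
  · rw [sub_mul, sub_mul, smul_mul_assoc, smul_mul_assoc, one_mul]
    ext i j
    have e := congrFun (congrFun hl' i) j
    have e0 := congrFun (congrFun h0 i) j
    simp only [Matrix.smul_apply, Matrix.sub_apply, Matrix.zero_apply, smul_eq_mul] at e e0 ⊢
    linear_combination e - c * e0 - ((v : A) * a * N i j) * hc

end Fermat.Agent.RT.Lift59.Galois

end
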