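import Fermat.Agent.RT.Lift59.Galois.Level
import Fermat.Agent.RT.Lift59.Chain.Main
import Fermat.Agent.RT.Lift59.PrimesInputProof

/-!
# There is no fixed data without a system at the top

The auxiliary primes bound the tangent spaces, the levels form a sequence and the chain of flips
contradicts it.
-/

set_option autoImplicit false
set_option linter.style.haveILetI false

noncomputable section

namespace Fermat.Agent.RT.Lift59.Levels

open IsLocalRing Module
open Fermat.Agent.Deform (M2 Gal mapM toRep)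
open Fermat.Agent.Arith (QBar)

variable {O : Type} [CommRing O] [IsDomain O] [IsDiscreteValuationRing O]
  [IsAdicComplete (maximalIdeal O) O] [Finite (ResidueField O)] [CharZero O]
  {p : ℕ} [Fact p.Prime] [Fact (p ≠ 2)] [CharP (ResidueField O) p]

namespace Fixed

variable {F : Fixed O p}

omit [IsAdicComplete (maximalIdeal O) O] [Finite (ResidueField O)] [CharZero O]
    [Fact (Nat.Prime p)] [Fact (p ≠ 2)] [CharP (ResidueField O) p] in
theorem rb_apply (σ : Gal) : F.rig.rb σ = (residue O).mapMatrix (F.rhoE σ) := by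
  rw [F.rig_rb, ← F.res]; rfl

omit [IsAdicComplete (maximalIdeal O) O] [Finite (ResidueField O)] [CharZero O]
    [Fact (Nat.Prime p)] [Fact (p ≠ 2)] in
theorem det_rb (σ : Gal) (a : ℕ) (ha : ∀ μ : QBar, μ ^ p = 1 → σ μ = μ ^ a) :
    (F.rig.rb σ).det = (a : ResidueField O) := by
  have e := rb_apply (F := F) σ
  have h := F.det_congr_rhoE 1 σ a (fun μ hμ => ha μ (by rwa [pow_one] at hμ))
  rw [e, ← RingHom.map_det, ← map_natCast (residue O), ← sub_eq_zero, ← map_sub, residue_eq_zero_iff]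
  refine (Ideal.span_singleton_le_iff_mem _).2 ?_ h
  rw [pow_one]
  exact natCast_mem_max

omit [IsAdicComplete (maximalIdeal O) O] [Finite (ResidueField O)] [CharZero O] [Fact (p ≠ 2)]
    [CharP (ResidueField O) p] in
theorem rb_eq_one (h : F.Ready) {ℓ : ℕ} (hℓ : ℓ.Prime) (hℓp : ℓ ≠ p) (hℓZ : ℓ ∉ F.setZ)
    {A : ValuationSubring QBar} (hA : A.LiesOverPrime ℓ) {τ : Gal}
    (hτ : τ ∈ A.inertiaSubgroupIn ℚ) : F.rig.rb τ = 1 := by
  have hL : ¬ ℓ ∣ F.L := fun hd => hℓZ (F.mem_setZ.2 ⟨hℓp, hℓ, hd⟩)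
  by_cases hb : ℓ ∣ F.base F.t
  · rw [F.base_eq] at hb
    obtain ⟨i, hi, hd⟩ := (Prime.dvd_finsetProd_iff hℓ.prime _).1 ((hℓ.dvd_mul.1 hb).resolve_left hL)
    obtain rfl : F.v i = ℓ := ((Nat.prime_dvd_prime_iff_eq hℓ (F.v_prime i)).1 hd).symm
    exact h.hyp.unrV i (Finset.mem_range.1 hi) hℓp A hA τ hτ
  · have hbad : ¬ ℓ ∣ F.bad := fun hd => by
      rw [← F.base_top_mul] at hd
      rcases hℓ.dvd_mul.1 hd with hd | hd
      · exact hb hd
      · exact hℓp ((Nat.prime_dvd_prime_iff_eq hℓ Fact.out).1 hd)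
    rw [rb_apply, F.unrE ℓ hℓ hbad A hA τ hτ, map_one]

omit [IsAdicComplete (maximalIdeal O) O] [Finite (ResidueField O)] [CharZero O]
    [CharP (ResidueField O) p] in
theorem atP_ok (h : F.Ready) : F.atP.Ok p F.rig.rb := by
  rw [atP]
  split_ifs with hL hb
  · trivial
  · rw [F.base_eq] at hb
    obtain ⟨i, hi, hd⟩ := (Prime.dvd_finsetProd_iff (Fact.out : p.Prime).prime _).1
      (((Fact.out : p.Prime).dvd_mul.1 hb).resolve_left hL)
    exact ⟨pTau_spec p, h.hyp.tauV i (Finset.mem_range.1 hi)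
      ((Nat.prime_dvd_prime_iff_eq Fact.out (F.v_prime i)).1 hd).symm _ (pTau_spec p)⟩
  · trivial

/-- The auxiliary primes of every depth, with the bound. -/
theorem exists_aux (h : F.Ready)
    (hflat : ∀ (R n : ℕ) (X : Aux F R n), ¬ p ∣ F.base F.t →
      (toRep X.rep X.isCont_rep).IsFlatAt p) :
    ∃ R : ℕ, Nat.card F.NdT + 3 * Nat.card F.VsT ≤ R ∧ ∀ n : ℕ, ∃ X : Aux F R n,
      finrank (ResidueField O) (CFT.Tangent.killedDer X.isResAlg_ring (X.plc h.hyp)) +
        Nat.card F.NdT + 3 * Nat.card F.VsT ≤ R := by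
  classical
  have hZV : Disjoint F.setZ F.setV := Finset.disjoint_left.2 fun v hZ hV => by
    obtain ⟨i, -, rfl⟩ := F.mem_setV.1 hV
    exact F.v_not_dvd i i.2 (F.mem_setZ.1 hZ).2.2
  have hZU : Disjoint F.setZ F.setU := Finset.disjoint_left.2 fun v hZ hU => by
    obtain ⟨-, i, -, rfl⟩ := F.mem_setU.1 hU
    exact F.v_not_dvd i i.2 (F.mem_setZ.1 hZ).2.2
  have hVU : Disjoint F.setV F.setU := Finset.disjoint_left.2 fun v hV hU => by
    obtain ⟨i, hi, rfl⟩ := F.mem_setV.1 hV
    obtain ⟨-, j, hj, he⟩ := F.mem_setU.1 hU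
    exact hj (by rw [Fin.ext (F.v_inj j j.2 i i.2 he)]; exact hi)
  obtain ⟨R, hR⟩ := primesInput (ResidueField O) p Fact.out F.rig.rb h.tw Aux.finiteLevel_rb
    det_rb F.setZ F.setV F.setU hZV hZU hVU
    (fun v hv => by
      simp only [Finset.mem_union] at hv
      rcases hv with (hv | hv) | hv
      · obtain ⟨h1, h2, -⟩ := F.mem_setZ.1 hv
        exact ⟨h2, h1⟩
      · obtain ⟨i, hi, rfl⟩ := F.mem_setV.1 hv
        exact ⟨F.v_prime i, hi.1⟩
      · obtain ⟨h1, i, -, rfl⟩ := F.mem_setU.1 hv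
        exact ⟨F.v_prime i, h1⟩)
    (fun ℓ hℓ hℓp hℓZ A hA τ hτ => rb_eq_one h hℓ hℓp hℓZ hA hτ)
    (fun v hv A hA => by
      obtain ⟨hvp, hvP, hvL⟩ := F.mem_setZ.1 hv
      refine ⟨fun τ hτ => ⟨?_, ?_⟩, h.ramL v hvP hvL hvp A hA⟩
      · rw [rb_apply]
        rw [RingHom.mapMatrix_apply, Matrix.trace_fin_two, Matrix.map_apply, Matrix.map_apply,
          ← map_add, ← Matrix.trace_fin_two,
          h.hyp.unipE v hvP (hvL.trans (F.base_dvd_base (Nat.zero_le _))) hvp A hA τ hτ, map_ofNat]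
      · rw [det_rb τ 1 fun μ hμ => by
          rw [pow_one]
          exact Arith.inertia_root hA hvP hτ hμ fun hd =>
            hvp ((Nat.prime_dvd_prime_iff_eq hvP Fact.out).1 hd), Nat.cast_one])
    (fun v hv A hA Fr hFr => by
      obtain ⟨i, hi, rfl⟩ := F.mem_setV.1 hv
      exact hi.2 A hA Fr hFr)
    F.bad.primeFactors
  have hcount : Nat.card F.NdT + 3 * Nat.card F.VsT ≤ R := by
    obtain ⟨q, -, -, -, hq⟩ := hR 0
    have h0 := hq F.atP (atP_ok h) ⊥ inferInstance
      { cocycle := fun b hb => by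
          rw [(Submodule.mem_bot _).1 hb]; simp [CFT.Tangent.IsAdCocycle]
        level := fun b hb => by
          rw [(Submodule.mem_bot _).1 hb]; exact ⟨⊥, inferInstance, fun _ _ => rfl⟩
        trace := fun b hb σ => by rw [(Submodule.mem_bot _).1 hb]; simp
        disjoint := fun b hb X _ => (Submodule.mem_bot _).1 hb
        unramified := fun b hb _ _ _ _ _ _ _ A _ τ _ => by rw [(Submodule.mem_bot _).1 hb]; rfl
        unipotent := fun b hb v _ A _ τ _ => by rw [(Submodule.mem_bot _).1 hb]; simp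
        vanishing := fun b hb v _ _ g _ => by rw [(Submodule.mem_bot _).1 hb]; rfl
        trivial := fun b hb v _ _ => by rw [(Submodule.mem_bot _).1 hb]; exact zero_mem _
        atP := fun b hb hne => absurd ((Submodule.mem_bot _).1 hb) hne }
    have h1 := F.card_NdT
    have h2 := F.card_VsT
    omega
  refine ⟨R, hcount, fun n => ?_⟩
  obtain ⟨q, hinj, hq, hreg, hbound⟩ := hR n
  have hqbad : ∀ i, ¬ q i ∣ F.bad := fun i hd =>
    (hq i).2.1 (Nat.mem_primeFactors.2 ⟨(hq i).1, hd, F.bad_ne_zero⟩)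
  let X : Aux F R n :=
    { q := q
      q_prime := fun i => (hq i).1
      q_inj := hinj
      q_not_dvd := hqbad
      q_cong := fun i => (pow_dvd_pow p n.le_succ).trans (hq i).2.2.2.2
      q_reg := fun i A hA σ hσ => by
        obtain ⟨α, β, hab, hchar⟩ := hreg i A hA σ hσ
        have ht : (F.rig.rb σ).trace = α + β := by
          have e := congrArg (fun f : Polynomial (ResidueField O) => f.coeff 1) hchar
          simp [Matrix.charpoly_fin_two, mul_sub, sub_mul, Polynomial.coeff_X, Polynomial.coeff_C,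
            Polynomial.coeff_X_pow] at e
          linear_combination -e
        have hd : (F.rig.rb σ).det = (q i : ResidueField O) := det_rb σ (q i) fun μ hμ =>
          GaloisReps.frobenius_apply_root hA (hq i).1 hσ hμ fun hd =>
            (hq i).2.2.2.1 ((Nat.prime_dvd_prime_iff_eq (hq i).1 Fact.out).1 hd)
        have hd' : α * β = (F.rig.rb σ).det := by
          rw [Matrix.det_eq_sign_charpoly_coeff, hchar]
          simp [Polynomial.coeff_zero_eq_eval_zero]
        have hq1 : (q i : ResidueField O) = 1 := by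
          have h1 : p ∣ q i - 1 := (dvd_pow_self p n.succ_ne_zero).trans (hq i).2.2.2.2
          rw [← Nat.sub_add_cancel (hq i).1.one_le, Nat.cast_add, Nat.cast_one,
            (CharP.cast_eq_zero_iff (ResidueField O) p _).2 h1, zero_add]
        rw [show LinearMap.trace (ResidueField O) _ (F.ρbar.ρ σ) = (F.rig.rb σ).trace by
          rw [F.rig_rb]; exact LinearMap.trace_eq_matrix_trace _ F.bb _, ht, hq1]
        intro he
        refine hab (sub_eq_zero.1 (sq_eq_zero_iff.1 ?_))
        rw [hd] at hd'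
        linear_combination he - 4 * hd' - 4 * hq1 }
  exact ⟨X, X.finrank_killed_le h (hflat R n X) (hbound F.atP (atP_ok h))⟩

/-- **No fixed data is ready**, granting flatness at a good prime `p`. -/
theorem not_ready_of_flat (h : F.Ready)
    (hflat : ∀ (R n : ℕ) (X : Aux F R n), ¬ p ∣ F.base F.t →
      (toRep X.rep X.isCont_rep).IsFlatAt p) : False := by
  obtain ⟨R, hR, hX⟩ := exists_aux h hflat
  choose X hk using hX
  have h2 : IsUnit (2 : O) := by
    simpa using isUnit_two_mul p (one_pow 2 : (1 : O) ^ 2 = 1)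
  refine Chain.LevelSeq.not_exists (P := h.hyp.shape R hR) (p := p) Fact.out natCast_mem_max h2
    { lev := fun n => (X n).level h hR (hk n)
      B := rankBound F R
      rank_le := fun n j => (X n).rk_le (Nat.le_of_lt_succ j.2)
      rank_pos := fun n => (X n).rk_pos (Nat.le_of_lt_succ (0 : Fin (F.t + 1)).2)
      sep := fun i => ?_
      top := ?_ }
  · obtain ⟨c, hc, hs⟩ := exists_sep F i.2
    exact ⟨c, hc, fun n => hs R n (X n)⟩
  · obtain ⟨c, hc, ht⟩ := exists_top F h.noSystem
    exact ⟨c, hc, fun n => ht R n (X n)⟩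

end Fixed

end Fermat.Agent.RT.Lift59.Levels

end
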