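import Fermat.Agent.RT.Lift59.Galois.NotReady
import Fermat.Agent.RT.Lift59.Galois.FlatT

/-!
# No fixed data is ready
-/

set_option autoImplicit false

noncomputable section

namespace Fermat.Agent.RT.Lift59.Levels

/-- **The lifting theorem over fixed data.** -/
theorem notReadyInput : NotReadyInput := by
  intro O _ _ _ _ _ _ p _ _ _ F h
  exact F.not_ready_of_flat h fun _ _ X hp => X.isFlatAt_rep hp (h.flatE hp)

end Fermat.Agent.RT.Lift59.Levels

end
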