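import Fermat.Agent.RT.Patch.Descend
import Fermat.Agent.Mazur.Eisenstein.CycInertia
import Fermat.Prelude.Def_GaloisRep_StrictOrdinary
import Mathlib.LinearAlgebra.Matrix.ToLinearEquiv

/-!
# Strict ordinarity descends to the algebra of entries

An inertia element inverting the roots of unity has distinct eigenvalues modulo the maximal ideal,
so the line of a strictly ordinary representation is spanned by a column with entries in any
subalgebra containing the entries of the representation.
-/

set_option autoImplicit false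
set_option linter.style.haveILetI false
set_option linter.unusedSectionVars false

noncomputable section

namespace Fermat.Agent.RT.Lift59.Galois

open IsLocalRing Fermat.Agent.Deform Fermat.Agent.Arith Fermat.Agent.RT.Assembly Module
open scoped Matrix

variable {O : Type} [CommRing O] [IsDomain O] [IsDiscreteValuationRing O]
  {A : Type} [CommRing A] [IsLocalRing A] [Algebra O A] [Module.Finite O A]
  {p : ℕ} [hp : Fact p.Prime]

/-- The coordinates of a vector over a subalgebra. -/
theorem coe_mulVec (S : Subalgebra O A) {r : Gal →* M2 A} (hS : ∀ σ i j, r σ i j ∈ S) (σ : Gal)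
    (v : Fin 2 → S) :
    (fun i => ((corestrict S r hS σ *ᵥ v) i : A)) = r σ *ᵥ fun i => (v i : A) := by
  funext i
  exact ((S.val : S →+* A).map_mulVec (corestrict S r hS σ) v i)

/-- A column of a matrix congruent to a nonzero multiple of a line generator. -/
theorem exists_unit_column {e : Basis (Fin 2) A (Fin 2 → A)} {M : M2 A}
    (hI : ∀ v, M *ᵥ v ∈ A ∙ e 0) {u : A} (hu : IsUnit u) (he : M *ᵥ e 0 = u • e 0) :
    ∃ i j, IsUnit (M i j) ∧ ∃ c : A, IsUnit c ∧ M *ᵥ Pi.single j 1 = c • e 0 := by
  choose c hc using fun j : Fin 2 => Submodule.mem_span_singleton.1 (hI (Pi.single j 1))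
  have hsum : e 0 0 * c 0 + e 0 1 * c 1 = u := by
    have h1 : M *ᵥ e 0 = (e 0 0 * c 0 + e 0 1 * c 1) • e 0 := by
      conv_lhs => rw [show e 0 = e 0 0 • Pi.single 0 1 + e 0 1 • Pi.single 1 1 by
        ext i; fin_cases i <;> simp]
      rw [Matrix.mulVec_add, Matrix.mulVec_smul, Matrix.mulVec_smul, ← hc 0, ← hc 1, smul_smul,
        smul_smul, add_smul]
    have h2 := congrArg (fun v => e.repr v 0) (h1.symm.trans he)
    simpa using h2
  have hj : ∃ j, IsUnit (c j) := by
    rcases IsLocalRing.isUnit_or_isUnit_of_isUnit_add (hsum ▸ hu) with h | h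
    · exact ⟨0, isUnit_of_mul_isUnit_right h⟩
    · exact ⟨1, isUnit_of_mul_isUnit_right h⟩
  obtain ⟨j, hj⟩ := hj
  have hei : ∃ i, IsUnit (e 0 i) := by
    rcases IsLocalRing.isUnit_or_isUnit_of_isUnit_add (hsum ▸ hu) with h | h
    · exact ⟨0, isUnit_of_mul_isUnit_left h⟩
    · exact ⟨1, isUnit_of_mul_isUnit_left h⟩
  obtain ⟨i, hi⟩ := hei
  refine ⟨i, j, ?_, c j, hj, (hc j).symm⟩
  have h := congrFun (hc j) i
  rw [Matrix.mulVec_single_one, Pi.smul_apply, smul_eq_mul] at h
  rw [show M i j = c j * e 0 i from h.symm]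
  exact hj.mul hi

/-- A vector with a unit coordinate starts a basis. -/
theorem exists_basis_of_isUnit {R : Type} [CommRing R] {w : Fin 2 → R} {i : Fin 2}
    (hi : IsUnit (w i)) : ∃ b : Basis (Fin 2) R (Fin 2 → R), b 0 = w := by
  let Q : M2 R := Matrix.of fun a b => if b = 0 then w a else if a = i then 0 else 1
  have hQ : IsUnit Q.det := by
    rw [Matrix.det_fin_two]
    fin_cases i <;> simp_all [Q]
  refine ⟨(Pi.basisFun R (Fin 2)).map (Q.toLinearEquiv' (Q.invertibleOfIsUnitDet hQ)), ?_⟩
  rw [Basis.map_apply, Pi.basisFun_apply]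
  show Matrix.toLin' Q (Pi.single 0 1) = w
  rw [Matrix.toLin'_apply, Matrix.mulVec_single_one]
  funext a
  simp [Q]

/-- The residue of `p` vanishes. -/
theorem natCast_mem_maximalIdeal [IsAdicComplete (maximalIdeal O) O] (hA : IsResAlg O A)
    (hpO : (p : O) ∈ maximalIdeal O) : (p : A) ∈ maximalIdeal A := by
  haveI := hA.isLocalHom
  rw [← map_natCast (algebraMap O A)]
  exact map_nonunit (algebraMap O A) _ hpO

end Fermat.Agent.RT.Lift59.Galois

end
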