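import Fermat.Agent.RT.Lift59.Galois.PlaceP
import Fermat.Agent.RT.Lift59.Galois.OrdDescend
import Fermat.Agent.RT.Patch.Local
import Fermat.Agent.RT.Algebra.Ultralimit

/-!
# Ordinary lines given by a vector, and the relation at `p`

`OrdVec P r w` says in equations that the line of `w` is stable under decomposition at `P` and that
inertia is trivial on the quotient. The unramified character `zAt` of the quotient satisfies
`(z F ^ 2 - 1) * c (τ) = 0` at an element `τ` seeing only the `p`-part.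
-/

set_option autoImplicit false
set_option linter.unusedSectionVars false

noncomputable section

namespace Fermat.Agent.RT.Lift59.Galois

open IsLocalRing Fermat.Agent.Deform Fermat.Agent.Arith
open scoped Matrix Pointwise

variable {A : Type} [CommRing A]

/-- The determinant of two vectors. -/
def cross (u w : Fin 2 → A) : A := u 0 * w 1 - u 1 * w 0

theorem map_cross {B : Type} [CommRing B] (f : A →+* B) (u w : Fin 2 → A) :
    f (cross u w) = cross (f ∘ u) (f ∘ w) := by simp [cross]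

theorem cross_self (w : Fin 2 → A) : cross w w = 0 := by simp [cross]; ring

theorem cross_smul_left (c : A) (u w : Fin 2 → A) : cross (c • u) w = c * cross u w := by
  simp [cross]; ring

theorem cross_smul_right (c : A) (u w : Fin 2 → A) : cross u (c • w) = c * cross u w := by
  simp [cross]; ring

theorem cross_sub_left (u u' w : Fin 2 → A) : cross (u - u') w = cross u w - cross u' w := by
  simp [cross]; ring

theorem cross_mulVec (M : M2 A) (u w : Fin 2 → A) :
    cross (M *ᵥ u) (M *ᵥ w) = M.det * cross u w := by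
  simp [cross, Matrix.mulVec, dotProduct, Fin.sum_univ_two, Matrix.det_fin_two]; ring

theorem cross_mulVec_add (M : M2 A) (u w : Fin 2 → A) :
    cross (M *ᵥ u) w + cross u (M *ᵥ w) = M.trace * cross u w := by
  simp [cross, Matrix.mulVec, dotProduct, Fin.sum_univ_two, Matrix.trace_fin_two]; ring

theorem eq_smul_of_cross {u w : Fin 2 → A} {i : Fin 2} (hi : IsUnit (w i))
    (h : cross u w = 0) : u = (u i * Ring.inverse (w i)) • w := by
  have h1 := Ring.inverse_mul_cancel (w i) hi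
  simp only [cross] at h
  funext a
  fin_cases i <;> fin_cases a <;>
    simp only [Fin.mk_one, Fin.zero_eta, Pi.smul_apply, smul_eq_mul] at h1 ⊢
  · linear_combination (-u 0) * h1
  · linear_combination -Ring.inverse (w 0) * h - u 1 * h1
  · linear_combination Ring.inverse (w 1) * h - u 0 * h1
  · linear_combination (-u 1) * h1

/-- The vector complementary to a unit coordinate. -/
abbrev other (i : Fin 2) : Fin 2 → A := Pi.single (i + 1) 1

theorem isUnit_cross_other {w : Fin 2 → A} {i : Fin 2} (hi : IsUnit (w i)) :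
    IsUnit (cross (other i) w) := by
  fin_cases i
  · have e : cross (other (0 : Fin 2)) w = -w 0 := by simp [cross, other]
    exact e ▸ hi.neg
  · have e : cross (other (1 : Fin 2)) w = w 1 := by simp [cross, other]
    exact e ▸ hi

/-- The line of `w` is an ordinary line at `P`. -/
structure OrdVec (P : ValuationSubring QBar) (r : Gal →* M2 A) (w : Fin 2 → A) : Prop where
  dec : ∀ σ ∈ P.decompositionSubgroup ℚ, cross (r σ *ᵥ w) w = 0
  inert : ∀ σ ∈ P.inertiaSubgroupIn ℚ, ∀ v : Fin 2 → A, cross (r σ *ᵥ v - v) w = 0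

/-- The character on the line. -/
def xAt (r : Gal →* M2 A) (w : Fin 2 → A) (i : Fin 2) (σ : Gal) : A :=
  (r σ *ᵥ w) i * Ring.inverse (w i)

/-- The character on the quotient by the line. -/
def zAt (r : Gal →* M2 A) (w : Fin 2 → A) (i : Fin 2) (σ : Gal) : A :=
  (r σ).trace - xAt r w i σ

theorem map_ringInverse {B : Type} [CommRing B] (f : A →+* B) {a : A} (ha : IsUnit a) :
    f (Ring.inverse a) = Ring.inverse (f a) := by
  obtain ⟨u, rfl⟩ := ha
  rw [Ring.inverse_unit]
  exact (Ring.inverse_unit (Units.map f.toMonoidHom u)).symm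

theorem map_xAt {B : Type} [CommRing B] (f : A →+* B) (r : Gal →* M2 A) {w : Fin 2 → A}
    {i : Fin 2} (hi : IsUnit (w i)) (σ : Gal) :
    f (xAt r w i σ) = xAt (mapM f r) (f ∘ w) i σ := by
  rw [xAt, map_mul, map_ringInverse f hi, f.map_mulVec]
  rfl

theorem map_zAt {B : Type} [CommRing B] (f : A →+* B) (r : Gal →* M2 A) {w : Fin 2 → A}
    {i : Fin 2} (hi : IsUnit (w i)) (σ : Gal) :
    f (zAt r w i σ) = zAt (mapM f r) (f ∘ w) i σ := by
  rw [zAt, map_sub, map_xAt f r hi, zAt, Matrix.trace_fin_two, Matrix.trace_fin_two, map_add]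
  rfl

theorem inertia_le (P : ValuationSubring QBar) {σ : Gal} (hσ : σ ∈ P.inertiaSubgroupIn ℚ) :
    σ ∈ P.decompositionSubgroup ℚ := Subgroup.map_subtype_le _ hσ

namespace OrdVec

variable {P : ValuationSubring QBar} {r : Gal →* M2 A} {w : Fin 2 → A} (h : OrdVec P r w)
  {i : Fin 2} (hi : IsUnit (w i))
include h hi

theorem mulVec_eq {σ : Gal} (hσ : σ ∈ P.decompositionSubgroup ℚ) :
    r σ *ᵥ w = xAt r w i σ • w := eq_smul_of_cross hi (h.dec σ hσ)

theorem cross_eq {σ : Gal} (hσ : σ ∈ P.decompositionSubgroup ℚ) (v : Fin 2 → A) :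
    cross (r σ *ᵥ v) w = zAt r w i σ * cross v w := by
  have h1 := cross_mulVec_add (r σ) v w
  rw [h.mulVec_eq hi hσ, cross_smul_right] at h1
  rw [zAt, sub_mul, ← h1, add_sub_cancel_right]

theorem x_mul_z {σ : Gal} (hσ : σ ∈ P.decompositionSubgroup ℚ) :
    xAt r w i σ * zAt r w i σ = (r σ).det := by
  refine (isUnit_cross_other hi).mul_right_cancel ?_
  rw [← cross_mulVec, h.mulVec_eq hi hσ, cross_smul_right, h.cross_eq hi hσ]
  ring

theorem isUnit_x {σ : Gal} (hσ : σ ∈ P.decompositionSubgroup ℚ) : IsUnit (xAt r w i σ) := by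
  refine isUnit_of_mul_isUnit_left (y := zAt r w i σ) ?_
  rw [h.x_mul_z hi hσ]
  exact (Group.isUnit σ).map (Matrix.detMonoidHom.comp r)

theorem z_mul {σ τ : Gal} (hσ : σ ∈ P.decompositionSubgroup ℚ)
    (hτ : τ ∈ P.decompositionSubgroup ℚ) :
    zAt r w i (σ * τ) = zAt r w i σ * zAt r w i τ := by
  refine (isUnit_cross_other hi).mul_right_cancel ?_
  rw [← h.cross_eq hi (mul_mem hσ hτ), map_mul, ← Matrix.mulVec_mulVec, h.cross_eq hi hσ,
    h.cross_eq hi hτ, mul_assoc]

theorem z_of_inert {σ : Gal} (hσ : σ ∈ P.inertiaSubgroupIn ℚ) : zAt r w i σ = 1 := by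
  refine (isUnit_cross_other hi).mul_right_cancel ?_
  have h1 := h.inert σ hσ (other i)
  rw [cross_sub_left, sub_eq_zero] at h1
  rw [← h.cross_eq hi (inertia_le P hσ), h1, one_mul]

theorem x_of_inert {σ : Gal} (hσ : σ ∈ P.inertiaSubgroupIn ℚ) :
    xAt r w i σ = (r σ).det := by
  rw [← h.x_mul_z hi (inertia_le P hσ), h.z_of_inert hi hσ, mul_one]

theorem z_pow {σ : Gal} (hσ : σ ∈ P.decompositionSubgroup ℚ) (n : ℕ) :
    zAt r w i (σ ^ n) = zAt r w i σ ^ n := by
  induction n with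
  | zero => rw [pow_zero, pow_zero, h.z_of_inert hi (one_mem _)]
  | succ n ih => rw [pow_succ, h.z_mul hi (pow_mem hσ n) hσ, ih, pow_succ]

theorem sub_one_mulVec {σ : Gal} (hσ : σ ∈ P.inertiaSubgroupIn ℚ) (v : Fin 2 → A) :
    (r σ - 1) *ᵥ v = (((r σ - 1) *ᵥ v) i * Ring.inverse (w i)) • w := by
  refine eq_smul_of_cross hi ?_
  rw [Matrix.sub_mulVec, Matrix.one_mulVec]
  exact h.inert σ hσ v

end OrdVec

/-- The column defining the line. -/
def ordCol (r : Gal →* M2 A) (τ : Gal) (j : Fin 2) : Fin 2 → A := fun a => (r τ - 1) a j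

/-- Equations in two rings detect ordinary lines. -/
theorem OrdVec.of_maps {B C : Type} [CommRing B] [CommRing C] (f : A →+* B) (g : A →+* C)
    (hext : ∀ a, f a = 0 → g a = 0 → a = 0) {P : ValuationSubring QBar} {r : Gal →* M2 A}
    {w : Fin 2 → A} (hB : OrdVec P (mapM f r) (f ∘ w)) (hC : OrdVec P (mapM g r) (g ∘ w)) :
    OrdVec P r w := by
  have key : ∀ {D : Type} [CommRing D] (φ : A →+* D) (σ : Gal) (v : Fin 2 → A),
      φ ∘ (r σ *ᵥ v) = mapM φ r σ *ᵥ (φ ∘ v) := fun φ σ v => funext fun a => φ.map_mulVec (r σ) v a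
  refine ⟨fun σ hσ => hext _ ?_ ?_, fun σ hσ v => hext _ ?_ ?_⟩
  · rw [map_cross, key]; exact hB.dec σ hσ
  · rw [map_cross, key]; exact hC.dec σ hσ
  · rw [map_cross, show f ∘ (r σ *ᵥ v - v) = f ∘ (r σ *ᵥ v) - f ∘ v from
      funext fun a => map_sub f _ _, key]
    exact hB.inert σ hσ _
  · rw [map_cross, show g ∘ (r σ *ᵥ v - v) = g ∘ (r σ *ᵥ v) - g ∘ v from
      funext fun a => map_sub g _ _, key]
    exact hC.inert σ hσ _

section Local

variable [IsLocalRing A] {p : ℕ}

/-- A column of inertia with a unit entry spans the ordinary line. -/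
theorem ordVec_of_isOrdinaryAt {r : Gal →* M2 A} {hc : IsCont r}
    (hord : (toRep r hc).IsOrdinaryAt p) {P : ValuationSubring QBar} (hP : P.LiesOverPrime p)
    {τ : Gal} (hτ : τ ∈ P.inertiaSubgroupIn ℚ) {i j : Fin 2}
    (hij : IsUnit ((r τ - 1) i j)) : OrdVec P r (ordCol r τ j) := by
  obtain ⟨L, ⟨e, he⟩, hD, hI⟩ := hord P hP
  subst he
  let e0 : Fin 2 → A := e 0
  obtain ⟨L, hL⟩ : ∃ L : Submodule A (Fin 2 → A), L = A ∙ e0 := ⟨_, rfl⟩
  have hD' : ∀ σ ∈ P.decompositionSubgroup ℚ, ∀ v ∈ L, r σ *ᵥ v ∈ L := by rw [hL]; exact hD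
  have hI' : ∀ σ ∈ P.inertiaSubgroupIn ℚ, ∀ v : Fin 2 → A, r σ *ᵥ v - v ∈ L := by
    rw [hL]; exact hI
  have hwL : ordCol r τ j ∈ L := by
    have h1 := hI' τ hτ (Pi.single j 1)
    rwa [show r τ *ᵥ Pi.single j 1 - Pi.single j 1 = ordCol r τ j by
      funext a
      rw [Matrix.mulVec_single_one, Pi.sub_apply]
      show r τ a j - (Pi.single j (1 : A) : Fin 2 → A) a = r τ a j - (1 : M2 A) a j
      rw [Matrix.one_apply, Pi.single_apply]] at h1
  set w := ordCol r τ j with hw
  obtain ⟨c, hc'⟩ := Submodule.mem_span_singleton.1 (hL ▸ hwL)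
  have hcu : IsUnit c := by
    refine isUnit_of_mul_isUnit_left (y := e0 i) ?_
    rw [show c * e0 i = w i from congrFun hc' i]
    exact hij
  obtain ⟨u, rfl⟩ := hcu
  have hmem : ∀ v ∈ L, cross v w = 0 := fun v hv => by
    obtain ⟨a, rfl⟩ := Submodule.mem_span_singleton.1 (hL ▸ hv)
    rw [← hc', cross_smul_left, cross_smul_right, cross_self, mul_zero, mul_zero]
  exact ⟨fun σ hσ => hmem _ (hD' σ hσ w hwL), fun σ hσ v => hmem _ (hI' σ hσ v)⟩

theorem OrdVec.smul_place {P : ValuationSubring QBar} {r : Gal →* M2 A} {w : Fin 2 → A}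
    (h : OrdVec P r w) (g : Gal) : OrdVec (g • P) r (r g *ᵥ w) := by
  have hg : r g⁻¹ * r g = 1 := by rw [← map_mul, inv_mul_cancel, map_one]
  refine ⟨fun σ hσ => ?_, fun σ hσ v => ?_⟩
  · have h' : g⁻¹ * σ * g ∈ P.decompositionSubgroup ℚ := by
      rw [mem_decomposition_iff] at hσ ⊢
      rw [mul_smul, mul_smul, hσ, inv_smul_smul]
    have e : r σ *ᵥ (r g *ᵥ w) = r g *ᵥ (r (g⁻¹ * σ * g) *ᵥ w) := by
      simp only [Matrix.mulVec_mulVec, ← map_mul]
      group
    rw [e, cross_mulVec, h.dec _ h', mul_zero]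
  · have h' : g⁻¹ * σ * g ∈ P.inertiaSubgroupIn ℚ :=
      (mem_inertia_smul_iff (g := g)).1 (by simpa [mul_assoc] using hσ)
    have e : r σ *ᵥ v - v = r g *ᵥ (r (g⁻¹ * σ * g) *ᵥ (r g⁻¹ *ᵥ v) - r g⁻¹ *ᵥ v) := by
      simp only [Matrix.mulVec_sub, Matrix.mulVec_mulVec, ← map_mul]
      group
      simp
    rw [e, cross_mulVec, h.inert _ h', mul_zero]

theorem exists_isUnit_mulVec {r : Gal →* M2 A} {w : Fin 2 → A} {i : Fin 2} (hi : IsUnit (w i))
    (g : Gal) : ∃ j, IsUnit ((r g *ᵥ w) j) := by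
  by_contra hno
  push Not at hno
  have h1 : w i = (r g⁻¹ *ᵥ (r g *ᵥ w)) i := by
    rw [Matrix.mulVec_mulVec, ← map_mul, inv_mul_cancel, map_one, Matrix.one_mulVec]
  have h2 : w i ∈ maximalIdeal A := by
    rw [h1, Matrix.mulVec, dotProduct]
    exact Ideal.sum_mem _ fun j _ => Ideal.mul_mem_left _ _ ((mem_maximalIdeal _).2 (hno j))
  exact (mem_maximalIdeal _).1 h2 hi

/-- A quotient character of square one gives strict ordinarity. -/
theorem isStrictOrdinaryAt_of_ordVec (hpr : p.Prime) {r : Gal →* M2 A} {hc : IsCont r}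
    (hdet : (toRep r hc).DetIsCyclotomic p) {P₀ : ValuationSubring QBar}
    (hP₀ : P₀.LiesOverPrime p) {w : Fin 2 → A} (h : OrdVec P₀ r w) {i : Fin 2}
    (hi : IsUnit (w i)) (hz : ∀ σ ∈ P₀.decompositionSubgroup ℚ, zAt r w i σ ^ 2 = 1) :
    (toRep r hc).IsStrictOrdinaryAt p := by
  refine ⟨hdet.1, fun P hP => ?_⟩
  obtain ⟨g, rfl⟩ := exists_smul_eq hP₀ hP hpr
  obtain ⟨j, hj⟩ := exists_isUnit_mulVec (r := r) hi g
  set u := r g *ᵥ w with hu
  have hg := h.smul_place g
  obtain ⟨b, hb⟩ := exists_basis_of_isUnit hj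
  have hmem : ∀ v : Fin 2 → A, cross v u = 0 → v ∈ A ∙ u := fun v hv =>
    Submodule.mem_span_singleton.2 ⟨_, (eq_smul_of_cross hj hv).symm⟩
  have hline : ∀ v ∈ A ∙ u, cross v u = 0 := fun v hv => by
    obtain ⟨a, rfl⟩ := Submodule.mem_span_singleton.1 hv
    rw [cross_smul_left, cross_self, mul_zero]
  refine ⟨A ∙ u, ⟨b, congrArg (fun v : Fin 2 → A => A ∙ v) hb.symm⟩, fun σ hσ v hv => ?_,
    fun σ hσ v => hmem _ (hg.inert σ hσ v), fun σ hσ => ⟨xAt r u j σ, zAt r u j σ, ?_, ?_, ?_⟩⟩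
  · obtain ⟨a, rfl⟩ := Submodule.mem_span_singleton.1 hv
    show r σ *ᵥ (a • u) ∈ _
    rw [Matrix.mulVec_smul]
    exact Submodule.smul_mem _ a (hmem _ (hg.dec σ hσ))
  · intro v hv
    obtain ⟨a, rfl⟩ := Submodule.mem_span_singleton.1 hv
    show r σ *ᵥ (a • u) = _
    rw [Matrix.mulVec_smul, hg.mulVec_eq hj hσ]
    funext t
    show a * (xAt r u j σ * u t) = xAt r u j σ * (a * u t)
    ring
  · intro (v : Fin 2 → A)
    refine hmem _ ?_
    show cross (r σ *ᵥ v - zAt r u j σ • v) u = 0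
    rw [cross_sub_left, hg.cross_eq hj hσ, cross_smul_left, sub_self]
  · intro n a ha
    have hσ' : g⁻¹ * σ * g ∈ P₀.decompositionSubgroup ℚ := by
      rw [mem_decomposition_iff] at hσ ⊢
      rw [mul_smul, mul_smul, hσ, inv_smul_smul]
    have hz' : zAt r u j σ = zAt r w i (g⁻¹ * σ * g) := by
      refine (isUnit_cross_other hi).mul_right_cancel ?_
      have hdu : IsUnit (r g).det := (Group.isUnit g).map (Matrix.detMonoidHom.comp r)
      refine hdu.mul_left_cancel ?_
      rw [← h.cross_eq hi hσ', ← cross_mulVec, Matrix.mulVec_mulVec, ← map_mul,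
        mul_left_comm, ← cross_mulVec, ← hu, ← hg.cross_eq hj hσ, Matrix.mulVec_mulVec, ← map_mul]
      group
      rfl
    have h1 : zAt r u j σ ^ 2 = 1 := by rw [hz']; exact hz _ hσ'
    have h2 := hdet.2 n σ a ha
    rw [show LinearMap.det ((toRep r hc).ρ σ) = (r σ).det from LinearMap.det_toLin' _,
      ← hg.x_mul_z hj hσ] at h2
    have h3 := Ideal.mul_mem_left _ (zAt r u j σ) h2
    rwa [show zAt r u j σ * (xAt r u j σ * zAt r u j σ - (a : A)) =
      xAt r u j σ - (a : A) * zAt r u j σ by linear_combination (xAt r u j σ) * h1] at h3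

/-- The square of the quotient character is one as soon as it is one at a Frobenius. -/
theorem z_sq_eq_one [Fact p.Prime] [IsHausdorff (maximalIdeal A) A] {r : Gal →* M2 A}
    (hc : IsCont r) {w : Fin 2 → A} (h : OrdVec (padicPlace p) r w) {i : Fin 2}
    (hi : IsUnit (w i)) {F : Gal} (hF : (padicPlace p).IsFrobeniusAt F p)
    (hzF : zAt r w i F ^ 2 = 1) :
    ∀ σ ∈ (padicPlace p).decompositionSubgroup ℚ, zAt r w i σ ^ 2 = 1 := by
  intro σ hσ
  rw [← sub_eq_zero]
  refine (inferInstance : IsHausdorff (maximalIdeal A) A).haus _ fun n => ?_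
  rw [SModEq.zero, Ideal.smul_top_eq_map, Algebra.algebraMap_self, Ideal.map_id,
    Submodule.restrictScalars_self]
  obtain ⟨L, hL, hL'⟩ := hc n
  have : Normal ℚ QBar := IsAlgClosure.normal ℚ QBar
  have : Normal ℚ (IntermediateField.normalClosure ℚ L QBar) := normalClosure.normal ℚ L QBar
  obtain ⟨k, t, ht, he⟩ := Fermat.Agent.CFT.Idele.exists_frobenius_mul_inertia
    (IntermediateField.normalClosure ℚ L QBar) hF hσ
  set q := Ideal.Quotient.mk (maximalIdeal A ^ n) with hq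
  have hr : mapM q r σ = mapM q r (F ^ k * t) := by
    have h1 : ∀ x ∈ L, ((F ^ k * t)⁻¹ * σ) x = x := fun x hx => by
      rw [AlgEquiv.mul_apply, he x (L.le_normalClosure hx)]
      exact (F ^ k * t).symm_apply_apply x
    have h2 : mapM q r ((F ^ k * t)⁻¹ * σ) = 1 := by
      refine Matrix.ext fun a b => ?_
      rw [mapM_apply, ← map_one q.mapMatrix, RingHom.mapMatrix_apply, Matrix.map_apply,
        hq, Ideal.Quotient.eq]
      exact hL' _ h1 a b
    rw [← mul_one (mapM q r (F ^ k * t)), ← h2, ← map_mul, mul_inv_cancel_left]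
  have hzq : ∀ s, q (zAt r w i s) = zAt (mapM q r) (q ∘ w) i s := map_zAt q r hi
  have hFD : F ∈ (padicPlace p).decompositionSubgroup ℚ :=
    mem_decomposition_iff.2 (isFrobeniusAt_iff_forall_mem.mp hF).1
  rw [← Ideal.Quotient.eq_zero_iff_mem, map_sub, map_pow, map_one, hzq, sub_eq_zero]
  have e : zAt (mapM q r) (q ∘ w) i σ = q (zAt r w i (F ^ k * t)) := by
    rw [hzq]
    simp only [zAt, xAt, hr]
  rw [e, h.z_mul hi (pow_mem hFD k) (inertia_le _ ht), h.z_pow hi hFD, h.z_of_inert hi ht, mul_one,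
    ← map_pow, pow_right_comm, hzF, one_pow, map_one]

/-- The value of the extension class at an inertia element. -/
def clsAt (r : Gal →* M2 A) (w : Fin 2 → A) (i : Fin 2) (σ : Gal) : A :=
  ((r σ - 1) *ᵥ other i) i * Ring.inverse (w i)

/-- The rank one matrix of a vector. -/
def lineMat (w : Fin 2 → A) : M2 A := !![w 0 * w 1, -(w 0 * w 0); w 1 * w 1, -(w 1 * w 0)]

theorem lineMat_mulVec (w v : Fin 2 → A) : lineMat w *ᵥ v = cross v w • w := by
  funext a
  fin_cases a <;> simp [lineMat, cross, Matrix.mulVec, dotProduct, Fin.sum_univ_two] <;> ring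

theorem eq_of_mulVec_eq {M N : M2 A} {w : Fin 2 → A} {i : Fin 2} (hi : IsUnit (w i))
    (h1 : M *ᵥ w = N *ᵥ w) (h2 : M *ᵥ other i = N *ᵥ other i) : M = N := by
  have e : ∀ (M : M2 A) a, (M *ᵥ other i) a = M a (i + 1) := fun M a => by
    rw [other, Matrix.mulVec_single_one]
    rfl
  refine Matrix.ext fun a b => ?_
  have hb : M a (i + 1) = N a (i + 1) := (e M a).symm.trans ((congrFun h2 a).trans (e N a))
  by_cases hbi : b = i
  · subst hbi
    have h3 := congrFun h1 a
    refine hi.mul_right_cancel ?_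
    simp only [Matrix.mulVec, dotProduct, Fin.sum_univ_two] at h3
    fin_cases b
    · simp only [Fin.zero_eta, zero_add] at hb ⊢
      linear_combination h3 - w 1 * hb
    · simp only [Fin.mk_one] at hb ⊢
      rw [show (1 : Fin 2) + 1 = 0 from rfl] at hb
      linear_combination h3 - w 0 * hb
  · rw [show b = i + 1 by fin_cases b <;> fin_cases i <;> simp_all]
    exact hb

variable [Fact p.Prime]

/-- The determinant at `τ` is one. -/
theorem det_eq_one_of_isTauStar [IsAdicComplete (maximalIdeal A) A] {r : Gal →* M2 A}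
    (hpA : (p : A) ∈ maximalIdeal A)
    (hdet : ∀ (k : ℕ) (σ : Gal) (a : ℕ), (∀ μ : QBar, μ ^ p ^ k = 1 → σ μ = μ ^ a) →
      (r σ).det - (a : A) ∈ Ideal.span {(p : A) ^ k})
    {P : ValuationSubring QBar} {τ : Gal} (hτ : IsTauStar P p τ) : (r τ).det = 1 := by
  rw [← Nat.cast_one]
  refine Patch.eq_natCast_of_forall_congr hpA fun k => hdet k τ 1 fun μ hμ => ?_
  rw [pow_one]
  have hne : μ ≠ 0 := by
    rintro rfl
    exact zero_ne_one ((zero_pow (pow_ne_zero k (Fact.out : p.Prime).ne_zero)).symm.trans hμ)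
  have hint : ∀ ν : QBar, ν ^ p ^ k = 1 → ν ∈ P := fun ν hν =>
    mem_of_isIntegral P (IsIntegral.of_pow (pow_pos (Fact.out : p.Prime).pos k)
      (hν ▸ isIntegral_one))
  exact hτ.fix μ k (hint μ hμ) (hint μ⁻¹ (by rw [inv_pow, hμ, inv_one]))
    fun σ _ => by rw [hμ, map_one]

/-- **The relation at `p`.** -/
theorem z_sq_sub_one_mul_cls (hK : KummerInput) (hp2 : p ≠ 2) [IsNoetherianRing A]
    [Finite (ResidueField A)] [IsAdicComplete (maximalIdeal A) A]
    (hpA : (p : A) ∈ maximalIdeal A) {r : Gal →* M2 A} (hc : IsCont r)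
    (hdet : ∀ (k : ℕ) (σ : Gal) (a : ℕ), (∀ μ : QBar, μ ^ p ^ k = 1 → σ μ = μ ^ a) →
      (r σ).det - (a : A) ∈ Ideal.span {(p : A) ^ k})
    {P : ValuationSubring QBar} (hP : P.LiesOverPrime p) {w : Fin 2 → A} (h : OrdVec P r w)
    {i : Fin 2} (hi : IsUnit (w i)) {τ : Gal} (hτ : IsTauStar P p τ) {F : Gal}
    (hF : F ∈ P.decompositionSubgroup ℚ) :
    (zAt r w i F ^ 2 - 1) * clsAt r w i τ = 0 := by
  refine (IsAdicComplete.toIsHausdorff (I := maximalIdeal A) (M := A)).haus _ fun m => ?_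
  rw [SModEq.zero, Ideal.smul_top_eq_map, Algebra.algebraMap_self, Ideal.map_id,
    Submodule.restrictScalars_self, ← Ideal.Quotient.eq_zero_iff_mem]
  set q := Ideal.Quotient.mk (maximalIdeal A ^ m) with hq
  have : Finite (A ⧸ maximalIdeal A ^ m) := RT.Algebra.finite_quotient_pow m
  have hdetq : ∀ (σ : Gal) (a : ℕ), (∀ μ : QBar, μ ^ p ^ m = 1 → σ μ = μ ^ a) →
      q (r σ).det = (a : A ⧸ maximalIdeal A ^ m) := fun σ a ha => by
    rw [← map_natCast q, Ideal.Quotient.eq]
    exact (Ideal.span_singleton_le_iff_mem _).2 (Ideal.pow_mem_pow hpA m) (hdet m σ a ha)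
  have hcls : ∀ σ ∈ P.inertiaSubgroupIn ℚ, r σ *ᵥ other i = other i + clsAt r w i σ • w :=
    fun σ hσ => by
      rw [clsAt, ← h.sub_one_mulVec hi hσ, Matrix.sub_mulVec, Matrix.one_mulVec,
        add_sub_cancel]
  have hinv : Ring.inverse (w i) * w i = 1 := Ring.inverse_mul_cancel _ hi
  -- the cocycle
  have hcoc : ∀ σ ∈ P.inertiaSubgroupIn ℚ, ∀ σ' ∈ P.inertiaSubgroupIn ℚ,
      clsAt r w i (σ * σ') = clsAt r w i σ + (r σ).det * clsAt r w i σ' := fun σ hσ σ' hσ' => by
    have e := hcls (σ * σ') (mul_mem hσ hσ')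
    rw [map_mul, ← Matrix.mulVec_mulVec, hcls σ' hσ', Matrix.mulVec_add, Matrix.mulVec_smul,
      hcls σ hσ, h.mulVec_eq hi (inertia_le P hσ), h.x_of_inert hi hσ, add_assoc,
      add_left_cancel_iff, smul_smul, ← add_smul] at e
    have e' := congrArg (fun u : Fin 2 → A => u i * Ring.inverse (w i)) e
    simp only [Pi.smul_apply, smul_eq_mul, mul_assoc, mul_comm (w i), hinv, mul_one] at e'
    linear_combination -e'
  obtain ⟨L, hL, hL'⟩ := hc m
  have hlev : ∀ σ ∈ P.inertiaSubgroupIn ℚ, (∀ x ∈ L, σ x = x) → q (clsAt r w i σ) = 0 :=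
    fun σ _ hσ => by
      rw [Ideal.Quotient.eq_zero_iff_mem, clsAt, other, Matrix.mulVec_single_one]
      exact Ideal.mul_mem_right _ _ (hL' σ hσ _ _)
  obtain ⟨b, hb⟩ := Glue.exists_exponent (p := p) F m
  have key := hK p Fact.out hp2 P hP τ hτ (A ⧸ maximalIdeal A ^ m) m (fun x => by
      obtain ⟨y, rfl⟩ := Ideal.Quotient.mk_surjective x
      rw [← map_nsmul, Ideal.Quotient.eq_zero_iff_mem, nsmul_eq_mul, Nat.cast_pow]
      exact Ideal.mul_mem_right _ _ (Ideal.pow_mem_pow hpA m))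
    (fun σ => q (clsAt r w i σ)) ⟨L, hL, hlev⟩ (fun σ hσ σ' hσ' a ha => by
      show q _ = q _ + a • q _
      rw [hcoc σ hσ σ' hσ', map_add, map_mul, hdetq σ a ha, nsmul_eq_mul]) F hF b hb
  rw [nsmul_eq_mul, ← hdetq F b hb] at key
  -- conjugating
  have hFτ : F * τ * F⁻¹ ∈ P.inertiaSubgroupIn ℚ := by
    have h2 := (mem_inertia_smul_iff (g := F) (A := P) (σ := τ)).2 hτ.mem
    rwa [mem_decomposition_iff.1 hF] at h2
  have hconj : xAt r w i F * clsAt r w i τ = zAt r w i F * clsAt r w i (F * τ * F⁻¹) := by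
    have hτx : r τ *ᵥ w = w := by
      rw [h.mulVec_eq hi (inertia_le P hτ.mem), h.x_of_inert hi hτ.mem,
        det_eq_one_of_isTauStar hpA hdet hτ, one_smul]
    have hFτx : r (F * τ * F⁻¹) *ᵥ w = w := by
      have hdet1 : (r (F * τ * F⁻¹)).det = 1 := by
        rw [map_mul, map_mul, Matrix.det_mul, Matrix.det_mul,
          det_eq_one_of_isTauStar hpA hdet hτ, mul_one, ← Matrix.det_mul, ← map_mul,
          mul_inv_cancel, map_one, Matrix.det_one]
      rw [h.mulVec_eq hi (inertia_le P hFτ), h.x_of_inert hi hFτ, hdet1, one_smul]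
    -- write `r F e'` in the basis
    set u := r F *ᵥ other i with hu
    have hu' : cross (u - zAt r w i F • other i) w = 0 := by
      rw [cross_sub_left, hu, h.cross_eq hi hF, cross_smul_left, sub_self]
    have hu2 := sub_eq_iff_eq_add'.1 (eq_smul_of_cross hi hu')
    have e1 : r (F * τ * F⁻¹) *ᵥ u = r F *ᵥ (r τ *ᵥ other i) := by
      rw [hu, Matrix.mulVec_mulVec, Matrix.mulVec_mulVec, ← map_mul, ← map_mul,
        inv_mul_cancel_right]
    rw [hcls τ hτ.mem, Matrix.mulVec_add, Matrix.mulVec_smul, h.mulVec_eq hi hF, ← hu,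
      hu2, Matrix.mulVec_add, Matrix.mulVec_smul, Matrix.mulVec_smul, hFτx,
      hcls _ hFτ, smul_add, smul_smul] at e1
    have e2 := congrFun e1 i
    simp only [Pi.add_apply, Pi.smul_apply, smul_eq_mul] at e2
    refine hi.mul_right_cancel ?_
    linear_combination -e2
  have hdF : q (xAt r w i F) * q (zAt r w i F) = q (r F).det := by
    rw [← map_mul, h.x_mul_z hi hF]
  have hconj' := congrArg q hconj
  rw [map_mul, map_mul, key, ← hdF] at hconj'
  rw [map_mul, map_sub, map_pow, map_one]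
  refine ((h.isUnit_x hi hF).map q).mul_left_cancel ?_
  linear_combination -hconj'

/-- Inertia at `τ` in the line. -/
theorem sub_one_eq_lineMat [IsAdicComplete (maximalIdeal A) A] {r : Gal →* M2 A}
    (hpA : (p : A) ∈ maximalIdeal A)
    (hdet : ∀ (k : ℕ) (σ : Gal) (a : ℕ), (∀ μ : QBar, μ ^ p ^ k = 1 → σ μ = μ ^ a) →
      (r σ).det - (a : A) ∈ Ideal.span {(p : A) ^ k})
    {P : ValuationSubring QBar} {w : Fin 2 → A} (h : OrdVec P r w)
    {i : Fin 2} (hi : IsUnit (w i)) {τ : Gal} (hτ : IsTauStar P p τ) :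
    r τ - 1 = (clsAt r w i τ * Ring.inverse (cross (other i) w)) • lineMat w := by
  refine eq_of_mulVec_eq hi ?_ ?_
  · rw [Matrix.smul_mulVec, lineMat_mulVec, cross_self, zero_smul, smul_zero, Matrix.sub_mulVec,
      Matrix.one_mulVec, h.mulVec_eq hi (inertia_le P hτ.mem), h.x_of_inert hi hτ.mem,
      det_eq_one_of_isTauStar hpA hdet hτ, one_smul, sub_self]
  · rw [Matrix.smul_mulVec, lineMat_mulVec, smul_smul, mul_assoc,
      Ring.inverse_mul_cancel _ (isUnit_cross_other hi), mul_one]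
    exact h.sub_one_mulVec hi hτ.mem (other i)

end Local

end Fermat.Agent.RT.Lift59.Galois

end
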