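import Fermat.Agent.RT.Strict.Statement
import Fermat.Agent.RT.Lift59.Statements

/-!
# The inertia element seeing only the `p`-part, and the inputs at `p`

`IsTauStar A p τ`: `τ` is in inertia, fixes every `p`-power root of a unit fixed by inertia, roots
of unity included, and moves a `p`-th root of `p`. Its value of a Kummer cocycle of inertia is the
valuation part of that cocycle.
-/

set_option autoImplicit false

noncomputable section

namespace Fermat.Agent.RT.Lift59.Galois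

open Fermat.Agent.Deform Fermat.Agent.CFT.Tangent Fermat.Agent.Arith Module
open Fermat.Agent.RT.Strict
open scoped WeierstrassCurve.Affine

/-- An inertia element fixing all `p`-power roots of inertia-fixed units and moving `p ^ (1 / p)`. -/
structure IsTauStar (A : ValuationSubring QBar) (p : ℕ) (τ : Gal) : Prop where
  mem : τ ∈ A.inertiaSubgroupIn ℚ
  fix : ∀ (x : QBar) (k : ℕ), x ∈ A → x⁻¹ ∈ A →
    (∀ σ ∈ A.inertiaSubgroupIn ℚ, σ (x ^ p ^ k) = x ^ p ^ k) → τ x = x
  moves : ∃ π : QBar, π ^ p = (p : QBar) ∧ τ π ≠ π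

/-- Existence. -/
def TauInput : Prop := ∀ (p : ℕ), p.Prime → p ≠ 2 → ∀ A : ValuationSubring QBar,
  A.LiesOverPrime p → ∃ τ : Gal, IsTauStar A p τ

/-- A cocycle of inertia of finite level twisted by the cyclotomic character commutes at `τ` with
the decomposition group. -/
def KummerInput : Prop := ∀ (p : ℕ), p.Prime → p ≠ 2 → ∀ A : ValuationSubring QBar,
  A.LiesOverPrime p → ∀ τ : Gal, IsTauStar A p τ →
  ∀ (M : Type) [AddCommGroup M] [Finite M] (s : ℕ), (∀ m : M, p ^ s • m = 0) →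
  ∀ c : Gal → M,
    (∃ L : IntermediateField ℚ QBar, FiniteDimensional ℚ L ∧
      ∀ σ ∈ A.inertiaSubgroupIn ℚ, (∀ x ∈ L, σ x = x) → c σ = 0) →
    (∀ σ ∈ A.inertiaSubgroupIn ℚ, ∀ σ' ∈ A.inertiaSubgroupIn ℚ, ∀ a : ℕ,
      (∀ μ : QBar, μ ^ p ^ s = 1 → σ μ = μ ^ a) → c (σ * σ') = c σ + a • c σ') →
    ∀ F ∈ A.decompositionSubgroup ℚ, ∀ b : ℕ, (∀ μ : QBar, μ ^ p ^ s = 1 → F μ = μ ^ b) →
      c (F * τ * F⁻¹) = b • c τ

/-- On the `p`-torsion of a semistable model at a prime `p` of multiplicative reduction `τ` acts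
trivially exactly when `p` divides the exponent of `p` in the discriminant. -/
def ResidualTauInput : Prop := ∀ (W : WeierstrassCurve ℤ) (p : ℕ), p.Prime → p ≠ 2 → W.Δ ≠ 0 →
  W.IsSemistableModel → (p : ℤ) ∣ W.Δ → ∀ A : ValuationSubring QBar, A.LiesOverPrime p →
  ∀ τ : Gal, IsTauStar A p τ →
  ((∀ x : ((W.map (Int.castRingHom ℚ))⁄(AlgebraicClosure ℚ)).Point,
      (p : ℤ) • x = 0 → τ • x = x) ↔ SmallAt W p p)

/-- Strictly ordinary classes vanishing at `τ` are one fewer than strictly ordinary classes. -/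
def NodeBoundInput : Prop := ∀ (k : Type) [Field k] [Finite k] (p : ℕ) [Fact p.Prime] [CharP k p]
  (_ : p ≠ 2) (r : Gal →* M2 k), GaloisFactorsThroughFiniteLevel r →
  (∀ (σ : Gal) (a : ℕ), (∀ μ : QBar, μ ^ p = 1 → σ μ = μ ^ a) → (r σ).det = (a : k)) →
  ∀ τ : Gal, IsTauStar (padicPlace p) p τ → r τ = 1 →
  ∀ (W : Submodule k (Gal → M2 k)) [Module.Finite k W],
  (∀ b ∈ W, IsAdCocycle r b) → (∀ b ∈ W, IsFiniteLevel b) →
  (∀ b ∈ W, b ≠ 0 → IsOrdClass p r b) → (∀ b ∈ W, b τ = 0) →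
  finrank k W ≤ finrank k (W ⊓ cobdOn r ((padicPlace p).decompositionSubgroup ℚ) :
      Submodule k (Gal → M2 k)) +
    finrank k (fixedOn r ((padicPlace p).decompositionSubgroup ℚ))

end Fermat.Agent.RT.Lift59.Galois

end
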