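import Fermat.Agent.Arith.GaloisClosed
import Fermat.Agent.RT.Lift59.Galois.Kummer
import Fermat.Agent.Mazur.Eisenstein.CycInertia
import Fermat.Agent.RT.MazurP.Jump

/-!
# An element of inertia seeing only the `p`-part

By compactness it is enough to fix finitely many roots of units while moving `π = p ^ (1 / p)`.
Otherwise `π` times a product of powers of these roots is fixed by the part of inertia trivial on
the roots of unity, and then, up to a root of unity, by all of inertia; its order is `1 / p`.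
-/

set_option autoImplicit false
set_option linter.style.haveILetI false

noncomputable section

namespace Fermat.Agent.RT.Lift59.Galois

open Fermat.Agent.Deform Fermat.Agent.Arith Fermat.Agent.RT.MazurP
open scoped Pointwise

variable {A : ValuationSubring QBar}

section Kummer

variable {q : ℕ}

theorem pow_ratio {σ : Gal} {y w : QBar} (hy : σ y = w * y) (hw : σ w = w) (n : ℕ) :
    (σ ^ n) y = w ^ n * y := by
  induction n with
  | zero => simp
  | succ n ih => rw [pow_succ', AlgEquiv.mul_apply, ih, map_mul, map_pow, hw, hy]; ring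

/-- If the elements of `H` fixing finitely many roots also fix `e`, some product of `e` with
powers of these roots is fixed by `H`. -/
theorem exists_fixed_product {p S : ℕ} (hp : p.Prime) (H : Subgroup Gal) {ζ : QBar}
    (hζ : IsPrimitiveRoot ζ (p ^ S)) (hH : ∀ σ ∈ H, σ ζ = ζ) :
    ∀ (l : List QBar) (e : QBar), e ≠ 0 → (∀ σ ∈ H, σ (e ^ p ^ S) = e ^ p ^ S) →
      (∀ x ∈ l, x ≠ 0 ∧ ∀ σ ∈ H, σ (x ^ p ^ S) = x ^ p ^ S) →
      (∀ σ ∈ H, (∀ x ∈ l, σ x = x) → σ e = e) →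
      ∃ z ∈ Subgroup.closure {u : QBarˣ | ∃ x ∈ l, (u : QBar) = x},
        ∀ σ ∈ H, σ (e * (z : QBarˣ)) = e * (z : QBarˣ) := by
  classical
  haveI : NeZero (p ^ S) := ⟨pow_ne_zero S hp.ne_zero⟩
  intro l
  induction l generalizing H with
  | nil => exact fun e _ _ _ h => ⟨1, one_mem _, fun σ hσ => by simpa using h σ hσ (by simp)⟩
  | cons x l ih =>
    intro e he0 he hl hfix
    obtain ⟨hx0, hx⟩ := hl x List.mem_cons_self
    -- the elements fixing the other roots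
    let K : Subgroup Gal :=
      { carrier := {σ | σ ∈ H ∧ ∀ y ∈ l, σ y = y}
        one_mem' := ⟨one_mem H, fun _ _ => rfl⟩
        mul_mem' := fun ha hb => ⟨mul_mem ha.1 hb.1, fun y hy => by
          rw [AlgEquiv.mul_apply, hb.2 y hy, ha.2 y hy]⟩
        inv_mem' := fun {a} ha => ⟨inv_mem ha.1, fun y hy => by
          conv_lhs => rw [← ha.2 y hy]
          exact a.symm_apply_apply y⟩ }
    have hroot : ∀ {σ : Gal}, σ ∈ H → ∀ w : QBar, w ^ p ^ S = 1 → σ w = w := fun {σ} hσ w hw => by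
      obtain ⟨i, -, rfl⟩ := hζ.eq_pow_of_pow_eq_one hw
      rw [map_pow, hH σ hσ]
    have hr : ∀ {σ : Gal}, σ ∈ H → ∀ y : QBar, y ≠ 0 → σ (y ^ p ^ S) = y ^ p ^ S →
        (σ y / y) ^ p ^ S = 1 := fun {σ} _ y hy0 hy => by
      rw [div_pow, ← map_pow, hy, div_self (pow_ne_zero _ hy0)]
    set T : Set QBar := {w | ∃ σ ∈ K, σ x = w * x} with hT
    have hTroot : ∀ w ∈ T, w ^ p ^ S = 1 := fun w ⟨σ, hσ, hw⟩ => by
      have := hr hσ.1 x hx0 (hx σ hσ.1)
      rwa [hw, mul_div_assoc, div_self hx0, mul_one] at this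
    have hTfin : T.Finite := (Polynomial.nthRootsFinset (p ^ S) (1 : QBar)).finite_toSet.subset
      fun w hw => (Polynomial.mem_nthRootsFinset (Nat.pos_of_ne_zero (NeZero.ne _)) 1).mpr
        (hTroot w hw)
    obtain ⟨w₀, ⟨σ₀, hσ₀, hw₀⟩, hmax⟩ := Set.exists_max_image T orderOf hTfin
      ⟨1, 1, one_mem K, (one_mul x).symm⟩
    have hw₀q := hTroot w₀ ⟨σ₀, hσ₀, hw₀⟩
    obtain ⟨i₀, -, hi₀⟩ := (Nat.dvd_prime_pow hp).mp (orderOf_dvd_of_pow_eq_one hw₀q)
    haveI : NeZero (orderOf w₀) := ⟨by rw [hi₀]; exact pow_ne_zero _ hp.ne_zero⟩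
    have hgenT : ∀ σ ∈ K, ∃ m : ℕ, σ x = w₀ ^ m * x := fun σ hσ => by
      have hwx : σ x = σ x / x * x := (div_mul_cancel₀ _ hx0).symm
      have hwT : σ x / x ∈ T := ⟨σ, hσ, hwx⟩
      obtain ⟨i, -, hi⟩ := (Nat.dvd_prime_pow hp).mp (orderOf_dvd_of_pow_eq_one (hTroot _ hwT))
      have hdvd : orderOf (σ x / x) ∣ orderOf w₀ := by
        have := hmax _ hwT
        rw [hi, hi₀] at this ⊢
        exact Nat.pow_dvd_pow p ((Nat.pow_le_pow_iff_right hp.one_lt).mp this)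
      obtain ⟨m, -, hm⟩ := (IsPrimitiveRoot.orderOf w₀).eq_pow_of_pow_eq_one
        (orderOf_dvd_iff_pow_eq_one.mp hdvd)
      exact ⟨m, by rw [hm]; exact hwx⟩
    -- the exponent
    have hσ₀q : (σ₀ e / e) ^ p ^ S = 1 := hr hσ₀.1 e he0 (he _ hσ₀.1)
    have hσ₀e : σ₀ e = σ₀ e / e * e := (div_mul_cancel₀ _ he0).symm
    have hfix' : ∀ σ ∈ K, σ x = x → σ e = e := fun σ hσ h => hfix σ hσ.1 fun y hy => by
      rcases List.mem_cons.mp hy with rfl | hy
      · exact h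
      · exact hσ.2 y hy
    obtain ⟨d, -, hd⟩ := (IsPrimitiveRoot.orderOf w₀).eq_pow_of_pow_eq_one (ξ := σ₀ e / e) (by
      have h := hfix' _ (pow_mem hσ₀ (orderOf w₀)) (by
        rw [pow_ratio hw₀ (hroot hσ₀.1 _ hw₀q), pow_orderOf_eq_one, one_mul])
      rw [pow_ratio hσ₀e (hroot hσ₀.1 _ hσ₀q)] at h
      exact (mul_eq_right₀ he0).mp h)
    rw [← hd] at hσ₀e
    set e' := e * (x ^ d)⁻¹ with he'
    have hxd : x ^ d ≠ 0 := pow_ne_zero d hx0
    have he'fix : ∀ σ ∈ K, σ e' = e' := fun σ hσ => by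
      obtain ⟨m, hm⟩ := hgenT σ hσ
      have h1 : σ = σ₀ ^ m * ((σ₀ ^ m)⁻¹ * σ) := by group
      have hxm : (σ₀ ^ m) x = w₀ ^ m * x := pow_ratio hw₀ (hroot hσ₀.1 _ hw₀q) m
      have h2 : ((σ₀ ^ m)⁻¹ * σ) x = x := by
        rw [AlgEquiv.mul_apply, hm, ← hxm]
        exact (σ₀ ^ m).symm_apply_apply x
      have h3 := hfix' _ (mul_mem (inv_mem (pow_mem hσ₀ m)) hσ) h2
      have hwd : (w₀ ^ d) ^ p ^ S = 1 := by rw [← pow_mul, mul_comm, pow_mul, hw₀q, one_pow]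
      have hw00 : w₀ ≠ 0 := fun h => by
        rw [h, zero_pow (NeZero.ne _)] at hw₀q
        exact zero_ne_one hw₀q
      rw [h1, AlgEquiv.mul_apply, he', map_mul, map_inv₀, map_pow, h3, h2, map_mul, map_inv₀,
        map_pow, pow_ratio hσ₀e (hroot hσ₀.1 _ hwd), hxm]
      field_simp
      ring
    obtain ⟨z, hz, hzfix⟩ := ih H hH e' (mul_ne_zero he0 (inv_ne_zero hxd))
      (fun σ hσ => by
        rw [mul_pow, map_mul, he σ hσ, inv_pow, map_inv₀, ← pow_mul, mul_comm d (p ^ S), pow_mul,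
          map_pow σ (x ^ p ^ S), hx σ hσ])
      (fun y hy => hl y (List.mem_cons_of_mem x hy))
      (fun σ hσ h => he'fix σ ⟨hσ, h⟩)
    refine ⟨(Units.mk0 x hx0 ^ d)⁻¹ * z, mul_mem (inv_mem (pow_mem (Subgroup.subset_closure
      (show Units.mk0 x hx0 ∈ {u : QBarˣ | ∃ y ∈ x :: l, (u : QBar) = y} from
        ⟨x, List.mem_cons_self, rfl⟩)) d))
      (Subgroup.closure_mono (show {u : QBarˣ | ∃ y ∈ l, (u : QBar) = y} ⊆
        {u : QBarˣ | ∃ y ∈ x :: l, (u : QBar) = y} from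
          fun u ⟨y, hy, e⟩ => ⟨y, List.mem_cons_of_mem x hy, e⟩) hz),
      fun σ hσ => ?_⟩
    rw [Units.val_mul, Units.val_inv_eq_inv_val, Units.val_pow_eq_pow_val, Units.val_mk0,
      ← mul_assoc]
    exact hzfix σ hσ

end Kummer

theorem eq_of_sq_eq_sq {q : ℕ} (hq : Odd q) {a b : QBar} (ha : a ^ q = 1) (hb : b ^ q = 1)
    (h : a ^ 2 = b ^ 2) : a = b := by
  obtain ⟨j, rfl⟩ := hq
  have key : ∀ w : QBar, w ^ (2 * j + 1) = 1 → w = (w ^ 2) ^ (j + 1) := fun w hw => by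
    rw [← pow_mul, show 2 * (j + 1) = 2 * j + 1 + 1 by ring, pow_succ, hw, one_mul]
  rw [key a ha, key b hb, h]

/-- Finitely many roots of units are fixed by an element of inertia moving `π`. -/
theorem exists_inertia_fix_finset {p : ℕ} (hA : A.LiesOverPrime p) (hp : p.Prime) (hp2 : p ≠ 2)
    {π : QBar} (hπ : π ^ p = (p : QBar)) (S : ℕ) (hS : 0 < S) (X : Finset QBar)
    (hX : ∀ x ∈ X, A.valuation x = 1 ∧
      ∀ σ ∈ A.inertiaSubgroupIn ℚ, σ (x ^ p ^ S) = x ^ p ^ S) :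
    ∃ σ ∈ A.inertiaSubgroupIn ℚ, σ π ≠ π ∧ ∀ x ∈ X, σ x = x := by
  classical
  by_contra hcon
  simp only [not_exists, not_and] at hcon
  haveI : NeZero (p ^ S) := ⟨pow_ne_zero S hp.ne_zero⟩
  obtain ⟨ζ, hζ⟩ := HasEnoughRootsOfUnity.exists_primitiveRoot QBar (p ^ S)
  set I := A.inertiaSubgroupIn ℚ
  let H : Subgroup Gal :=
    { carrier := {σ | σ ∈ I ∧ σ ζ = ζ}
      one_mem' := ⟨one_mem I, rfl⟩
      mul_mem' := fun ha hb => ⟨mul_mem ha.1 hb.1, by rw [AlgEquiv.mul_apply, hb.2, ha.2]⟩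
      inv_mem' := fun {a} ha => ⟨inv_mem ha.1, by
        conv_lhs => rw [← ha.2]
        exact a.symm_apply_apply ζ⟩ }
  have hp0 : (p : QBar) ≠ 0 := Nat.cast_ne_zero.mpr hp.ne_zero
  have hπ0 : π ≠ 0 := fun h => hp0 (by rw [← hπ, h, zero_pow hp.ne_zero])
  have hπq : ∀ σ : Gal, σ (π ^ p ^ S) = π ^ p ^ S := fun σ => by
    rw [← Nat.succ_pred_eq_of_pos hS, pow_succ', pow_mul, hπ, map_pow, map_natCast]
  have hx0 : ∀ x ∈ X, x ≠ 0 := fun x hx h => by simpa [h] using (hX x hx).1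
  obtain ⟨z, hz, hzfix⟩ := exists_fixed_product hp H hζ (fun σ hσ => hσ.2) X.toList π hπ0
    (fun σ _ => hπq σ)
    (fun x hx => ⟨hx0 x (Finset.mem_toList.mp hx),
      fun σ hσ => (hX x (Finset.mem_toList.mp hx)).2 σ hσ.1⟩)
    (fun σ hσ h => by
      by_contra hne
      obtain ⟨x, hx, hne'⟩ : ∃ x ∈ X, σ x ≠ x := by
        simpa only [not_forall, exists_prop] using hcon σ hσ.1 hne
      exact hne' (h x (Finset.mem_toList.mpr hx)))
  have hzprop : A.valuation (z : QBar) = 1 ∧ ∀ σ ∈ I, σ ((z : QBar) ^ p ^ S) = (z : QBar) ^ p ^ S := by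
    clear hzfix
    induction hz using Subgroup.closure_induction with
    | mem u hu =>
      obtain ⟨x, hx, e⟩ := hu
      rw [e]
      exact hX x (Finset.mem_toList.mp hx)
    | one => simp
    | mul u v _ _ hu hv =>
      exact ⟨by rw [Units.val_mul, map_mul, hu.1, hv.1, one_mul],
        fun σ hσ => by rw [Units.val_mul, mul_pow, map_mul, hu.2 σ hσ, hv.2 σ hσ]⟩
    | inv u _ hu =>
      exact ⟨by rw [Units.val_inv_eq_inv_val, map_inv₀, hu.1, inv_one],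
        fun σ hσ => by rw [Units.val_inv_eq_inv_val, inv_pow, map_inv₀, hu.2 σ hσ]⟩
  set e := π * (z : QBar) with he
  have he0 : e ≠ 0 := mul_ne_zero hπ0 z.ne_zero
  clear_value e
  have heq : ∀ σ ∈ I, σ (e ^ p ^ S) = e ^ p ^ S := fun σ hσ => by
    rw [he, mul_pow, map_mul, hπq, hzprop.2 σ hσ]
  let K : Gal → QBar := fun σ => σ e / e
  have hK : ∀ σ : Gal, σ e = K σ * e := fun σ => (div_mul_cancel₀ _ he0).symm
  have hKq : ∀ σ ∈ I, K σ ^ p ^ S = 1 := fun σ hσ => by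
    rw [div_pow, ← map_pow, heq σ hσ, div_self (pow_ne_zero _ he0)]
  obtain ⟨t, ht, htinv⟩ := Mazur.Eisenstein.exists_inertia_inv hA hp S
  have hodd : Odd (p ^ S) := (hp.odd_of_ne_two hp2).pow
  obtain ⟨j, hj⟩ := hodd
  set w := K t ^ (j + 1) with hw
  have hwq : w ^ p ^ S = 1 := by rw [hw, ← pow_mul, mul_comm, pow_mul, hKq t ht, one_pow]
  have hw2 : w ^ 2 = K t := by
    rw [hw, ← pow_mul, show (j + 1) * 2 = p ^ S + 1 by omega, pow_succ, hKq t ht, one_mul]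
  have hfixI : ∀ σ ∈ I, σ (e * w) = e * w := by
    intro σ hσ
    have hroots : ∀ μ : QBar, μ ^ p ^ S = 1 → (σ * t) μ = (t * σ) μ := fun μ hμ => by
      rw [AlgEquiv.mul_apply, AlgEquiv.mul_apply, htinv μ hμ, map_inv₀,
        htinv (σ μ) (by rw [← map_pow, hμ, map_one])]
    have hmem : (t * σ)⁻¹ * (σ * t) ∈ H := by
      refine ⟨mul_mem (inv_mem (mul_mem ht hσ)) (mul_mem hσ ht), ?_⟩
      rw [AlgEquiv.mul_apply, hroots ζ hζ.pow_eq_one]
      exact (t * σ).symm_apply_apply ζ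
    have h1 : (σ * t) e = (t * σ) e := by
      conv_rhs => rw [← hzfix _ hmem, ← AlgEquiv.mul_apply, mul_inv_cancel_left]
    rw [AlgEquiv.mul_apply, AlgEquiv.mul_apply, hK t, hK σ, map_mul, map_mul, hK σ, hK t,
      htinv _ (hKq σ hσ), ← mul_assoc, ← mul_assoc] at h1
    have h2 : σ (K t) * K σ = (K σ)⁻¹ * K t := mul_right_cancel₀ he0 h1
    have hk0 : K σ ≠ 0 := fun h => by
      have := hKq σ hσ
      rw [h, zero_pow (NeZero.ne _)] at this
      exact zero_ne_one this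
    have h3 : K σ * σ w = w := eq_of_sq_eq_sq ⟨j, hj⟩
      (by rw [mul_pow, hKq σ hσ, ← map_pow, hwq, map_one, one_mul]) hwq (by
        rw [mul_pow, ← map_pow, hw2, pow_two, mul_assoc, mul_comm (K σ) (σ _), h2,
          mul_inv_cancel_left₀ hk0])
    rw [map_mul, hK, mul_right_comm, h3, mul_comm]
  have hw0 : w ≠ 0 := fun h => by
    rw [h, zero_pow (NeZero.ne _)] at hwq
    exact zero_ne_one hwq
  obtain ⟨n, hn⟩ := exists_zpow_of_inertiaFixed hA hp (mul_ne_zero he0 hw0) hfixI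
  have hvw : A.valuation w = 1 :=
    (pow_eq_one_iff_left (NeZero.ne (p ^ S))).mp (by rw [← map_pow, hwq, map_one])
  have hvp : A.valuation (p : QBar) ≠ 0 := (Valuation.ne_zero_iff _).mpr hp0
  rw [map_mul, hvw, mul_one, he, map_mul, hzprop.1, mul_one] at hn
  have h1 : n * p = 1 := by
    refine zpow_right_injective₀ (zero_lt_iff.mpr hvp) (ne_of_lt hA) ?_
    show A.valuation (p : QBar) ^ (n * (p : ℤ)) = A.valuation (p : QBar) ^ (1 : ℤ)
    rw [zpow_mul, ← hn, zpow_natCast, ← map_pow, hπ, zpow_one]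
  have h2 : (p : ℤ) ∣ 1 := ⟨n, by rw [← h1, mul_comm]⟩
  exact hp.one_lt.ne' (Nat.dvd_one.mp (by exact_mod_cast h2))

/-- **An element of inertia seeing only the `p`-part exists.** -/
theorem tauInput : TauInput := by
  intro p hp hp2 A hA
  classical
  haveI : IsGalois ℚ QBar := ⟨⟩
  obtain ⟨π, hπ⟩ := IsAlgClosed.exists_pow_nat_eq (p : QBar) hp.pos
  let ι := {d : QBar × ℕ // d.1 ∈ A ∧ d.1⁻¹ ∈ A ∧
    ∀ σ ∈ A.inertiaSubgroupIn ℚ, σ (d.1 ^ p ^ d.2) = d.1 ^ p ^ d.2 ∧ d.1 ≠ 0}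
  obtain ⟨τ, ⟨hτI, hτπ⟩, hτ⟩ := IsCompact.inter_iInter_nonempty
    (((isClosed_inertia A).inter (isClosed_setOf_apply π fun y => y ≠ π)).isCompact)
    (fun d : ι => {σ : Gal | σ d.1.1 = d.1.1})
    (fun d => isClosed_setOf_apply d.1.1 fun y => y = d.1.1) fun u => by
      obtain ⟨σ, hσ, hσπ, hσX⟩ := exists_inertia_fix_finset hA hp hp2 hπ
        (u.sup (fun d : ι => d.1.2) + 1) (Nat.succ_pos _) (u.image fun d : ι => d.1.1) fun x hx => by
        obtain ⟨⟨⟨y, k⟩, hy, hyi, hfix⟩, hd, rfl⟩ := Finset.mem_image.mp hx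
        have hy0 : y ≠ 0 := (hfix 1 (one_mem _)).2
        refine ⟨le_antisymm ((A.valuation_le_one_iff _).mpr hy) ?_, fun σ hσ => ?_⟩
        · have h := (A.valuation_le_one_iff _).mpr hyi
          rwa [map_inv₀, inv_le_one₀ (zero_lt_iff.mpr ((Valuation.ne_zero_iff _).mpr hy0))] at h
        · obtain ⟨r, hr⟩ := Nat.exists_eq_add_of_le
            (show k ≤ u.sup (fun d : ι => d.1.2) + 1 from
              (Finset.le_sup (f := fun d : ι => d.1.2) hd).trans (Nat.le_succ _))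
          rw [hr, pow_add, pow_mul, map_pow, (hfix σ hσ).1]
      exact ⟨σ, ⟨hσ, hσπ⟩, Set.mem_iInter₂.mpr fun d hd =>
        hσX _ (Finset.mem_image_of_mem _ hd)⟩
  refine ⟨τ, hτI, fun x k hx hxi hfix => ?_, π, hπ, hτπ⟩
  rcases eq_or_ne x 0 with rfl | hx0
  · exact map_zero τ
  exact Set.mem_iInter.mp hτ (⟨(x, k), hx, hxi, fun σ hσ => ⟨hfix σ hσ, hx0⟩⟩ : ι)

end Fermat.Agent.RT.Lift59.Galois

end
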