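import Fermat.Agent.RT.Lift59.Galois.Setup
import Fermat.Agent.RT.Lift59.Galois.OrdLine
import Fermat.Agent.RT.Lift59.Galois.Tau
import Fermat.Agent.Mazur.Eisenstein.Rational

/-!
# The places of the flips

The elements chosen at the flipped primes, the dichotomy between scalar places and nodes and the
shape of the levels, all independent of the auxiliary primes.
-/

set_option autoImplicit false

noncomputable section

namespace Fermat.Agent.RT.Lift59.Galois

open Fermat.Agent.Arith Fermat.Agent.EC.Rep Fermat.Agent.EC.Reduction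
open Fermat.Agent.Deform (Gal)

variable {A : ValuationSubring QBar}

/-- An inertia element at `v ≠ p` moving `v ^ (1 / p)`. -/
theorem exists_tame_mover {p v : ℕ} (hp : p.Prime) (hA : A.LiesOverPrime v) (hv : v.Prime)
    (hvp : v ≠ p) : ∃ (σ : Gal) (π : QBar), σ ∈ A.inertiaSubgroupIn ℚ ∧ π ≠ 0 ∧
      Mazur.Eisenstein.ordAt A v π = ((1 : ℤ) : ℚ) / p ∧ res A (σ π / π) ≠ 1 ∧
        res A (σ π / π) ^ p = 1 := by
  have := Fact.mk hv
  obtain ⟨π, hπ⟩ := IsAlgClosed.exists_pow_nat_eq (v : QBar) hp.pos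
  have hv0 : (v : QBar) ≠ 0 := Nat.cast_ne_zero.2 hv.ne_zero
  have hπ0 : π ≠ 0 := fun h => hv0 (by rw [← hπ, h, zero_pow hp.ne_zero])
  have hord : Mazur.Eisenstein.ordAt A v π = ((1 : ℤ) : ℚ) / p := by
    have h := Mazur.Eisenstein.ordAt_natCast hA hv hv.ne_zero
    rw [← hπ, Mazur.Eisenstein.ordAt_pow hA hv hπ0, hv.factorization_self] at h
    rw [Int.cast_one, eq_div_iff (Nat.cast_ne_zero.2 hp.ne_zero : (p : ℚ) ≠ 0), mul_comm]
    simpa using h
  obtain ⟨σ, hσ, hσπ⟩ : ∃ σ ∈ A.inertiaSubgroupIn ℚ, σ π ≠ π := by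
    by_contra hfix
    push Not at hfix
    obtain ⟨k, hk⟩ := Mazur.Eisenstein.exists_int_ordAt hA hv hπ0 hfix
    rw [hord, Int.cast_one, eq_comm, eq_div_iff (Nat.cast_ne_zero.2 hp.ne_zero : (p : ℚ) ≠ 0)] at hk
    have h1 : (k * p : ℤ) = 1 := by exact_mod_cast hk
    exact hp.not_isUnit (Int.ofNat_isUnit.1 (IsUnit.of_mul_eq_one k (by rwa [mul_comm] at h1)))
  have hω : (σ π / π) ^ p = 1 := by
    rw [div_pow, ← map_pow, hπ, map_natCast, div_self hv0]
  have hωA := (apply_div_self_mem hσ hπ0).1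
  refine ⟨σ, π, hσ, hπ0, hord, fun h1 => hσπ ?_, by rw [← res_pow hωA, hω, res_one]⟩
  have h : σ π / π = 1 := root_congr hA hv hω (one_pow p)
    (fun hd => hvp ((Nat.prime_dvd_prime_iff_eq hv hp).1 hd))
    ((res_eq_zero_iff (sub_mem hωA A.one_mem)).1
      (by rw [res_sub hωA A.one_mem, h1, res_one, sub_self]))
  rwa [div_eq_one_iff_eq hπ0] at h

end Fermat.Agent.RT.Lift59.Galois

namespace Fermat.Agent.RT.Lift59.Levels

open IsLocalRing
open GaloisReps (AbsGal)
open Fermat.Agent.Deform (M2 toRep Gal)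
open Fermat.Agent.Arith (QBar)
open Fermat.Agent.CFT.Local (padicPlace_liesOverPrime)
open Fermat.Agent.RT.Lift59.Galois (OrdVec zAt ordCol IsTauStar)

variable {O : Type} [CommRing O] [IsDomain O] [IsDiscreteValuationRing O]
  [IsAdicComplete (maximalIdeal O) O] [Finite (ResidueField O)] [CharZero O]
  {p : ℕ} [Fact p.Prime] [Fact (p ≠ 2)] [CharP (ResidueField O) p]

namespace Fixed

variable (F : Fixed O p)

/-- The residual Frobenius elements at `v` are scalar. -/
def IsScalar (v : ℕ) : Prop := ∀ A : ValuationSubring QBar, A.LiesOverPrime v →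
  ∀ Fr : Gal, A.IsFrobeniusAt Fr v → ∃ c : ResidueField O, F.rig.rb Fr = c • 1

/-- The properties of the representation over `O` at the places of the flips. -/
structure Hyp : Prop where
  /-- A flip at `p` comes first. -/
  p_first : ∀ i < F.t, F.v i = p → i = 0
  unrV : ∀ i < F.t, F.v i ≠ p → ∀ A : ValuationSubring QBar, A.LiesOverPrime (F.v i) →
    ∀ σ ∈ A.inertiaSubgroupIn ℚ, F.rig.rb σ = 1
  unipE : ∀ v : ℕ, v.Prime → v ∣ F.base F.t → v ≠ p → ∀ A : ValuationSubring QBar,
    A.LiesOverPrime v → ∀ σ ∈ A.inertiaSubgroupIn ℚ, (F.rhoE σ).trace = 2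
  trFr : ∀ i < F.t, F.v i ≠ p → ∀ A : ValuationSubring QBar, A.LiesOverPrime (F.v i) →
    ∀ Fr : Gal, A.IsFrobeniusAt Fr (F.v i) →
      ∃ a : O, a ^ 2 = 1 ∧ (F.rhoE Fr).trace = a * (1 + (F.v i : O))
  ordP : p ∣ F.base F.t → (toRep F.rhoE F.cont).IsOrdinaryAt p
  /-- The quotient character at `p` of a split or non split multiplicative representation. -/
  strictP : p ∣ F.base F.t → ∀ (w : Fin 2 → O) (i : Fin 2), IsUnit (w i) →
    OrdVec (padicPlace p) F.rhoE w → ∀ Fp : Gal, (padicPlace p).IsFrobeniusAt Fp p →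
      zAt F.rhoE w i Fp ^ 2 = 1
  tauV : ∀ i < F.t, F.v i = p → ∀ τ : Gal, IsTauStar (padicPlace p) p τ → F.rig.rb τ = 1

/-- The chosen place at the `i`-th flipped prime. -/
def place (i : ℕ) : ValuationSubring QBar :=
  @padicPlace (F.v i) ⟨F.v_prime i⟩

omit [IsAdicComplete (maximalIdeal O) O] [Finite (ResidueField O)] [CharZero O] [Fact p.Prime]
  [Fact (p ≠ 2)] [CharP (ResidueField O) p] in
theorem place_lies (i : ℕ) : (F.place i).LiesOverPrime (F.v i) :=
  @padicPlace_liesOverPrime (F.v i) ⟨F.v_prime i⟩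

/-- A Frobenius element at the `i`-th prime. -/
def fr (i : ℕ) : Gal := (Arith.exists_isFrobeniusAt (F.place_lies i) (F.v_prime i)).choose

omit [IsAdicComplete (maximalIdeal O) O] [Finite (ResidueField O)] [CharZero O] [Fact p.Prime]
  [Fact (p ≠ 2)] [CharP (ResidueField O) p] in
theorem fr_spec (i : ℕ) : (F.place i).IsFrobeniusAt (F.fr i) (F.v i) :=
  (Arith.exists_isFrobeniusAt (F.place_lies i) (F.v_prime i)).choose_spec

omit [IsAdicComplete (maximalIdeal O) O] [Finite (ResidueField O)] [CharZero O] [Fact (p ≠ 2)]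
    [CharP (ResidueField O) p] in
theorem exists_tame (i : ℕ) : ∃ (σ : Gal) (π : QBar), σ ∈ (F.place i).inertiaSubgroupIn ℚ ∧
    π ≠ 0 ∧ (F.v i ≠ p → Mazur.Eisenstein.ordAt (F.place i) (F.v i) π = ((1 : ℤ) : ℚ) / p ∧
      EC.Reduction.res (F.place i) (σ π / π) ≠ 1 ∧
        EC.Reduction.res (F.place i) (σ π / π) ^ p = 1) := by
  by_cases h : F.v i = p
  · exact ⟨1, 1, one_mem _, one_ne_zero, fun h' => absurd h h'⟩
  · obtain ⟨σ, π, h1, h2, h3⟩ :=
      Galois.exists_tame_mover (Fact.out : p.Prime) (F.place_lies i) (F.v_prime i) h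
    exact ⟨σ, π, h1, h2, fun _ => h3⟩

/-- A tame inertia element at the `i`-th prime. -/
def tame (i : ℕ) : Gal := (F.exists_tame i).choose

omit [IsAdicComplete (maximalIdeal O) O] [Finite (ResidueField O)] [CharZero O] [Fact (p ≠ 2)]
    [CharP (ResidueField O) p] in
theorem tame_mem (i : ℕ) : F.tame i ∈ (F.place i).inertiaSubgroupIn ℚ :=
  (F.exists_tame i).choose_spec.choose_spec.1

variable {F}

omit [IsAdicComplete (maximalIdeal O) O] [Finite (ResidueField O)] [CharZero O]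
    [Fact (Nat.Prime p)] [Fact (p ≠ 2)] [CharP (ResidueField O) p] in
/-- If the residual Frobenius elements at an unramified prime are not all scalar, none is. -/
theorem ne_smul_of_not_isScalar {v : ℕ} (hv : v.Prime)
    (hunr : ∀ A : ValuationSubring QBar, A.LiesOverPrime v → ∀ σ ∈ A.inertiaSubgroupIn ℚ,
      F.rig.rb σ = 1) (hns : ¬ F.IsScalar v) {B : ValuationSubring QBar} (hB : B.LiesOverPrime v)
    {Fr : Gal} (hFr : B.IsFrobeniusAt Fr v) (c : ResidueField O) : F.rig.rb Fr ≠ c • 1 := by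
  intro hc
  refine hns fun A hA Fr' hFr' => ⟨c, ?_⟩
  obtain ⟨g, hg⟩ := Arith.exists_smul_eq hB hA hv
  have hconj := Arith.isFrobeniusAt_conj (g := g) hFr
  rw [hg] at hconj
  have h1 := hunr A hA _ (Arith.inv_mul_mem_inertia hFr' hconj)
  have e : F.rig.rb Fr' = F.rig.rb (g * Fr * g⁻¹) := by
    conv_rhs => rw [← mul_one (F.rig.rb (g * Fr * g⁻¹)), ← h1, ← map_mul, mul_inv_cancel_left]

  rw [e, map_mul, map_mul, hc, mul_smul_comm, mul_one, smul_mul_assoc, ← map_mul, mul_inv_cancel,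
    map_one]

variable (F) in
/-- The scalar flips. -/
def IsVs (i : ℕ) : Prop := F.v i ≠ p ∧ F.IsScalar (F.v i)

namespace Hyp

variable (h : F.Hyp)
include h

omit [IsAdicComplete (maximalIdeal O) O] [Finite (ResidueField O)] [CharZero O] [Fact (p ≠ 2)]
    [CharP (ResidueField O) p] in
theorem exists_sgn (i : Fin F.t) : ∃ a : O, a ^ 2 = 1 ∧
    (F.v i ≠ p → (F.rhoE (F.fr i)).trace = a * (1 + (F.v i : O))) := by
  by_cases hp : F.v i = p
  · exact ⟨1, one_pow 2, fun h' => absurd hp h'⟩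
  · obtain ⟨a, ha, e⟩ := h.trFr i i.2 hp _ (F.place_lies i) _ (F.fr_spec i)
    exact ⟨a, ha, fun _ => e⟩

/-- The sign at a flipped prime other than `p`. -/
def sgn (i : Fin F.t) : O := (h.exists_sgn i).choose

omit [IsAdicComplete (maximalIdeal O) O] [Finite (ResidueField O)] [CharZero O] [Fact (p ≠ 2)]
    [CharP (ResidueField O) p] in
theorem sgn_sq (i : Fin F.t) : h.sgn i ^ 2 = 1 := (h.exists_sgn i).choose_spec.1

omit [IsAdicComplete (maximalIdeal O) O] [Finite (ResidueField O)] [CharZero O] [Fact (p ≠ 2)]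
    [CharP (ResidueField O) p] in
theorem trace_fr (i : Fin F.t) (hp : F.v i ≠ p) :
    (F.rhoE (F.fr i)).trace = h.sgn i * (1 + (F.v i : O)) :=
  (h.exists_sgn i).choose_spec.2 hp

end Hyp

/-! ### At `p` -/

omit [Fact (p ≠ 2)] in
variable (p) in
theorem exists_pInv : ∃ σ ∈ (padicPlace p).inertiaSubgroupIn ℚ,
    ∀ ζ : QBar, ζ ^ p = 1 → σ ζ = ζ⁻¹ := by
  obtain ⟨σ, h1, h2⟩ := Mazur.Eisenstein.exists_inertia_inv (padicPlace_liesOverPrime p)
    (Fact.out : p.Prime) 1
  exact ⟨σ, h1, fun ζ hζ => h2 ζ (by rwa [pow_one])⟩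

variable (p) in
/-- An inertia element at `p` inverting the `p`-th roots of unity. -/
def pInv : Gal := (exists_pInv p).choose

omit [Fact (p ≠ 2)] in
variable (p) in
theorem pInv_mem : pInv p ∈ (padicPlace p).inertiaSubgroupIn ℚ := (exists_pInv p).choose_spec.1

variable (p) in
/-- A Frobenius element at `p`. -/
def pFr : Gal := (Arith.exists_isFrobeniusAt (padicPlace_liesOverPrime p)
  (Fact.out : p.Prime)).choose

omit [Fact (p ≠ 2)] in
variable (p) in
theorem pFr_spec : (padicPlace p).IsFrobeniusAt (pFr p) p :=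
  (Arith.exists_isFrobeniusAt (padicPlace_liesOverPrime p) (Fact.out : p.Prime)).choose_spec

omit [IsAdicComplete (maximalIdeal O) O] [Finite (ResidueField O)] [CharZero O] in
variable (F) in
theorem exists_pEntry : ∃ ij : Fin 2 × Fin 2, IsUnit ((F.rhoE (pInv p) - 1) ij.1 ij.2) := by
  by_contra hno
  push Not at hno
  have h1 : (residue O).mapMatrix (F.rhoE (pInv p)) = 1 := by
    refine Matrix.ext fun a b => ?_
    have h := (residue_eq_zero_iff _).2 ((mem_maximalIdeal _).2 (hno (a, b)))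
    rw [Matrix.sub_apply, map_sub, sub_eq_zero] at h
    rw [RingHom.mapMatrix_apply, Matrix.map_apply, h, Matrix.one_apply, Matrix.one_apply]
    split_ifs <;> simp
  have hdet := F.det_congr_rhoE 1 (pInv p) (p - 1) fun μ hμ => by
    rw [pow_one] at hμ
    rw [show pInv p μ = μ⁻¹ from (exists_pInv p).choose_spec.2 μ hμ]
    refine inv_eq_of_mul_eq_one_left ?_
    rw [← pow_succ, Nat.sub_add_cancel (Fact.out : p.Prime).one_le, hμ]
  have h2 : residue O ((F.rhoE (pInv p)).det) = residue O ((p - 1 : ℕ) : O) := by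
    rw [← sub_eq_zero, ← map_sub, residue_eq_zero_iff]
    refine (Ideal.span_singleton_le_iff_mem _).2 ?_ hdet
    rw [pow_one]
    exact natCast_mem_max
  rw [RingHom.map_det, map_natCast,
    h1, Matrix.det_one,
    Nat.cast_sub (Fact.out : p.Prime).one_le, CharP.cast_eq_zero, Nat.cast_one, zero_sub] at h2
  have h3 : ((2 : ℕ) : ResidueField O) = 0 := by push_cast; linear_combination h2
  rw [CharP.cast_eq_zero_iff _ p] at h3
  exact (Fact.out : p ≠ 2) ((Nat.prime_dvd_prime_iff_eq Fact.out Nat.prime_two).1 h3)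

variable (F) in
/-- A unit entry of `rhoE (pInv p) - 1`. -/
def pEntry : Fin 2 × Fin 2 := F.exists_pEntry.choose

omit [IsAdicComplete (maximalIdeal O) O] [Finite (ResidueField O)] [CharZero O] in
variable (F) in
theorem pEntry_unit : IsUnit ((F.rhoE (pInv p) - 1) F.pEntry.1 F.pEntry.2) :=
  F.exists_pEntry.choose_spec

variable (F) in
/-- The vector of the ordinary line of the representation over `O`. -/
def pVec : Fin 2 → O := ordCol F.rhoE (pInv p) F.pEntry.2

variable (F) in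
/-- The quotient character at Frobenius at `p`. -/
def pSgn : O := zAt F.rhoE F.pVec F.pEntry.1 (pFr p)

namespace Hyp

variable (h : F.Hyp)
include h

omit [IsAdicComplete (maximalIdeal O) O] [Finite (ResidueField O)] [CharZero O] in
theorem ordVec_pVec (hp : p ∣ F.base F.t) : OrdVec (padicPlace p) F.rhoE F.pVec :=
  Galois.ordVec_of_isOrdinaryAt (h.ordP hp) (padicPlace_liesOverPrime p) (pInv_mem p) F.pEntry_unit

omit [IsAdicComplete (maximalIdeal O) O] [Finite (ResidueField O)] [CharZero O] in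
theorem pSgn_sq (hp : p ∣ F.base F.t) : F.pSgn ^ 2 = 1 :=
  h.strictP hp F.pVec F.pEntry.1 F.pEntry_unit (h.ordVec_pVec hp) _ (pFr_spec p)

end Hyp

end Fixed

end Fermat.Agent.RT.Lift59.Levels

end
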