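import Fermat.Agent.RT.Lift59.Galois.Places
import Fermat.Agent.RT.Lift59.Levels.Top
import Fermat.Agent.RT.Lift59.Levels.OldNotFull
import Fermat.Agent.CFT.TWPrimes.Irred

/-!
# What the lifting argument needs of a fixed data

The contradiction proved from `Fixed.Ready` says that the representation over `O` is that of a
system of the top level without auxiliary primes.
-/

set_option autoImplicit false

noncomputable section

namespace Fermat.Agent.RT.Lift59.Levels

open IsLocalRing
open Fermat.Agent.Deform (Gal toRep)
open Fermat.Agent.Arith (QBar)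
open Fermat.Agent.RT.Lift59.Galois (IsTauStar)

variable {O : Type} [CommRing O] [IsDomain O] [IsDiscreteValuationRing O]
  [IsAdicComplete (maximalIdeal O) O] [Finite (ResidueField O)] [CharZero O]
  {p : ℕ} [Fact p.Prime] [Fact (p ≠ 2)] [CharP (ResidueField O) p]

/-- A fixed data without a system of the representation over `O` at the top. -/
structure Fixed.Ready (F : Fixed O p) : Prop where
  hyp : F.Hyp
  tw : CFT.TWPrimes.TWHyp F.rig.rb
  ramL : ∀ v : ℕ, v.Prime → v ∣ F.L → v ≠ p → ∀ A : ValuationSubring QBar, A.LiesOverPrime v →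
    ∃ τ ∈ A.inertiaSubgroupIn ℚ, F.rig.rb τ ≠ 1
  tauL : p ∣ F.L → ∀ τ : Gal, IsTauStar (padicPlace p) p τ → F.rig.rb τ ≠ 1
  flatE : ¬ p ∣ F.base F.t → (toRep F.rhoE F.cont).IsFlatAt p
  unitRoot : ∀ i < F.t, F.v i = p → F.UnitRootAt i
  noSystem : F.NoSystem

/-- **The lifting theorem over fixed data**: there is none without a system at the top. -/
def NotReadyInput : Prop :=
  ∀ (O : Type) [CommRing O] [IsDomain O] [IsDiscreteValuationRing O]
    [IsAdicComplete (maximalIdeal O) O] [Finite (ResidueField O)] [CharZero O]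
    (p : ℕ) [Fact p.Prime] [Fact (p ≠ 2)] [CharP (ResidueField O) p] (F : Fixed O p), ¬ F.Ready

end Fermat.Agent.RT.Lift59.Levels

end
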