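import Fermat.Agent.RT.Lift59.Galois.Shape
import Fermat.Agent.RT.Lift59.Galois.Kummer
import Fermat.Agent.RT.Lift59.Levels.OrdT

/-!
# The coordinates of the flipped places over the ring of the levels, and their relations
-/

set_option autoImplicit false

noncomputable section

namespace Fermat.Agent.RT.Lift59.Levels

open IsLocalRing
open Fermat.Agent.Deform (M2 Gal augment mapM toRep)
open Fermat.Agent.Arith (QBar)
open Fermat.Agent.CFT.Local (padicPlace_liesOverPrime)
open Fermat.Agent.RT.Lift59.Galois (OrdVec zAt ordCol clsAt lineMat)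

variable {O : Type} [CommRing O] [IsDomain O] [IsDiscreteValuationRing O]
  [IsAdicComplete (maximalIdeal O) O] [Finite (ResidueField O)] [CharZero O]
  {p : ℕ} [Fact p.Prime] [Fact (p ≠ 2)] [CharP (ResidueField O) p]
  {F : Fixed O p} {R n : ℕ} (X : Aux F R n) (h : F.Hyp)

namespace Aux

local notation "ι" => algebraMap O X.Ring

theorem augment_eq_eval (a : X.Ring) : augment X.isResAlg_ring a = residue O (X.eval a) := by
  have h0 : augment X.isResAlg_ring (a - ι (X.eval a)) = 0 := by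
    rw [Deform.augment_eq_zero_iff]
    intro hu
    have h2 := hu.map X.eval
    rw [map_sub, AlgHom.commutes] at h2
    simp at h2
  rwa [map_sub, AlgHom.commutes, ResidueField.algebraMap_eq, sub_eq_zero] at h0

theorem mem_max_of_eval {a : X.Ring} (he : X.eval a ∈ maximalIdeal O) :
    a ∈ maximalIdeal X.Ring := by
  rw [← Deform.augment_eq_zero_iff X.isResAlg_ring, augment_eq_eval, (residue_eq_zero_iff _).2 he]

theorem isUnit_of_eval {a : X.Ring} (he : IsUnit (X.eval a)) : IsUnit a := by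
  by_contra hu
  rw [← mem_nonunits_iff, ← mem_maximalIdeal, ← Deform.augment_eq_zero_iff X.isResAlg_ring,
    augment_eq_eval, residue_eq_zero_iff, mem_maximalIdeal, mem_nonunits_iff] at hu
  exact hu he

/-! ### At `p` -/

/-- The vector of the ordinary line. -/
def pVec : Fin 2 → X.Ring := ordCol X.rep (Fixed.pInv p) F.pEntry.2

theorem eval_pVec : (X.eval : X.Ring →+* O) ∘ X.pVec = F.pVec := by
  funext a
  show X.eval ((X.rep (Fixed.pInv p) - 1) a F.pEntry.2) = (F.rhoE (Fixed.pInv p) - 1) a F.pEntry.2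
  rw [Matrix.sub_apply, Matrix.sub_apply, map_sub, Matrix.one_apply, Matrix.one_apply]
  split_ifs <;> simp <;> rfl

theorem pVec_unit : IsUnit (X.pVec F.pEntry.1) :=
  X.isUnit_of_eval (by
    rw [show X.eval (X.pVec F.pEntry.1) = F.pVec F.pEntry.1 from congrFun X.eval_pVec _]
    exact F.pEntry_unit)

include h

theorem ordVec_rep (hp : p ∣ F.base F.t)
    (hres : ∀ P : ValuationSubring QBar, P.LiesOverPrime p →
      ∃ w : Fin 2 → ResidueField O, w ≠ 0 ∧ OrdVec P (mapM (residue O) F.rhoE) w) :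
    OrdVec (padicPlace p) X.rep X.pVec := by
  refine Galois.OrdVec.of_maps (X.pr : X.Ring →+* X.Alg) (X.eval : X.Ring →+* O)
    (fun a h1 h2 => X.ring_ext (h1.trans (map_zero X.pr).symm) (h2.trans (map_zero X.eval).symm))
    ?_ ?_
  · have e : (X.pr : X.Ring →+* X.Alg) ∘ X.pVec = ordCol X.rhoT (Fixed.pInv p) F.pEntry.2 := by
      funext a
      show X.pr ((X.rep (Fixed.pInv p) - 1) a F.pEntry.2) = (X.rhoT (Fixed.pInv p) - 1) a F.pEntry.2
      rw [Matrix.sub_apply, Matrix.sub_apply, map_sub, Matrix.one_apply, Matrix.one_apply]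
      split_ifs <;> simp <;> rfl
    rw [e, show mapM (X.pr : X.Ring →+* X.Alg) X.rep = X.rhoT from X.pr_rep]
    refine Galois.ordVec_of_isOrdinaryAt (i := F.pEntry.1) (X.isOrdinaryAt_rhoT hp hres)
      (padicPlace_liesOverPrime p) (Fixed.pInv_mem p) ?_
    have hu := X.pVec_unit.map X.pr
    rwa [show X.pr (X.pVec F.pEntry.1) = ordCol X.rhoT (Fixed.pInv p) F.pEntry.2 F.pEntry.1 from
      congrFun e _] at hu
  · rw [eval_pVec, show mapM (X.eval : X.Ring →+* O) X.rep = F.rhoE from X.eval_rep]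
    exact h.ordVec_pVec hp

omit h

/-- The quotient character at Frobenius. -/
def pAlpha : X.Ring := zAt X.rep X.pVec F.pEntry.1 (Fixed.pFr p)

theorem eval_pAlpha : X.eval X.pAlpha = F.pSgn := by
  have := Galois.map_zAt (X.eval : X.Ring →+* O) X.rep X.pVec_unit (Fixed.pFr p)
  rw [eval_pVec, show mapM (X.eval : X.Ring →+* O) X.rep = F.rhoE from X.eval_rep] at this
  exact this

/-! ### The coordinates -/

/-- The nilpotent part at a flipped place. -/
def nilAt (i : Fin F.t) : M2 X.Ring := by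
  classical
  exact if F.v i = p then X.rep (pTau p) - 1 else X.rep (F.tame i) - 1

/-- The coordinate `φ` at a node. -/
def phiAt (i : Fin F.t) : X.Ring := by
  classical
  exact if F.v i = p then X.pAlpha - ι F.pSgn
    else (X.rep (F.fr i)).trace - ι (h.sgn i * (1 + (F.v i : O)))

/-- The trace zero part of Frobenius at a scalar place. -/
def frobAt (i : Fin F.t) : M2 X.Ring :=
  X.rep (F.fr i) - (ι (half O p) * (X.rep (F.fr i)).trace) • 1

/-- The coordinates of the trace zero matrices. -/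
def crd3 (M : M2 X.Ring) : Fin 3 → X.Ring := ![M 0 0, M 0 1, M 1 0]

/-- The values of the coordinates of the places. -/
def plc : (F.VsT × Fin 2 × Fin 3) ⊕ F.NdT × Option (Fin 2 × Fin 2) → X.Ring
  | Sum.inl (v, i, k) => if i = 0 then X.crd3 (X.frobAt v.1) k else X.crd3 (X.nilAt v.1) k
  | Sum.inr (w, none) => X.phiAt h w.1
  | Sum.inr (w, some j) => X.nilAt w.1 j.1 j.2

theorem eval_rep_apply (σ : Gal) (a b : Fin 2) : X.eval (X.rep σ a b) = F.rhoE σ a b := rfl

omit [IsAdicComplete (maximalIdeal O) O] [Finite (ResidueField O)] [CharZero O]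
    [Fact (Nat.Prime p)] [Fact (p ≠ 2)] [CharP (ResidueField O) p] in
theorem residue_rhoE (σ : Gal) (a b : Fin 2) : residue O (F.rhoE σ a b) = F.rig.rb σ a b := by
  rw [F.rig_rb, ← F.res]; rfl

include h

theorem nilAt_mem (i : Fin F.t) (a b : Fin 2) : X.nilAt i a b ∈ maximalIdeal X.Ring := by
  rw [nilAt]
  split_ifs with hp
  · exact X.sub_one_mem_of_residual (h.tauV i i.2 hp _ (pTau_spec p)) a b
  · exact X.sub_one_mem_of_residual (h.unrV i i.2 hp _ (F.place_lies i) _ (F.tame_mem i)) a b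

theorem phiAt_eval (i : Fin F.t) : X.eval (X.phiAt h i) = 0 := by
  rw [phiAt]
  split_ifs with hp
  · rw [map_sub, AlgHom.commutes, eval_pAlpha]; simp
  · rw [map_sub, AlgHom.commutes, eval_trace, h.trace_fr i hp]; simp

set_option linter.unusedSectionVars false in
theorem frobAt_mem (v : F.VsT) (a b : Fin 2) : X.frobAt v.1 a b ∈ maximalIdeal X.Ring := by
  obtain ⟨hp, hs⟩ := v.2
  obtain ⟨c, hc⟩ := hs _ (F.place_lies v.1) _ (F.fr_spec v.1)
  refine X.mem_max_of_eval ((residue_eq_zero_iff _).1 ?_)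
  have h2 : (2 : ResidueField O) * residue O (half O p) = 1 := by
    rw [← map_ofNat (residue O) 2, ← map_mul, two_mul_half, map_one]
  rw [frobAt, Matrix.sub_apply, Matrix.smul_apply, smul_eq_mul, map_sub, map_mul, map_mul,
    AlgHom.commutes, Algebra.algebraMap_self, RingHom.id_apply, eval_rep_apply, eval_trace,
    Matrix.trace_fin_two, map_sub, map_mul, map_mul, map_add, residue_rhoE, residue_rhoE,
    residue_rhoE, hc]
  simp only [Matrix.smul_apply, Matrix.one_apply, smul_eq_mul]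
  split_ifs with hab
  · subst hab
    simp
    linear_combination -(c) * h2
  · simp

theorem plc_mem (c) : X.plc h c ∈ maximalIdeal X.Ring := by
  rcases c with ⟨v, i, k⟩ | ⟨w, _ | j⟩
  · simp only [plc]
    split_ifs
    · fin_cases k <;> exact X.frobAt_mem h v _ _
    · fin_cases k <;> exact X.nilAt_mem h _ _ _
  · exact X.mem_max_of_eval (a := X.phiAt h w.1) (by rw [X.phiAt_eval h]; exact zero_mem _)
  · exact X.nilAt_mem h _ _ _

/-! ### Relations at the primes other than `p` -/

variable {i : Fin F.t} (hp : F.v i ≠ p)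
include hp

set_option linter.unusedSectionVars false in
theorem det_fr : (X.rep (F.fr i)).det = (F.v i : X.Ring) :=
  X.det_rep_frobenius (F.v_prime i) hp (F.place_lies i) (F.fr_spec i)

theorem tame_unipotent : (X.rep (F.tame i) - 1) * (X.rep (F.tame i) - 1) = 0 ∧
    (X.rep (F.tame i) - 1).trace = 0 :=
  X.rep_unipotent (F.v_prime i) (F.v_dvd_base i.2) hp (F.place_lies i) (F.tame_mem i)
    (h.unipE _ (F.v_prime i) (F.v_dvd_base i.2) hp _ (F.place_lies i) _ (F.tame_mem i))

theorem fr_mul_nil : X.rep (F.fr i) * X.nilAt i =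
    (F.v i : X.Ring) • (X.nilAt i * X.rep (F.fr i)) := by
  rw [nilAt, if_neg hp]
  exact X.frobenius_mul_nil (F.v_prime i) (F.v_dvd_base i.2) hp (F.place_lies i) (F.tame_mem i)
    (F.fr_spec i) (h.unipE _ (F.v_prime i) (F.v_dvd_base i.2) hp _ (F.place_lies i) _ (F.tame_mem i))
    (h.unrV i i.2 hp _ (F.place_lies i))

theorem trace_sq_nil :
    ((X.rep (F.fr i)).trace ^ 2 - (1 + (F.v i : X.Ring)) ^ 2) • X.nilAt i = 0 :=
  Galois.trace_sq_smul_nil X.natTorsionFree_ring (F.v_prime i).two_le (X.det_fr h hp)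
    (X.fr_mul_nil h hp)

omit hp

/-! ### Nodes -/

/-- `φ (φ + κ)`. -/
theorem phi_mul_kap (w : F.NdT) : X.phiAt h w.1 * (X.phiAt h w.1 + ι (h.kap w)) =
    if F.v w.1 = p then X.pAlpha ^ 2 - 1
      else (X.rep (F.fr w.1)).trace ^ 2 - (1 + (F.v w.1 : X.Ring)) ^ 2 := by
  rw [phiAt, Fixed.Hyp.kap]
  split_ifs with hp
  · have ha := congrArg ι (h.pSgn_sq (Fixed.dvd_base_of_eq hp))
    rw [map_pow, map_one] at ha
    rw [map_mul, map_ofNat]
    linear_combination -ha
  · have ha := congrArg ι (h.sgn_sq w.1)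
    rw [map_pow, map_one] at ha
    simp only [map_mul, map_add, map_one, map_ofNat, map_natCast]
    linear_combination -((1 + (F.v w.1 : X.Ring)) ^ 2) * ha

variable (hres : p ∣ F.base F.t → ∀ P : ValuationSubring QBar, P.LiesOverPrime p →
  ∃ w : Fin 2 → ResidueField O, w ≠ 0 ∧ OrdVec P (mapM (residue O) F.rhoE) w)
include hres

theorem p_rel {i : Fin F.t} (hp : F.v i = p) :
    X.rep (pTau p) - 1 =
      (clsAt X.rep X.pVec F.pEntry.1 (pTau p) *
        Ring.inverse (Galois.cross (Galois.other F.pEntry.1) X.pVec)) • lineMat X.pVec ∧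
    (X.pAlpha ^ 2 - 1) • (X.rep (pTau p) - 1) = 0 := by
  have hpb := Fixed.dvd_base_of_eq hp
  have hord := X.ordVec_rep h hpb (hres hpb)
  have : Finite (ResidueField X.Ring) :=
    Finite.of_surjective _ X.isResAlg_ring.map_bijective.2
  have hline := Galois.sub_one_eq_lineMat X.natCast_mem_ring X.det_congr_rep hord X.pVec_unit
    (pTau_spec p)
  have hz := Galois.z_sq_sub_one_mul_cls Galois.kummerInput Fact.out X.natCast_mem_ring X.isCont_rep
    X.det_congr_rep (padicPlace_liesOverPrime p) hord X.pVec_unit (pTau_spec p)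
    (Arith.mem_decomposition_iff.2 (Arith.isFrobeniusAt_iff_forall_mem.mp (Fixed.pFr_spec p)).1)
  refine ⟨hline, ?_⟩
  rw [hline, smul_smul, ← mul_assoc, show (X.pAlpha ^ 2 - 1) * clsAt X.rep X.pVec F.pEntry.1
    (pTau p) = 0 from hz, zero_mul, zero_smul]

/-- Both components. -/
theorem node_mul (w : F.NdT) (j : Fin 2 × Fin 2) :
    X.nilAt w.1 j.1 j.2 * (X.phiAt h w.1 * (X.phiAt h w.1 + ι (h.kap w))) = 0 := by
  rw [X.phi_mul_kap h w, mul_comm]
  split_ifs with hp
  · have := congrFun (congrFun (X.p_rel h hres hp).2 j.1) j.2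
    rwa [nilAt, if_pos hp]
  · exact congrFun (congrFun (X.trace_sq_nil h hp) j.1) j.2

/-- On the multiplicative component one entry gives the others. -/
theorem node_line (w : F.NdT) (j : Fin 2 × Fin 2) :
    ∃ c : X.Ring, (X.nilAt w.1 j.1 j.2 -
      c * X.nilAt w.1 (h.exists_j0 w).choose.1 (h.exists_j0 w).choose.2) *
        (X.phiAt h w.1 + ι (h.kap w)) = 0 := by
  obtain ⟨hj0p, hj0⟩ := (h.exists_j0 w).choose_spec
  by_cases hp : F.v w.1 = p
  · obtain ⟨hline, -⟩ := X.p_rel h hres hp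
    rw [hj0p hp, nilAt, if_pos hp, hline]
    simp only [Matrix.smul_apply, smul_eq_mul]
    obtain ⟨u, hu⟩ : IsUnit (lineMat X.pVec F.pEntry.1 (F.pEntry.1 + 1)) := by
      have hw := X.pVec_unit
      revert hw
      generalize F.pEntry.1 = e
      intro hw
      fin_cases e <;> simp [lineMat] at hw ⊢ <;> exact hw
    refine ⟨lineMat X.pVec j.1 j.2 * ↑u⁻¹, ?_⟩
    rw [← hu]
    linear_combination (-(clsAt X.rep X.pVec F.pEntry.1 (pTau p) *
      Ring.inverse (Galois.cross (Galois.other F.pEntry.1) X.pVec) * lineMat X.pVec j.1 j.2 *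
      (X.phiAt h w.1 + ι (h.kap w)))) * u.inv_mul
  · obtain ⟨k, l, m, n, hj, hkl, hmn⟩ := hj0 hp
    set a : X.Ring := ι (h.sgn w.1) with hadef
    have ha : a ^ 2 = 1 := by rw [hadef, ← map_pow, h.sgn_sq, map_one]
    set Fm := X.rep (F.fr w.1)
    have hsum : Fm.trace + a * (1 + (F.v w.1 : X.Ring)) = X.phiAt h w.1 + ι (h.kap w) := by
      rw [phiAt, Fixed.Hyp.kap, if_neg hp, if_neg hp, hadef]
      simp only [map_mul, map_add, map_one, map_ofNat, map_natCast]
      ring
    have hu : ∀ (c : O) (k l : Fin 2),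
        (F.rig.rb (F.fr w.1) - residue O c • 1) k l ≠ 0 → IsUnit ((Fm - ι c • 1) k l) := by
      intro c k l hne
      refine X.isUnit_of_eval ?_
      by_contra hcu
      refine hne ?_
      rw [← mem_nonunits_iff, ← mem_maximalIdeal, ← residue_eq_zero_iff, Matrix.sub_apply,
        Matrix.smul_apply, smul_eq_mul, map_sub, map_mul, AlgHom.commutes, Algebra.algebraMap_self,
        RingHom.id_apply, eval_rep_apply, map_sub, map_mul, residue_rhoE] at hcu
      rw [Matrix.sub_apply, Matrix.smul_apply, smul_eq_mul, ← hcu, Matrix.one_apply, Matrix.one_apply]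
      split_ifs <;> simp
    obtain ⟨c, hc⟩ := Galois.exists_mul_entry
      (Galois.nil_line_right X.natTorsionFree_ring (F.v_prime _).two_le (X.det_fr h hp)
        (X.fr_mul_nil h hp) ha)
      (Galois.nil_line_left X.natTorsionFree_ring (F.v_prime _).two_le (X.det_fr h hp)
        (X.fr_mul_nil h hp) ha)
      (hu _ k l hkl) (E := Fm - ((F.v w.1 : X.Ring) * a) • 1)
      (by
        have := hu _ m n hmn
        rwa [map_mul, map_natCast] at this) j
    refine ⟨c, ?_⟩
    rw [hj]
    simp only [Matrix.smul_apply, smul_eq_mul] at hc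
    rw [← hsum]
    linear_combination hc

omit hres

/-! ### Scalar places -/

theorem nilAt_trace (v : F.VsT) : X.nilAt v.1 1 1 = -X.nilAt v.1 0 0 := by
  have e := (X.tame_unipotent h v.2.1).2
  rw [Matrix.trace_fin_two] at e
  rw [nilAt, if_neg v.2.1]
  linear_combination e

set_option linter.unusedSectionVars false in
theorem frobAt_trace (i : Fin F.t) : X.frobAt i 1 1 = -X.frobAt i 0 0 := by
  have hc : (2 : X.Ring) * ι (half O p) = 1 := by
    rw [← map_ofNat ι 2, ← map_mul, two_mul_half, map_one]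
  simp only [frobAt, Matrix.sub_apply, Matrix.smul_apply, smul_eq_mul, Matrix.one_apply_eq, mul_one,
    Matrix.trace_fin_two]
  linear_combination -(X.rep (F.fr i) 0 0 + X.rep (F.fr i) 1 1) * hc

theorem conic_eq (v : F.VsT) :
    4 * (X.frobAt v.1 0 0 ^ 2 + X.frobAt v.1 0 1 * X.frobAt v.1 1 0 - ι (h.del v) ^ 2) =
      (X.rep (F.fr v.1)).trace ^ 2 - (1 + (F.v v.1 : X.Ring)) ^ 2 := by
  have hc : (2 : X.Ring) * ι (half O p) = 1 := by
    rw [← map_ofNat ι 2, ← map_mul, two_mul_half, map_one]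
  have ha := congrArg ι (h.sgn_sq v.1)
  rw [map_pow, map_one] at ha
  have hd := X.det_fr h v.2.1
  rw [Matrix.det_fin_two] at hd
  simp only [frobAt, Matrix.sub_apply, Matrix.smul_apply, smul_eq_mul, Matrix.trace_fin_two,
    Matrix.one_apply_eq, ne_eq, zero_ne_one, not_false_eq_true, Matrix.one_apply_ne, one_ne_zero,
    mul_one, mul_zero, sub_zero, Fixed.Hyp.del, map_mul, map_sub, map_one, map_natCast]
  set c := ι (half O p)
  set a := ι (h.sgn v.1)
  set A := X.rep (F.fr v.1) 0 0
  set D := X.rep (F.fr v.1) 1 1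
  set V := (F.v v.1 : X.Ring)
  linear_combination (-4 * A * (A + D) + (A + D) ^ 2 * (2 * c + 1)
    - (V - 1) ^ 2 * a ^ 2 * (2 * c + 1)) * hc - (V - 1) ^ 2 * ha - 4 * hd

theorem scalar_mul (v : F.VsT) (a b : Fin 2) :
    X.nilAt v.1 a b * (X.frobAt v.1 0 0 ^ 2 + X.frobAt v.1 0 1 * X.frobAt v.1 1 0 -
      ι (h.del v) ^ 2) = 0 := by
  refine X.natTorsionFree_ring 4 (by norm_num) _ ?_
  have e := congrFun (congrFun (X.trace_sq_nil h v.2.1) a) b
  rw [← X.conic_eq h v, Matrix.smul_apply, smul_eq_mul, Matrix.zero_apply] at e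
  push_cast
  linear_combination e

theorem scalar_rel (v : F.VsT) :
    X.nilAt v.1 * (X.frobAt v.1 + ι (h.del v) • 1) = 0 ∧
      (X.frobAt v.1 - ι (h.del v) • 1) * X.nilAt v.1 = 0 := by
  have ha : ι (h.sgn v.1) ^ 2 = 1 := by rw [← map_pow, h.sgn_sq, map_one]
  have hu : IsUnit ((X.rep (F.fr v.1)).trace + ι (h.sgn v.1) * (1 + (F.v v.1 : X.Ring))) := by
    refine X.isUnit_of_eval ?_
    rw [map_add, eval_trace, h.trace_fr v.1 v.2.1, map_mul, AlgHom.commutes, map_add, map_one,
      map_natCast, Algebra.algebraMap_self, RingHom.id_apply, ← two_mul, ← mul_assoc]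
    refine (isUnit_two_mul p (h.sgn_sq v.1)).mul ?_
    rw [← not_not (a := IsUnit _), ← mem_nonunits_iff, ← mem_maximalIdeal, ← residue_eq_zero_iff,
      map_add, map_one, h.residue_v v, one_add_one_eq_two, ← Nat.cast_ofNat,
      CharP.cast_eq_zero_iff _ p]
    exact fun hd => (Fact.out : p ≠ 2) ((Nat.prime_dvd_prime_iff_eq Fact.out Nat.prime_two).1 hd)
  have := Galois.scalar_rel X.natTorsionFree_ring (F.v_prime _).two_le (X.det_fr h v.2.1)
    (X.fr_mul_nil h v.2.1) ha hu
    (show 2 * ι (half O p) = 1 by rw [← map_ofNat ι 2, ← map_mul, two_mul_half, map_one])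
  rw [show ι (h.del v) = ι (half O p) * (ι (h.sgn v.1) * ((F.v v.1 : X.Ring) - 1)) by
    simp [Fixed.Hyp.del]]
  exact this

end Aux

end Fermat.Agent.RT.Lift59.Levels

end
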