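import Fermat.Agent.RT.Lift59.Levels.Ring
import Fermat.Agent.RT.Lift59.Galois.NodeRel
import Fermat.Agent.RT.Lift59.Galois.OrdDescend
import Fermat.Agent.RT.Patch.Local
import Fermat.Agent.RT.Patch.Descend

/-!
# Galois facts over the ring of the levels

The determinant is cyclotomic, natural numbers are regular, the representation is a normalised
lift, inertia is unipotent at the primes of the level and satisfies the tame relation.
-/

set_option autoImplicit false

noncomputable section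

namespace Fermat.Agent.RT.Lift59.Levels

open IsLocalRing
open GaloisReps (AbsGal)
open Fermat.Agent.Deform (M2 IsCont IsResAlg augment mapM corestrict toRep Lifts IsNormal)
open Fermat.Agent.RT.Lift59.Galois (NatTorsionFree)

variable {O : Type} [CommRing O] [IsDomain O] [IsDiscreteValuationRing O]
  [IsAdicComplete (maximalIdeal O) O] [Finite (ResidueField O)] [CharZero O]
  {p : ℕ} [Fact p.Prime] [Fact (p ≠ 2)] [CharP (ResidueField O) p]
  {F : Fixed O p} {R n : ℕ} (X : Aux F R n)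

namespace Fixed

variable (F)

omit [IsAdicComplete (maximalIdeal O) O] [Finite (ResidueField O)] [CharZero O]
    [Fact (Nat.Prime p)] [Fact (p ≠ 2)] [CharP (ResidueField O) p] in
theorem det_congr_rhoE (k : ℕ) (σ : AbsGal) (a : ℕ)
    (ha : ∀ μ : AlgebraicClosure ℚ, μ ^ p ^ k = 1 → σ μ = μ ^ a) :
    (F.rhoE σ).det - a ∈ Ideal.span {(p : O) ^ k} := by
  have h := F.detE.2 k σ a ha
  rw [show LinearMap.det ((toRep F.rhoE F.cont).ρ σ) = (F.rhoE σ).det from LinearMap.det_toLin' _,
    Nat.cast_pow] at h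
  exact h

end Fixed

namespace Aux

theorem natCast_mem_ring : (p : X.Ring) ∈ maximalIdeal X.Ring :=
  Galois.natCast_mem_maximalIdeal X.isResAlg_ring natCast_mem_max

theorem natTorsionFree_alg : NatTorsionFree X.Alg := fun m hm x hx =>
  Glue.eq_zero_of_forall_point fun θ => by
    have h := congrArg θ hx
    rw [map_mul, map_natCast, map_zero] at h
    exact (mul_eq_zero.1 h).resolve_left (Nat.cast_ne_zero.2 hm)

theorem natTorsionFree_ring : NatTorsionFree X.Ring := fun m hm x hx => X.ring_ext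
  (by
    rw [map_zero]
    exact X.natTorsionFree_alg m hm _ (by rw [← map_natCast X.pr, ← map_mul, hx, map_zero]))
  (by
    rw [map_zero]
    have h := congrArg X.eval hx
    rw [map_mul, map_natCast, map_zero] at h
    exact (mul_eq_zero.1 h).resolve_left (Nat.cast_ne_zero.2 hm))

theorem det_congr_repP (k : ℕ) (σ : AbsGal) (a : ℕ)
    (ha : ∀ μ : AlgebraicClosure ℚ, μ ^ p ^ k = 1 → σ μ = μ ^ a) :
    (X.repP σ).det - a ∈ Ideal.span {(p : X.fib) ^ k} := by
  obtain ⟨a', ha'⟩ := Glue.exists_exponent (p := p) σ (k + 1)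
  have hna : (a : X.fib) - a' ∈ Ideal.span {(p : X.fib) ^ k} :=
    Glue.natCast_congr_of_roots ha fun μ hμ => ha' μ (by rw [pow_succ, pow_mul, hμ, one_pow])
  obtain ⟨y₁, hy₁⟩ := Ideal.mem_span_singleton'.1 (X.det_congr_rhoT (k + 1) σ a' ha')
  obtain ⟨y₂, hy₂⟩ := Ideal.mem_span_singleton'.1 (F.det_congr_rhoE (k + 1) σ a' ha')
  have hmem : ((p : X.Alg) * y₁, (p : O) * y₂) ∈ X.fib := by
    rw [mem_fib, map_mul, map_mul, map_natCast, map_natCast, CharP.cast_eq_zero, zero_mul, zero_mul]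
  have hd : (X.repP σ).det - a' = (p : X.fib) ^ k * ⟨_, hmem⟩ := by
    refine Subtype.ext (Prod.ext ?_ ?_)
    · refine Eq.trans (b := (X.rhoT σ).det - a') ?_ ?_
      · simp only [Matrix.det_fin_two]; rfl
      · rw [← hy₁, pow_succ]
        show _ = (p : X.Alg) ^ k * ((p : X.Alg) * y₁)
        ring
    · refine Eq.trans (b := (F.rhoE σ).det - a') ?_ ?_
      · simp only [Matrix.det_fin_two]; rfl
      · rw [← hy₂, pow_succ]
        show _ = (p : O) ^ k * ((p : O) * y₂)
        ring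
  rw [show (X.repP σ).det - a = ((X.repP σ).det - a') - ((a : X.fib) - a') by ring]
  exact sub_mem (Ideal.mem_span_singleton'.2 ⟨_, (mul_comm _ _).trans hd.symm⟩) hna

theorem detIsCyclotomic_rep : (toRep X.rep X.isCont_rep).DetIsCyclotomic p :=
  Patch.detIsCyclotomic_corestrict X.isResAlg_fib natCast_mem_max X.ringSub
    (fun σ i j => Algebra.subset_adjoin ⟨(σ, i, j), rfl⟩) X.det_congr_repP X.isCont_rep

theorem det_congr_rep (k : ℕ) (σ : AbsGal) (a : ℕ)
    (ha : ∀ μ : AlgebraicClosure ℚ, μ ^ p ^ k = 1 → σ μ = μ ^ a) :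
    (X.rep σ).det - a ∈ Ideal.span {(p : X.Ring) ^ k} := by
  have h := X.detIsCyclotomic_rep.2 k σ a ha
  rw [show LinearMap.det ((toRep X.rep X.isCont_rep).ρ σ) = (X.rep σ).det from
    LinearMap.det_toLin' _, Nat.cast_pow] at h
  exact h

theorem det_rep_frobenius {v : ℕ} (hv : v.Prime) (hvp : v ≠ p)
    {A : ValuationSubring (AlgebraicClosure ℚ)} (hA : A.LiesOverPrime v) {Fr : AbsGal}
    (hFr : A.IsFrobeniusAt Fr v) : (X.rep Fr).det = (v : X.Ring) :=
  Patch.eq_natCast_of_forall_congr X.natCast_mem_ring fun k => X.det_congr_rep k Fr v fun _ hμ =>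
    GaloisReps.frobenius_apply_root hA hv hFr hμ fun h =>
      hvp ((Nat.prime_dvd_prime_iff_eq hv Fact.out).1 (hv.dvd_of_dvd_pow h))

theorem det_rep_inertia {v : ℕ} (hv : v.Prime) (hvp : v ≠ p)
    {A : ValuationSubring (AlgebraicClosure ℚ)} (hA : A.LiesOverPrime v) {σ : AbsGal}
    (hσ : σ ∈ A.inertiaSubgroupIn ℚ) : (X.rep σ).det = 1 := by
  rw [← Nat.cast_one]
  exact Patch.eq_natCast_of_forall_congr X.natCast_mem_ring fun k =>
    X.det_congr_rep k σ 1 fun μ hμ => by
      rw [pow_one]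
      exact Arith.inertia_root hA hv hσ hμ fun h =>
        hvp ((Nat.prime_dvd_prime_iff_eq hv Fact.out).1 (hv.dvd_of_dvd_pow h))

theorem lifts_rep : Lifts F.rig X.isResAlg_ring X.rep := fun σ i j => by
  rw [X.augment_rep, F.rig_rb, ← F.res]
  rfl

theorem isNormal_rep : IsNormal F.rig X.rep := by
  have h1 := X.isNormal_rhoT
  rw [← X.pr_rep] at h1
  have h2 := F.isNormal_rhoE
  rw [← X.eval_rep] at h2
  simp only [IsNormal, Deform.evalC_map] at h1 h2
  exact ⟨X.ring_ext (by rw [h1.1, map_zero]) (by rw [h2.1, map_zero]),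
    X.ring_ext (by rw [h1.2.1, map_zero]) (by rw [h2.2.1, map_zero]),
    X.ring_ext (by rw [h1.2.2, map_one]) (by rw [h2.2.2, map_one])⟩

theorem residue_rep (σ : AbsGal) (i j : Fin 2) :
    augment X.isResAlg_ring (X.rep σ i j) = F.rig.rb σ i j := X.lifts_rep σ i j

theorem sub_one_mem_of_residual {σ : AbsGal} (h : F.rig.rb σ = 1) (a b : Fin 2) :
    (X.rep σ - 1) a b ∈ maximalIdeal X.Ring := by
  rw [← Deform.augment_eq_zero_iff X.isResAlg_ring, Matrix.sub_apply, map_sub, X.residue_rep, h,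
    Matrix.one_apply, Matrix.one_apply]
  split_ifs <;> simp

/-- Unipotent at the primes of the level. -/
theorem rep_unipotent {v : ℕ} (hv : v.Prime) (hvT : v ∣ F.base F.t) (hvp : v ≠ p)
    {A : ValuationSubring (AlgebraicClosure ℚ)} (hA : A.LiesOverPrime v) {σ : AbsGal}
    (hσ : σ ∈ A.inertiaSubgroupIn ℚ) (hE : (F.rhoE σ).trace = 2) :
    (X.rep σ - 1) * (X.rep σ - 1) = 0 ∧ (X.rep σ - 1).trace = 0 := by
  have htr : (X.rep σ).trace = 2 := X.ring_ext
    (by
      rw [pr_trace, map_ofNat]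
      have h := Galois.trace_sub_one_of_charpoly (X.rhoT_unipotent hv hvT hvp hA hσ)
      rw [Matrix.trace_sub, Matrix.trace_one, Fintype.card_fin, Nat.cast_two, sub_eq_zero] at h
      exact h)
    (by rw [eval_trace, map_ofNat, hE])
  have hdet := X.det_rep_inertia hv hvp hA hσ
  refine ⟨?_, by rw [Matrix.trace_sub, Matrix.trace_one, Fintype.card_fin, Nat.cast_two, htr,
    sub_self]⟩
  rw [Matrix.trace_fin_two] at htr
  rw [Matrix.det_fin_two] at hdet
  ext i j
  fin_cases i <;> fin_cases j <;>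
    simp [Matrix.mul_apply, Fin.sum_univ_two] <;>
    first
      | linear_combination (X.rep σ 0 0) * htr - hdet
      | linear_combination (X.rep σ 1 1) * htr - hdet
      | linear_combination (X.rep σ 0 1) * htr
      | linear_combination (X.rep σ 1 0) * htr

/-- The tame relation on the nilpotent part. -/
theorem frobenius_mul_nil {v : ℕ} (hv : v.Prime) (hvT : v ∣ F.base F.t) (hvp : v ≠ p)
    {A : ValuationSubring (AlgebraicClosure ℚ)} (hA : A.LiesOverPrime v) {σ Fr : AbsGal}
    (hσ : σ ∈ A.inertiaSubgroupIn ℚ) (hFr : A.IsFrobeniusAt Fr v) (hE : (F.rhoE σ).trace = 2)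
    (hI : ∀ τ ∈ A.inertiaSubgroupIn ℚ, F.rig.rb τ = 1) :
    X.rep Fr * (X.rep σ - 1) = (v : X.Ring) • ((X.rep σ - 1) * X.rep Fr) :=
  Galois.mul_nil_of_conj_pow (X.rep_unipotent hv hvT hvp hA hσ hE).1
    (Patch.frobenius_mul_inertia Fact.out X.natCast_mem_ring X.isCont_rep hv hvp hA
      (fun τ hτ => X.sub_one_mem_of_residual (hI τ hτ)) hσ hFr)

/-- The relations over the ring at an unramified place of the level. -/
theorem rep_unramified {v : ℕ} (hv : v.Prime) (hvX : ¬ v ∣ X.top) (hvp : v ≠ p)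
    {A : ValuationSubring (AlgebraicClosure ℚ)} (hA : A.LiesOverPrime v) {σ : AbsGal}
    (hσ : σ ∈ A.inertiaSubgroupIn ℚ) : X.rep σ = 1 := by
  have hb : ¬ v ∣ F.bad := fun h => by
    rw [← F.base_top_mul] at h
    rcases hv.dvd_mul.1 h with h | h
    · exact hvX (by rw [top, X.lvl_eq]; exact h.mul_right _)
    · exact hvp ((Nat.prime_dvd_prime_iff_eq hv Fact.out).1 h)
  refine Matrix.ext fun i j => X.ring_ext ?_ ?_
  · rw [show X.pr (X.rep σ i j) = X.rhoT σ i j from rfl, X.rhoT_unramified hv hvX hvp hA hσ,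
      Matrix.one_apply, Matrix.one_apply]
    split_ifs <;> simp
  · rw [show X.eval (X.rep σ i j) = F.rhoE σ i j from rfl, F.unrE v hv hb A hA σ hσ,
      Matrix.one_apply, Matrix.one_apply]
    split_ifs <;> simp

end Aux

end Fermat.Agent.RT.Lift59.Levels

end
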