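import Fermat.Agent.RT.Lift59.Galois.Places
import Fermat.Agent.RT.Lift59.Chain.Data

/-!
# The shape of the levels

The flipped primes are the scalar places and the nodes; a flip at `p` is a node. The entry of
`N` generating the others at a node is read off the residual representation.
-/

set_option autoImplicit false

noncomputable section

namespace Fermat.Agent.RT.Lift59.Levels

open IsLocalRing
open Fermat.Agent.Deform (M2 Gal)
open Fermat.Agent.Arith (QBar)
open Fermat.Agent.RT.Lift59.Galois (IsTauStar)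

variable {O : Type} [CommRing O] [IsDomain O] [IsDiscreteValuationRing O]
  [IsAdicComplete (maximalIdeal O) O] [Finite (ResidueField O)] [CharZero O]
  {p : ℕ} [Fact p.Prime] [Fact (p ≠ 2)] [CharP (ResidueField O) p]

variable (p) in
/-- The inertia element seeing the `p`-part. -/
def pTau : Gal := (Galois.tauInput p Fact.out Fact.out (padicPlace p)
  (CFT.Local.padicPlace_liesOverPrime p)).choose

variable (p) in
theorem pTau_spec : IsTauStar (padicPlace p) p (pTau p) :=
  (Galois.tauInput p Fact.out Fact.out (padicPlace p)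
    (CFT.Local.padicPlace_liesOverPrime p)).choose_spec

variable (O p) in
include p in
omit [IsAdicComplete (maximalIdeal O) O] [Finite (ResidueField O)] [CharZero O] in
theorem exists_half : ∃ c : O, 2 * c = 1 := by
  have h2 : IsUnit ((2 : ℕ) : O) := by
    rw [← not_not (a := IsUnit _), ← mem_nonunits_iff, ← mem_maximalIdeal, ← residue_eq_zero_iff,
      map_natCast, CharP.cast_eq_zero_iff _ p]
    exact fun h => (Fact.out : p ≠ 2) ((Nat.prime_dvd_prime_iff_eq Fact.out Nat.prime_two).1 h)
  obtain ⟨c, hc⟩ := isUnit_iff_exists_inv.1 h2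
  exact ⟨c, by rw [← Nat.cast_ofNat]; exact hc⟩

variable (O p) in
/-- The inverse of `2`. -/
def half : O := (exists_half O p).choose

omit [IsAdicComplete (maximalIdeal O) O] [Finite (ResidueField O)] [CharZero O] in
theorem two_mul_half : (2 : O) * half O p = 1 := (exists_half O p).choose_spec

variable (p) in
include p in
omit [IsAdicComplete (maximalIdeal O) O] [Finite (ResidueField O)] [CharZero O] in
theorem isUnit_two_mul {a : O} (ha : a ^ 2 = 1) : IsUnit ((2 : O) * a) :=
  IsUnit.of_mul_eq_one (half O p * a)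
    (show (2 * a) * (half O p * a) = 1 by
      rw [show (2 * a) * (half O p * a) = (2 * half O p) * a ^ 2 by ring, two_mul_half, ha, one_mul])

omit [IsDomain O] [IsDiscreteValuationRing O] [IsAdicComplete (maximalIdeal O) O]
    [Finite (ResidueField O)] in
theorem one_add_natCast_ne_zero (v : ℕ) : (1 + (v : O)) ≠ 0 := by
  rw [← Nat.cast_one, ← Nat.cast_add]
  exact Nat.cast_ne_zero.2 (by omega)

namespace Fixed

variable (F : Fixed O p)

/-- The nodes. -/
abbrev NdT : Type := {i : Fin F.t // ¬ F.IsVs i}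

/-- The scalar places. -/
abbrev VsT : Type := {i : Fin F.t // F.IsVs i}

/-- The order of the places. -/
def ordT : Fin F.t ≃ F.NdT ⊕ F.VsT := by
  classical
  exact ((Equiv.sumCompl fun i : Fin F.t => F.IsVs i).symm).trans (Equiv.sumComm _ _)

omit [IsAdicComplete (maximalIdeal O) O] [Finite (ResidueField O)] [CharZero O]
    [Fact (Nat.Prime p)] [Fact (p ≠ 2)] [CharP (ResidueField O) p] in
theorem ordT_inl {i : Fin F.t} {w : F.NdT} (h : F.ordT i = Sum.inl w) : w.1 = i := by
  classical
  by_cases hi : F.IsVs i <;> simp [ordT, hi] at h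
  exact (congrArg Subtype.val h).symm

omit [IsAdicComplete (maximalIdeal O) O] [Finite (ResidueField O)] [CharZero O]
    [Fact (Nat.Prime p)] [Fact (p ≠ 2)] [CharP (ResidueField O) p] in
theorem ordT_inr {i : Fin F.t} {w : F.VsT} (h : F.ordT i = Sum.inr w) : w.1 = i := by
  classical
  by_cases hi : F.IsVs i <;> simp [ordT, hi] at h
  exact (congrArg Subtype.val h).symm

variable {F}

omit [IsAdicComplete (maximalIdeal O) O] [Finite (ResidueField O)] [CharZero O]
    [Fact (Nat.Prime p)] [Fact (p ≠ 2)] [CharP (ResidueField O) p] in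
theorem dvd_base_of_eq {i : Fin F.t} (h : F.v i = p) : p ∣ F.base F.t := by
  have := F.v_dvd_base i.2
  rwa [h] at this

namespace Hyp

variable (h : F.Hyp)
include h

omit [IsAdicComplete (maximalIdeal O) O] [Finite (ResidueField O)] [CharZero O] [Fact (p ≠ 2)]
    [CharP (ResidueField O) p] in
theorem not_scalar (w : F.NdT) (hp : F.v w.1 ≠ p) (c : ResidueField O) :
    F.rig.rb (F.fr w.1) ≠ c • 1 :=
  Fixed.ne_smul_of_not_isScalar (F.v_prime _) (h.unrV _ w.1.2 hp)
    (fun hs => w.2 ⟨hp, hs⟩) (F.place_lies _) (F.fr_spec _) c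

omit [IsAdicComplete (maximalIdeal O) O] [Finite (ResidueField O)] [CharZero O] in
theorem exists_j0 (w : F.NdT) : ∃ j : Fin 2 × Fin 2,
    (F.v w.1 = p → j = (F.pEntry.1, F.pEntry.1 + 1)) ∧
    (F.v w.1 ≠ p → ∃ k l m n : Fin 2, j = (n + 1, k + 1) ∧
      (F.rig.rb (F.fr w.1) - residue O (h.sgn w.1) • 1) k l ≠ 0 ∧
      (F.rig.rb (F.fr w.1) - residue O ((F.v w.1 : O) * h.sgn w.1) • 1) m n ≠ 0) := by
  by_cases hp : F.v w.1 = p
  · exact ⟨_, fun _ => rfl, fun h' => absurd hp h'⟩
  · have hne : ∀ c : ResidueField O, ∃ k l, (F.rig.rb (F.fr w.1) - c • 1) k l ≠ 0 := fun c => by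
      by_contra hno
      push Not at hno
      exact h.not_scalar w hp c (sub_eq_zero.1 (Matrix.ext hno))
    obtain ⟨k, l, hkl⟩ := hne (residue O (h.sgn w.1))
    obtain ⟨m, n, hmn⟩ := hne (residue O ((F.v w.1 : O) * h.sgn w.1))
    exact ⟨_, fun h' => absurd h' hp, fun _ => ⟨k, l, m, n, rfl, hkl, hmn⟩⟩

/-- The difference of the two values of `φ` at a node. -/
def kap (w : F.NdT) : O := by
  classical
  exact if F.v w.1 = p then 2 * F.pSgn else 2 * (h.sgn w.1 * (1 + (F.v w.1 : O)))

omit [IsAdicComplete (maximalIdeal O) O] [Finite (ResidueField O)] in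
theorem kap_ne (w : F.NdT) : h.kap w ≠ 0 := by
  rw [kap]
  split_ifs with hp
  · exact (isUnit_two_mul p (h.pSgn_sq (dvd_base_of_eq hp))).ne_zero
  · exact mul_ne_zero two_ne_zero (mul_ne_zero (fun h0 => zero_ne_one (α := O)
      (by rw [← h.sgn_sq w.1, h0, zero_pow two_ne_zero])) (one_add_natCast_ne_zero _))

/-- `δ` at a scalar place. -/
def del (v : F.VsT) : O := half O p * (h.sgn v.1 * ((F.v v.1 : O) - 1))

omit [IsAdicComplete (maximalIdeal O) O] [Finite (ResidueField O)] in
theorem del_ne (v : F.VsT) : h.del v ≠ 0 := by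
  refine mul_ne_zero (fun h0 => zero_ne_one (α := O) ?_) (mul_ne_zero (fun h0 =>
    zero_ne_one (α := O) (by rw [← h.sgn_sq v.1, h0, zero_pow two_ne_zero])) ?_)
  · rw [← two_mul_half (O := O) (p := p), h0, mul_zero]
  · rw [sub_ne_zero, ← Nat.cast_one, Ne, Nat.cast_inj]
    exact (F.v_prime v.1).ne_one

omit [Finite (ResidueField O)] [CharZero O] [Fact (p ≠ 2)] in
/-- The residual scalar squares to `v`, so `v ≡ 1`. -/
theorem residue_v (v : F.VsT) : residue O (F.v v.1 : O) = 1 := by
  obtain ⟨hp, hs⟩ := v.2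
  obtain ⟨c, hc⟩ := hs _ (F.place_lies v.1) _ (F.fr_spec v.1)
  set V := F.v v.1
  have hrb : F.rig.rb (F.fr v.1) = (residue O).mapMatrix (F.rhoE (F.fr v.1)) := by
    rw [F.rig_rb, ← F.res]; rfl
  have hdet : (F.rhoE (F.fr v.1)).det = (V : O) :=
    Patch.eq_natCast_of_forall_congr natCast_mem_max fun k => F.det_congr_rhoE k _ V fun μ hμ =>
      GaloisReps.frobenius_apply_root (F.place_lies v.1) (F.v_prime v.1) (F.fr_spec v.1) hμ
        fun hd => hp ((Nat.prime_dvd_prime_iff_eq (F.v_prime v.1) Fact.out).1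
          ((F.v_prime v.1).dvd_of_dvd_pow hd))
  have hd := congrArg (residue O) hdet
  rw [RingHom.map_det, ← hrb, hc, Matrix.det_smul, Matrix.det_one, Fintype.card_fin, mul_one] at hd
  have ht := congrArg (residue O) (h.trace_fr v.1 hp)
  rw [Matrix.trace_fin_two, map_add, show residue O (F.rhoE (F.fr v.1) 0 0) = c by
      have := congrFun (congrFun (hrb.symm.trans hc) 0) 0; simpa using this,
    show residue O (F.rhoE (F.fr v.1) 1 1) = c by
      have := congrFun (congrFun (hrb.symm.trans hc) 1) 1; simpa using this,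
    map_mul, map_add, map_one] at ht
  have ha := congrArg (residue O) (h.sgn_sq v.1)
  rw [map_pow, map_one] at ha
  have e : (residue O (V : O) - 1) ^ 2 = 0 := by
    linear_combination -(c + c + residue O (h.sgn v.1) * (1 + residue O (V : O))) * ht + 4 * hd
      - (1 + residue O (V : O)) ^ 2 * ha
  rwa [sq_eq_zero_iff, sub_eq_zero] at e

omit [Finite (ResidueField O)] [CharZero O] in
theorem del_mem (v : F.VsT) : h.del v ∈ maximalIdeal O := by
  rw [← residue_eq_zero_iff, del, map_mul, map_mul, map_sub, h.residue_v v, map_one, sub_self,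
    mul_zero, mul_zero]

/-- **The shape.** -/
def shape (R : ℕ) (hR : Nat.card F.NdT + 3 * Nat.card F.VsT ≤ R) : Chain.Shape O where
  R := R
  g := R - Nat.card F.NdT - 3 * Nat.card F.VsT
  t := F.t
  Nd := F.NdT
  Vs := F.VsT
  ord := F.ordT
  κ := h.kap
  j₀ w := (h.exists_j0 w).choose
  δ := h.del
  κ_ne := h.kap_ne
  δ_ne := h.del_ne
  δ_mem := h.del_mem
  count := by omega

end Hyp

end Fixed

end Fermat.Agent.RT.Lift59.Levels

end
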