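import Fermat.Agent.RT.Lift59.Galois.Relations
import Fermat.Agent.RT.Lift59.Galois.Ready
import Fermat.Agent.RT.Lift59.Primes
import Fermat.Agent.RT.Lift59.NodeClass
import Fermat.Agent.RT.Patch.Tangent

/-!
# The derivations killing the coordinates of the places are few

Their classes satisfy the conditions of the auxiliary primes.
-/

set_option autoImplicit false
set_option linter.style.haveILetI false

noncomputable section

namespace Fermat.Agent.RT.Lift59.Levels

open IsLocalRing Module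
open Fermat.Agent.Deform
open Fermat.Agent.Arith (QBar)
open Fermat.Agent.CFT.Tangent
open Fermat.Agent.CFT.Local (padicPlace_liesOverPrime)
open Fermat.Agent.RT.Lift59.Galois (OrdVec zAt IsTauStar)
open scoped Matrix

variable {O : Type} [CommRing O] [IsDomain O] [IsDiscreteValuationRing O]
  [IsAdicComplete (maximalIdeal O) O] [Finite (ResidueField O)] [CharZero O]
  {p : ℕ} [Fact p.Prime] [Fact (p ≠ 2)] [CharP (ResidueField O) p]
  {F : Fixed O p}

namespace Fixed

variable (F)

/-- The ramified primes other than `p`. -/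
def setZ : Finset ℕ := F.L.primeFactors.erase p

/-- The scalar primes. -/
def setV : Finset ℕ := by
  classical
  exact (Finset.univ.filter fun i : Fin F.t => F.IsVs i).image fun i : Fin F.t => F.v i

/-- The nodes other than `p`. -/
def setU : Finset ℕ := by
  classical
  exact ((Finset.univ.filter fun i : Fin F.t => ¬ F.IsVs i).image fun i : Fin F.t => F.v i).erase p

/-- The condition at `p`. -/
def atP : AtP :=
  if p ∣ F.L then .strict else if p ∣ F.base F.t then .node (pTau p) else .flat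

omit [IsAdicComplete (maximalIdeal O) O] [Finite (ResidueField O)] [CharZero O] [Fact p.Prime]
  [Fact (p ≠ 2)] [CharP (ResidueField O) p] in
theorem v_injective : Function.Injective fun i : Fin F.t => F.v i :=
  fun i j h => Fin.ext (F.v_inj i i.2 j j.2 h)

omit [IsAdicComplete (maximalIdeal O) O] [Finite (ResidueField O)] [CharZero O]
    [Fact (Nat.Prime p)] [Fact (p ≠ 2)] [CharP (ResidueField O) p] in
theorem mem_setV {v : ℕ} : v ∈ F.setV ↔ ∃ i : Fin F.t, F.IsVs i ∧ F.v i = v := by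
  simp [setV]

omit [IsAdicComplete (maximalIdeal O) O] [Finite (ResidueField O)] [CharZero O]
    [Fact (Nat.Prime p)] [Fact (p ≠ 2)] [CharP (ResidueField O) p] in
theorem mem_setU {v : ℕ} : v ∈ F.setU ↔ v ≠ p ∧ ∃ i : Fin F.t, ¬ F.IsVs i ∧ F.v i = v := by
  simp [setU]

omit [IsAdicComplete (maximalIdeal O) O] [Finite (ResidueField O)] [CharZero O] [Fact (p ≠ 2)]
  [CharP (ResidueField O) p] in
omit [Fact (Nat.Prime p)] in
theorem mem_setZ {v : ℕ} : v ∈ F.setZ ↔ v ≠ p ∧ v.Prime ∧ v ∣ F.L := by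
  simp [setZ, F.L_ne_zero]

omit [IsAdicComplete (maximalIdeal O) O] [Finite (ResidueField O)] [CharZero O]
    [Fact (Nat.Prime p)] [Fact (p ≠ 2)] [CharP (ResidueField O) p] in
theorem card_VsT : Nat.card F.VsT = F.setV.card := by
  classical
  rw [setV, Finset.card_image_of_injective _ F.v_injective, Nat.card_eq_fintype_card,
    Fintype.card_subtype]

omit [IsAdicComplete (maximalIdeal O) O] [Finite (ResidueField O)] [CharZero O]
    [CharP (ResidueField O) p] in
theorem card_NdT : Nat.card F.NdT ≤ F.setU.card + F.atP.saved := by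
  classical
  rw [Nat.card_eq_fintype_card, Fintype.card_subtype, setU]
  set s := (Finset.univ.filter fun i : Fin F.t => ¬ F.IsVs i)
  rw [← Finset.card_image_of_injective s F.v_injective]
  by_cases hp : p ∈ s.image fun i : Fin F.t => F.v i
  · obtain ⟨i, -, hi⟩ := Finset.mem_image.1 hp
    have hL : ¬ p ∣ F.L := fun hd => F.v_not_dvd i i.2 ((dvd_of_eq hi).trans hd)
    rw [atP, if_neg hL, if_pos (dvd_base_of_eq hi)]
    exact (Finset.card_erase_add_one hp).ge
  · rw [Finset.erase_eq_of_notMem hp]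
    exact Nat.le_add_right _ _

end Fixed

namespace Aux

variable {R n : ℕ} (X : Aux F R n)

omit [IsAdicComplete (maximalIdeal O) O] [Finite (ResidueField O)] [CharZero O]
    [Fact (Nat.Prime p)] [Fact (p ≠ 2)] [CharP (ResidueField O) p] in
theorem finiteLevel_rb : GaloisFactorsThroughFiniteLevel F.rig.rb := by
  obtain ⟨L, hL, hL'⟩ := F.cont 1
  refine ⟨L, hL, fun σ hσ => Matrix.ext fun i j => ?_⟩
  have h := hL' σ hσ i j
  rw [pow_one, ← residue_eq_zero_iff, map_sub, residue_rhoE] at h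
  rw [sub_eq_zero.1 h, Matrix.one_apply, Matrix.one_apply]
  split_ifs <;> simp

variable (h : F.Ready)
include h

omit [IsAdicComplete (maximalIdeal O) O] [Finite (ResidueField O)] [CharZero O] in
theorem res_ordinary (hp : p ∣ F.base F.t) (P : ValuationSubring QBar) (hP : P.LiesOverPrime p) :
    ∃ w : Fin 2 → ResidueField O, w ≠ 0 ∧ OrdVec P (mapM (residue O) F.rhoE) w := by
  obtain ⟨g, rfl⟩ := Arith.exists_smul_eq (padicPlace_liesOverPrime p) hP (Fact.out : p.Prime)
  have h0 := (h.hyp.ordVec_pVec hp).smul_place g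
  obtain ⟨j, hj⟩ := Galois.exists_isUnit_mulVec (r := F.rhoE) (w := F.pVec) F.pEntry_unit g
  set u := F.rhoE g *ᵥ F.pVec
  have key : ∀ (σ : Gal) (v : Fin 2 → O),
      mapM (residue O) F.rhoE σ *ᵥ (residue O ∘ v) = residue O ∘ (F.rhoE σ *ᵥ v) :=
    fun σ v => (funext fun a => (residue O).map_mulVec (F.rhoE σ) v a).symm
  refine ⟨residue O ∘ u, fun h0' => (residue_ne_zero_iff_isUnit _).2 hj (congrFun h0' j),
    fun σ hσ => ?_, fun σ hσ v => ?_⟩
  · rw [key, ← Galois.map_cross, h0.dec σ hσ, map_zero]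
  · choose v' hv' using fun a => residue_surjective (v a)
    obtain rfl : residue O ∘ v' = v := funext hv'
    rw [key, show residue O ∘ (F.rhoE σ *ᵥ v') - residue O ∘ v' =
      residue O ∘ (F.rhoE σ *ᵥ v' - v') from funext fun a => (map_sub (residue O) _ _).symm,
      ← Galois.map_cross, h0.inert σ hσ, map_zero]

theorem ordVec_ring (hp : p ∣ F.base F.t) : OrdVec (padicPlace p) X.rep X.pVec :=
  X.ordVec_rep h.hyp hp (res_ordinary h hp)

omit [IsAdicComplete (maximalIdeal O) O] [Finite (ResidueField O)] [CharZero O] [Fact (p ≠ 2)]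
    [CharP (ResidueField O) p] in
theorem p_ne_two : (2 : ResidueField O) ≠ 0 := h.tw.two

/-- When `τ` moves residually the representation over the ring is strictly ordinary. -/
theorem strict_rep (hL : p ∣ F.L) : (toRep X.rep X.isCont_rep).IsStrictOrdinaryAt p := by
  have hpb : p ∣ F.base F.t := hL.trans (F.base_dvd_base (Nat.zero_le _))
  have hw := X.ordVec_ring h hpb
  haveI : Finite (ResidueField X.Ring) :=
    Finite.of_surjective _ X.isResAlg_ring.map_bijective.2
  obtain ⟨a, b, hab⟩ : ∃ a b, IsUnit ((X.rep (pTau p) - 1) a b) := by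
    by_contra hno
    push Not at hno
    refine h.tauL hL _ (pTau_spec p) (sub_eq_zero.1 (Matrix.ext fun a b => ?_))
    have h0 := (Deform.augment_eq_zero_iff X.isResAlg_ring _).2 ((mem_maximalIdeal _).2 (hno a b))
    rw [Matrix.sub_apply, map_sub, X.residue_rep, Matrix.one_apply, apply_ite (augment _),
      map_one, map_zero] at h0
    rw [Matrix.sub_apply, Matrix.one_apply, Matrix.zero_apply]
    exact h0
  have hcls : IsUnit (Galois.clsAt X.rep X.pVec F.pEntry.1 (pTau p)) := by
    rw [congrFun (congrFun (Galois.sub_one_eq_lineMat X.natCast_mem_ring X.det_congr_rep hw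
      X.pVec_unit (pTau_spec p)) a) b, Matrix.smul_apply, smul_eq_mul, mul_assoc] at hab
    exact isUnit_of_mul_isUnit_left hab
  have h0 := Galois.z_sq_sub_one_mul_cls Galois.kummerInput Fact.out X.natCast_mem_ring X.isCont_rep
    X.det_congr_rep (padicPlace_liesOverPrime p) hw X.pVec_unit (pTau_spec p)
    (Arith.mem_decomposition_iff.2 (Arith.isFrobeniusAt_iff_forall_mem.mp (Fixed.pFr_spec p)).1)
  exact Galois.isStrictOrdinaryAt_of_ordVec Fact.out X.detIsCyclotomic_rep
    (padicPlace_liesOverPrime p) hw X.pVec_unit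
    (Galois.z_sq_eq_one X.isCont_rep hw X.pVec_unit (Fixed.pFr_spec p)
      (sub_eq_zero.1 (hcls.mul_left_eq_zero.1 h0)))

variable (δ : tangentDer X.isResAlg_ring)

local notation "cls" => tangentCls F.rig X.isResAlg_ring X.rep

omit h in
theorem der_algebraMap (c : O) : δ.1 (algebraMap O X.Ring c) = 0 := δ.2.2.2 c

omit h in
theorem der_sub (a b : X.Ring) : δ.1 (a - b) = δ.1 a - δ.1 b := by
  have := δ.2.1 (a - b) b
  rw [sub_add_cancel] at this
  rw [this, add_sub_cancel_right]

omit h in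
theorem der_one_apply (a b : Fin 2) : δ.1 ((1 : M2 X.Ring) a b) = 0 := by
  rw [Matrix.one_apply]
  split_ifs
  · exact tangentDer_one _ δ
  · exact tangentDer_zero _ δ

omit h in
/-- A class killing `nilAt` vanishes at the inertia element. -/
theorem cls_eq_zero_of_sub_one {σ : Gal} (hk : ∀ a b, δ.1 ((X.rep σ - 1) a b) = 0) :
    cls δ σ = 0 :=
  Assembly.tangentCls_eq_zero δ fun a b => by
    have := hk a b
    rwa [Matrix.sub_apply, der_sub, der_one_apply, sub_zero] at this

variable (hk : δ ∈ killedDer X.isResAlg_ring (X.plc h.hyp))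
include hk

theorem kill_nil_node (w : F.NdT) (a b : Fin 2) : δ.1 (X.nilAt w.1 a b) = 0 :=
  hk (Sum.inr (w, some (a, b)))

theorem kill_phi (w : F.NdT) : δ.1 (X.phiAt h.hyp w.1) = 0 :=
  hk (Sum.inr (w, none))

theorem kill_nil_scalar (v : F.VsT) (a b : Fin 2) : δ.1 (X.nilAt v.1 a b) = 0 := by
  have e : ∀ k : Fin 3, δ.1 (X.crd3 (X.nilAt v.1) k) = 0 := fun k => by
    have := hk (Sum.inl (v, 1, k))
    simpa [plc] using this
  have h00 : δ.1 (X.nilAt v.1 0 0) = 0 := e 0
  fin_cases a <;> fin_cases b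
  · exact h00
  · exact e 1
  · exact e 2
  · show δ.1 (X.nilAt v.1 1 1) = 0
    rw [X.nilAt_trace h.hyp v, ← zero_sub, der_sub, tangentDer_zero, h00, sub_zero]

theorem kill_frob_scalar (v : F.VsT) (k : Fin 3) :
    δ.1 (Assembly.tlCoord (algebraMap O X.Ring (half O p)) (X.rep (F.fr v.1)) k) = 0 := by
  have e : δ.1 (X.crd3 (X.frobAt v.1) k) = 0 := by
    have := hk (Sum.inl (v, 0, k))
    simpa [plc] using this
  have hc : (2 : X.Ring) * algebraMap O X.Ring (half O p) = 1 := by
    rw [← map_ofNat (algebraMap O X.Ring) 2, ← map_mul, two_mul_half, map_one]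
  fin_cases k
  · show δ.1 (algebraMap O X.Ring (half O p) * (X.rep (F.fr v.1) 0 0 - X.rep (F.fr v.1) 1 1)) = 0
    change δ.1 (X.frobAt v.1 0 0) = 0 at e
    rw [frobAt, Matrix.sub_apply, Matrix.smul_apply, smul_eq_mul, Matrix.one_apply_eq, mul_one,
      Matrix.trace_fin_two] at e
    rw [show algebraMap O X.Ring (half O p) * (X.rep (F.fr v.1) 0 0 - X.rep (F.fr v.1) 1 1) =
      X.rep (F.fr v.1) 0 0 - algebraMap O X.Ring (half O p) *
        (X.rep (F.fr v.1) 0 0 + X.rep (F.fr v.1) 1 1) by linear_combination (X.rep (F.fr v.1) 0 0) * hc]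
    exact e
  · show δ.1 (X.rep (F.fr v.1) 0 1) = 0
    change δ.1 (X.frobAt v.1 0 1) = 0 at e
    simpa [frobAt] using e
  · show δ.1 (X.rep (F.fr v.1) 1 0) = 0
    change δ.1 (X.frobAt v.1 1 0) = 0 at e
    simpa [frobAt] using e

theorem cls_vanishing (v : F.VsT) {g : Gal}
    (hg : g ∈ (F.place v.1).decompositionSubgroup ℚ) : cls δ g = 0 := by
  obtain ⟨hp, hs⟩ := v.2
  haveI : Fact (F.v v.1).Prime := ⟨F.v_prime _⟩
  obtain ⟨π, hπT, hπ0, hπ⟩ := (F.exists_tame v.1).choose_spec
  obtain ⟨hπord, hπσ, hπσp⟩ := hπ hp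
  have hT : cls δ (F.tame v.1) = 0 := X.cls_eq_zero_of_sub_one δ fun a b => by
    have := X.kill_nil_scalar h δ hk v a b
    rwa [nilAt, if_neg hp] at this
  obtain ⟨c, hc⟩ := hs _ (F.place_lies v.1) _ (F.fr_spec v.1)
  have hc0 : c ≠ 0 := fun h0 => CFT.Tangent.det_map_ne_zero F.rig.rb (F.fr v.1) (by
    rw [hc, h0, zero_smul, Matrix.det_zero])
  have hF : cls δ (F.fr v.1) = 0 := Assembly.tangentCls_eq_zero δ fun a b =>
    Assembly.eq_zero_of_tlCoord (p_ne_two h)
      (show 2 * algebraMap O X.Ring (half O p) = 1 by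
        rw [← map_ofNat (algebraMap O X.Ring) 2, ← map_mul, two_mul_half, map_one])
      δ hc0 (fun i j => by
        rw [X.residue_rep, hc, Matrix.smul_apply, Matrix.one_apply, smul_ite, smul_eq_mul, mul_one,
          smul_zero])
      (X.kill_frob_scalar h δ hk v)
      (by rw [X.det_fr h.hyp hp]; exact Patch.tangentDer_natCast δ _) a b
  exact Assembly.eq_zero_on_decomposition finiteLevel_rb
    (fun g g' => tangentCls_mul X.lifts_rep δ g g') (Patch.isFiniteLevel_tangentCls X.isCont_rep δ)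
    hp (h.hyp.unrV _ v.1.2 hp _ (F.place_lies v.1)) hπT hπ0 hπord hπσ hπσp hT (F.fr_spec v.1) hF hg

theorem cls_trivial (w : F.NdT) (hp : F.v w.1 ≠ p) :
    cls δ ∈ cobdOn F.rig.rb ((F.place w.1).decompositionSubgroup ℚ) := by
  haveI : Fact (F.v w.1).Prime := ⟨F.v_prime _⟩
  obtain ⟨π, hπT, hπ0, hπ⟩ := (F.exists_tame w.1).choose_spec
  obtain ⟨hπord, hπσ, hπσp⟩ := hπ hp
  refine mem_cobdOn_of_node (p_ne_two h) finiteLevel_rb hp
    (h.hyp.unrV _ w.1.2 hp _ (F.place_lies w.1)) (F.fr_spec w.1) (h.hyp.not_scalar w hp) hπT hπ0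
    hπord hπσ hπσp (fun g g' => tangentCls_mul X.lifts_rep δ g g')
    (Patch.isFiniteLevel_tangentCls X.isCont_rep δ)
    (Assembly.trace_tangentCls p X.lifts_rep X.isCont_rep X.detIsCyclotomic_rep δ _)
    (X.cls_eq_zero_of_sub_one δ fun a b => by
      have := X.kill_nil_node h δ hk w a b
      rwa [nilAt, if_neg hp] at this) ?_
  rw [Assembly.trace_tangentCls_mul_rb]
  have e := X.kill_phi h δ hk w
  rwa [phiAt, if_neg hp, der_sub, der_algebraMap, sub_zero] at e

/-- At a node at `p` the classes are strictly ordinary and vanish at `τ`. -/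
theorem cls_node (i : Fin F.t) (hp : F.v i = p) :
    cls δ (pTau p) = 0 ∧ (δ ≠ 0 → Strict.IsOrdClass p F.rig.rb (cls δ)) := by
  have hi : ¬ F.IsVs i := fun h' => h'.1 hp
  have hpb := Fixed.dvd_base_of_eq hp
  refine ⟨X.cls_eq_zero_of_sub_one δ fun a b => ?_, fun hδ => ?_⟩
  · have := X.kill_nil_node h δ hk ⟨i, hi⟩ a b
    rwa [nilAt, if_pos hp] at this
  letI := dualAlgebra O
  set f : X.Ring →+* DualNumber (ResidueField O) := (tangentHom X.isResAlg_ring δ :
    X.Ring →+* DualNumber (ResidueField O)) with hf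
  have hfl : IsLocalHom f := Assembly.isLocalHom_tangentHom δ
  have hw := X.ordVec_ring h hpb
  have key : ∀ (σ : Gal) (v : Fin 2 → X.Ring), mapM f X.rep σ *ᵥ (f ∘ v) = f ∘ (X.rep σ *ᵥ v) :=
    fun σ v => (funext fun a => f.map_mulVec (X.rep σ) v a).symm
  have hord : OrdVec (padicPlace p) (mapM f X.rep) (f ∘ X.pVec) := by
    refine ⟨fun σ hσ => ?_, fun σ hσ v => ?_⟩
    · rw [key, ← Galois.map_cross, hw.dec σ hσ, map_zero]
    · choose v' hv' using fun a => tangentHom_surjective X.isResAlg_ring hδ (v a)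
      obtain rfl : f ∘ v' = v := funext hv'
      rw [key, show f ∘ (X.rep σ *ᵥ v') - f ∘ v' = f ∘ (X.rep σ *ᵥ v' - v') from
        funext fun a => (map_sub f _ _).symm, ← Galois.map_cross, hw.inert σ hσ, map_zero]
  have hu : IsUnit ((f ∘ X.pVec) F.pEntry.1) := X.pVec_unit.map f
  have hα : f X.pAlpha = f (algebraMap O X.Ring F.pSgn) := by
    have e := X.kill_phi h δ hk ⟨i, hi⟩
    have e' : augment X.isResAlg_ring (X.phiAt h.hyp i) = 0 := by
      rw [augment_eq_eval, X.phiAt_eval h.hyp, map_zero]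
    rw [← sub_eq_zero, ← map_sub]
    rw [phiAt, if_pos hp] at e e'
    exact TrivSqZeroExt.ext e' e
  have hzF : zAt (mapM f X.rep) (f ∘ X.pVec) F.pEntry.1 (Fixed.pFr p) ^ 2 = 1 := by
    rw [← Galois.map_zAt f X.rep X.pVec_unit, show zAt X.rep X.pVec F.pEntry.1 (Fixed.pFr p) =
      X.pAlpha from rfl, hα, ← map_pow, ← map_pow, h.hyp.pSgn_sq hpb, map_one, map_one]
  haveI : IsNoetherianRing (DualNumber (ResidueField O)) :=
    isNoetherianRing_of_surjective X.Ring _ f (tangentHom_surjective X.isResAlg_ring hδ)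
  haveI : IsHausdorff (maximalIdeal (DualNumber (ResidueField O)))
      (DualNumber (ResidueField O)) :=
    IsHausdorff.of_isLocalRing _ _ (maximalIdeal.isMaximal _).ne_top
  have hc : IsCont (mapM f X.rep) := X.isCont_rep.map f hfl
  have hdet : (toRep (mapM f X.rep) hc).DetIsCyclotomic p := by
    refine ⟨?_, fun k σ a ha => ?_⟩
    · rw [← map_natCast f]
      exact map_nonunit f _ X.natCast_mem_ring
    · rw [show LinearMap.det ((toRep (mapM f X.rep) hc).ρ σ) = (mapM f X.rep σ).det from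
        LinearMap.det_toLin' _, show (mapM f X.rep σ).det = f (X.rep σ).det from (f.map_det _).symm,
        ← map_natCast f a, ← map_sub, Nat.cast_pow]
      obtain ⟨y, hy⟩ := Ideal.mem_span_singleton'.1 (X.det_congr_rep k σ a ha)
      exact Ideal.mem_span_singleton'.2 ⟨f y, by rw [← hy, map_mul, map_pow, map_natCast]⟩
  refine ⟨_, Pi.basisFun (DualNumber (ResidueField O)) (Fin 2),
    Galois.isStrictOrdinaryAt_of_ordVec (hc := hc) Fact.out hdet (padicPlace_liesOverPrime p) hord hu
      (Galois.z_sq_eq_one hc hord hu (Fixed.pFr_spec p) hzF), hdet, fun σ => ?_⟩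
  rw [matOf_toRep]
  exact mapM_tangentHom X.lifts_rep δ σ

/-- The classes satisfy the condition at `p`. -/
theorem cls_atP (hflat : ¬ p ∣ F.base F.t → (toRep X.rep X.isCont_rep).IsFlatAt p) (hδ : δ ≠ 0) :
    F.atP.Holds p F.rig.rb (cls δ) := by
  letI := dualAlgebra O
  set f : X.Ring →+* DualNumber (ResidueField O) := (tangentHom X.isResAlg_ring δ :
    X.Ring →+* DualNumber (ResidueField O)) with hf
  have hfl : IsLocalHom f := Assembly.isLocalHom_tangentHom δ
  letI alg : Algebra X.Ring (DualNumber (ResidueField O)) := f.toAlgebra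
  set B := (Pi.basisFun X.Ring (Fin 2)).baseChange (DualNumber (ResidueField O)) with hB
  have hmat : ∀ σ : Gal, matOf ((toRep X.rep X.isCont_rep).baseChangeAlong f hfl) B σ =
      (1 + epsM (cls δ σ)) * inlM (F.rig.rb σ) := fun σ => by
    refine (DFunLike.congr_fun (matOf_baseChangeAlong f hfl (toRep X.rep X.isCont_rep)
      (Pi.basisFun X.Ring (Fin 2))) σ).trans ?_
    rw [matOf_toRep]
    exact mapM_tangentHom X.lifts_rep δ σ
  have hdet := CFT.Tangent.DetIsCyclotomic.baseChange f hfl X.detIsCyclotomic_rep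
  rw [Fixed.atP]
  split_ifs with hL hb
  · exact ⟨(toRep X.rep X.isCont_rep).baseChangeAlong f hfl, B,
      CFT.Tangent.IsStrictOrdinaryAt.baseChange f hfl (X.strict_rep h hL), hdet, hmat⟩
  · rw [F.base_eq] at hb
    obtain ⟨i, hi, hd⟩ := (Prime.dvd_finsetProd_iff (Fact.out : p.Prime).prime _).1
      (((Fact.out : p.Prime).dvd_mul.1 hb).resolve_left hL)
    have hc := X.cls_node h δ hk ⟨i, Finset.mem_range.1 hi⟩
      ((Nat.prime_dvd_prime_iff_eq Fact.out (F.v_prime i)).1 hd).symm
    exact ⟨hc.2 hδ, hc.1⟩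
  · exact ⟨(toRep X.rep X.isCont_rep).baseChangeAlong f hfl, B,
      CFT.Tangent.IsFlatAt.baseChange f hfl (tangentHom_surjective X.isResAlg_ring hδ) (hflat hb),
      hdet, hmat⟩

omit hk

/-- **The bound on the derivations killing the coordinates of the places.** -/
theorem finrank_killed_le
    (hflat : ¬ p ∣ F.base F.t → (toRep X.rep X.isCont_rep).IsFlatAt p)
    (hbound : ∀ W : Submodule (ResidueField O) (Gal → M2 (ResidueField O)),
      Module.Finite (ResidueField O) W →
      IsLiftSpace p F.rig.rb F.setZ F.setV F.setU F.atP X.q W →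
      finrank (ResidueField O) W + 3 * F.setV.card + F.setU.card + F.atP.saved ≤ R) :
    finrank (ResidueField O) (killedDer X.isResAlg_ring (X.plc h.hyp)) + Nat.card F.NdT +
      3 * Nat.card F.VsT ≤ R := by
  classical
  set K := killedDer X.isResAlg_ring (X.plc h.hyp)
  let T : K →ₗ[ResidueField O] (Gal → M2 (ResidueField O)) :=
    (tangentCls F.rig X.isResAlg_ring X.rep).comp K.subtype
  have hTinj : Function.Injective T := fun a b hab => Subtype.ext (sub_eq_zero.1
    (Assembly.eq_zero_of_tangentCls_eq_cobdLin (X := 0) X.lifts_rep X.isNormal_rep X.adjoin_entries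
      (a.1 - b.1) (by rw [map_sub, map_zero, sub_eq_zero]; exact hab)))
  have hlift : IsLiftSpace p F.rig.rb F.setZ F.setV F.setU F.atP X.q (LinearMap.range T) := by
    refine ⟨?_, ?_, ?_, ?_, ?_, ?_, ?_, ?_, ?_⟩
    · rintro _ ⟨δ, rfl⟩ g g'
      exact tangentCls_mul X.lifts_rep δ.1 g g'
    · rintro _ ⟨δ, rfl⟩
      exact Patch.isFiniteLevel_tangentCls X.isCont_rep δ.1
    · rintro _ ⟨δ, rfl⟩ σ
      exact Assembly.trace_tangentCls p X.lifts_rep X.isCont_rep X.detIsCyclotomic_rep δ.1 σ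
    · rintro _ ⟨δ, rfl⟩ Y hY
      change cls δ.1 = _ at hY
      show cls δ.1 = 0
      rw [Assembly.eq_zero_of_tangentCls_eq_cobdLin X.lifts_rep X.isNormal_rep X.adjoin_entries δ.1
        hY, map_zero]
    · rintro _ ⟨δ, rfl⟩ ℓ hℓ hℓp hZ hV hU hq A hA τ hτ
      refine Assembly.tangentCls_eq_zero_of_eq_one δ.1
        (X.rep_unramified hℓ (fun hd => ?_) hℓp hA hτ)
      rw [top, X.lvl_eq] at hd
      rcases hℓ.dvd_mul.1 hd with hb | hb
      · rw [F.base_eq] at hb
        rcases hℓ.dvd_mul.1 hb with hb | hb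
        · exact hZ ((F.mem_setZ).2 ⟨hℓp, hℓ, hb⟩)
        · obtain ⟨i, hi, hd'⟩ := (Prime.dvd_finsetProd_iff hℓ.prime _).1 hb
          have he : F.v i = ℓ := ((Nat.prime_dvd_prime_iff_eq hℓ (F.v_prime i)).1 hd').symm
          by_cases hs : F.IsVs i
          · exact hV ((F.mem_setV).2 ⟨⟨i, Finset.mem_range.1 hi⟩, hs, he⟩)
          · exact hU ((F.mem_setU).2 ⟨hℓp, ⟨i, Finset.mem_range.1 hi⟩, hs, he⟩)
      · obtain ⟨i, hi⟩ := X.exists_eq_q hℓ hb
        exact hq i hi
    · rintro _ ⟨δ, rfl⟩ v hv A hA τ hτ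
      obtain ⟨hvp, hvP, hvL⟩ := (F.mem_setZ).1 hv
      show (cls δ.1 τ * F.rig.rb τ).trace = 0
      have hd : v ∣ F.base F.t := hvL.trans (F.base_dvd_base (Nat.zero_le _))
      have e := (X.rep_unipotent hvP hd hvp hA hτ (h.hyp.unipE v hvP hd hvp A hA τ hτ)).2
      rw [Matrix.trace_sub, Matrix.trace_one, Fintype.card_fin, sub_eq_zero] at e
      rw [Assembly.trace_tangentCls_mul_rb, e]
      exact Patch.tangentDer_natCast δ.1 2
    · rintro _ ⟨δ, rfl⟩ v hv' hv g hg
      obtain ⟨i, hi, rfl⟩ := (F.mem_setV).1 hv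
      exact X.cls_vanishing h δ.1 δ.2 ⟨i, hi⟩ hg
    · rintro _ ⟨δ, rfl⟩ v hv' hv
      obtain ⟨hvp, i, hi, rfl⟩ := (F.mem_setU).1 hv
      exact X.cls_trivial h δ.1 δ.2 ⟨i, hi⟩ hvp
    · rintro _ ⟨δ, rfl⟩ hne
      exact X.cls_atP h δ.1 δ.2 hflat fun h0 => hne (by
        show cls δ.1 = 0
        rw [h0, map_zero])
  have h1 := hbound (LinearMap.range T) inferInstance hlift
  rw [LinearMap.finrank_range_of_inj hTinj] at h1
  have h2 := F.card_NdT
  rw [F.card_VsT]
  omega

end Aux

end Fermat.Agent.RT.Lift59.Levels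

end
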